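import Fermat.Agent.S13.FreyTorsion
import Fermat.Agent.Lib.Frobenius

set_option autoImplicit false

namespace Fermat.Agent.S13

open WeierstrassCurve WeierstrassCurve.Affine WeierstrassCurve.Affine.Point

/-- the ordinate of a point (`0` at infinity). -/
def ycoord {F : Type*} [Field F] {W : Affine F} : W.Point → F
  | .zero => 0
  | .some _ y _ => y

section

variable {K : Type*} [Field K] [DecidableEq K] [Algebra ℚ K] (W' : Affine ℚ)

lemma smul_eq_self_of_coords (σ : K ≃ₐ[ℚ] K) (Q : (W'⁄K).Point) (hx : σ (xc Q) = xc Q)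
    (hy : σ (ycoord Q) = ycoord Q) : σ • Q = Q := by
  rcases Q with _ | ⟨x, y, h⟩
  · rfl
  · change Point.map σ.toAlgHom (Point.some x y h) = Point.some x y h
    have hx' : σ x = x := hx
    have hy' : σ y = y := hy
    rw [Point.map_some, Point.some.injEq]
    exact ⟨hx', hy'⟩

/-- the `n`-torsion is defined over a finite extension, if it is finite. -/
theorem exists_field_of_def [Algebra.IsAlgebraic ℚ K] (n : ℕ)
    [Finite (Submodule.torsionBy ℤ (W'⁄K).Point n)] :
    ∃ M : IntermediateField ℚ K, FiniteDimensional ℚ M ∧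
      ∀ σ ∈ M.fixingSubgroup, ∀ x : Submodule.torsionBy ℤ (W'⁄K).Point n, σ • x = x := by
  let S : Set K := Set.range (fun Q : Submodule.torsionBy ℤ (W'⁄K).Point n => xc Q.1) ∪
    Set.range (fun Q : Submodule.torsionBy ℤ (W'⁄K).Point n => ycoord Q.1)
  have hS : S.Finite := (Set.finite_range _).union (Set.finite_range _)
  have := hS.to_subtype
  refine ⟨IntermediateField.adjoin ℚ S, ?_, ?_⟩
  · exact IntermediateField.finiteDimensional_adjoin fun x _ =>
      (Algebra.IsAlgebraic.isAlgebraic x).isIntegral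
  · intro σ hσ Q
    apply Subtype.ext
    have hfix : ∀ x ∈ S, σ x = x := fun x hx =>
      (IntermediateField.mem_fixingSubgroup_iff _ σ).1 hσ x (IntermediateField.subset_adjoin ℚ S hx)
    exact smul_eq_self_of_coords W' σ Q.1 (hfix _ (Or.inl ⟨Q, rfl⟩)) (hfix _ (Or.inr ⟨Q, rfl⟩))

end

theorem frey_exists_field_of_def (P : FreyPackage) :
    ∃ M : IntermediateField ℚ (AlgebraicClosure ℚ), FiniteDimensional ℚ M ∧
      ∀ σ ∈ M.fixingSubgroup,
        ∀ x : Submodule.torsionBy ℤ (P.freyCurve⁄(AlgebraicClosure ℚ)).Point P.p, σ • x = x := by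
  have := frey_finite P
  have hG := Fermat.Agent.Lib.Frobenius.isGalois_algebraicClosure inferInstance
  have hAlg : Algebra.IsAlgebraic ℚ (AlgebraicClosure ℚ) := hG.to_normal.toIsAlgebraic
  exact exists_field_of_def P.freyCurve P.p

end Fermat.Agent.S13
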