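import Fermat.Agent.S13.Torsion

set_option autoImplicit false

namespace Fermat.Agent.S13

open Polynomial WeierstrassCurve

variable {K : Type*} [Field K] [DecidableEq K] (W : WeierstrassCurve K)

/-- the nonzero `p`-torsion points. -/
def torsSet (p : ℕ) : Set W.toAffine.Point := {P | P ≠ 0 ∧ p • P = 0}

lemma xc_mem_roots {p : ℕ} (hp : p.Prime) (hp2 : p ≠ 2) (hpK : (p : K) ≠ 0)
    {P : W.toAffine.Point} (hP : P ∈ torsSet W p) : xc P ∈ (W.preΨ p).roots.toFinset := by
  obtain ⟨h0, h1⟩ := hP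
  rcases P with _ | ⟨x, y, h⟩
  · exact absurd rfl h0
  · rw [Multiset.mem_toFinset, mem_roots (W.preΨ_ne_zero (by simpa using hpK))]
    exact eval_preΨ_eq_zero W hp hp2 h h1

lemma torsSet_fiber (p : ℕ) (x : K) :
    (torsSet W p ∩ xc ⁻¹' {x}).Finite ∧ (torsSet W p ∩ xc ⁻¹' {x}).ncard ≤ 2 := by
  rcases Set.eq_empty_or_nonempty (torsSet W p ∩ xc ⁻¹' {x}) with h | ⟨A, hA⟩
  · rw [h]; simp
  · have hsub : torsSet W p ∩ xc ⁻¹' {x} ⊆ {A, -A} := by
      intro B hB
      have : xc B = xc A := by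
        rw [hB.2, hA.2]
      rcases (xc_eq_iff hB.1.1 hA.1.1).1 this with h | h
      · left; exact h
      · right; exact h
    have hfin : ({A, -A} : Set W.toAffine.Point).Finite := by simp
    refine ⟨hfin.subset hsub, (Set.ncard_le_ncard hsub hfin).trans ?_⟩
    refine (Set.ncard_insert_le _ _).trans ?_
    rw [Set.ncard_singleton]

lemma torsSet_finite {p : ℕ} (hp : p.Prime) (hp2 : p ≠ 2) (hpK : (p : K) ≠ 0) :
    (torsSet W p).Finite := by
  refine Set.Finite.of_finite_fibers xc ?_ (fun x _ => (torsSet_fiber W p x).1)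
  refine (Finset.finite_toSet (W.preΨ p).roots.toFinset).subset ?_
  rintro _ ⟨P, hP, rfl⟩
  exact xc_mem_roots W hp hp2 hpK hP

lemma torsSet_ncard_le_image {p : ℕ} (hp : p.Prime) (hp2 : p ≠ 2) (hpK : (p : K) ≠ 0) :
    (torsSet W p).ncard ≤ 2 * ((torsSet_finite W hp hp2 hpK).toFinset.image xc).card := by
  rw [Set.ncard_eq_toFinset_card _ (torsSet_finite W hp hp2 hpK)]
  refine Finset.card_le_mul_card_image _ 2 ?_
  intro x _
  refine le_trans (le_of_eq ?_) (torsSet_fiber W p x).2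
  rw [Set.ncard_eq_toFinset_card _ (torsSet_fiber W p x).1]
  congr 1
  ext P
  simp

lemma image_subset_roots {p : ℕ} (hp : p.Prime) (hp2 : p ≠ 2) (hpK : (p : K) ≠ 0) :
    (torsSet_finite W hp hp2 hpK).toFinset.image xc ⊆ (W.preΨ p).roots.toFinset := by
  intro x hx
  obtain ⟨P, hP, rfl⟩ := Finset.mem_image.1 hx
  exact xc_mem_roots W hp hp2 hpK (by simpa using hP)

omit [DecidableEq K] in
lemma natDegree_preΨ_prime {p : ℕ} (hp : p.Prime) (hp2 : p ≠ 2) (hpK : (p : K) ≠ 0) :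
    (W.preΨ p).natDegree = (p ^ 2 - 1) / 2 := by
  rw [W.natDegree_preΨ (by simpa using hpK), if_neg (by simpa using hp.odd_of_ne_two hp2)]
  simp

lemma two_mul_natDegree_preΨ_prime {p : ℕ} (hp : p.Prime) (hp2 : p ≠ 2) (hpK : (p : K) ≠ 0) :
    2 * (W.preΨ p).natDegree = p ^ 2 - 1 := by
  rw [natDegree_preΨ_prime W hp hp2 hpK]
  obtain ⟨k, rfl⟩ := hp.odd_of_ne_two hp2
  have : (2 * k + 1) ^ 2 - 1 = 2 * (2 * k ^ 2 + 2 * k) := by
    have : (2 * k + 1) ^ 2 = 2 * (2 * k ^ 2 + 2 * k) + 1 := by ring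
    omega
  rw [this]
  omega

theorem torsSet_ncard_le {p : ℕ} (hp : p.Prime) (hp2 : p ≠ 2) (hpK : (p : K) ≠ 0) :
    (torsSet W p).ncard ≤ p ^ 2 - 1 := by
  refine (torsSet_ncard_le_image W hp hp2 hpK).trans ?_
  rw [← two_mul_natDegree_preΨ_prime W hp hp2 hpK]
  refine Nat.mul_le_mul_left 2 ?_
  exact (Finset.card_le_card (image_subset_roots W hp hp2 hpK)).trans
    ((Multiset.toFinset_card_le _).trans (card_roots' _))

/-- If there are `p ^ 2 - 1` nonzero torsion points, the division polynomial is separable and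
splits. -/
theorem preΨ_eq_prod {p : ℕ} (hp : p.Prime) (hp2 : p ≠ 2) (hpK : (p : K) ≠ 0)
    (hcard : (torsSet W p).ncard = p ^ 2 - 1) :
    (torsSet_finite W hp hp2 hpK).toFinset.image xc = (W.preΨ p).roots.toFinset ∧
    W.preΨ p = C (p : K) * ∏ x ∈ (W.preΨ p).roots.toFinset, (X - C x) := by
  have h1 := torsSet_ncard_le_image W hp hp2 hpK
  rw [hcard, ← two_mul_natDegree_preΨ_prime W hp hp2 hpK] at h1
  have h2 : (W.preΨ p).natDegree ≤ ((torsSet_finite W hp hp2 hpK).toFinset.image xc).card := by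
    omega
  have h3 := Finset.card_le_card (image_subset_roots W hp hp2 hpK)
  have h4 := Multiset.toFinset_card_le (W.preΨ p).roots
  have h5 := card_roots' (W.preΨ p)
  have h6 : (W.preΨ p).roots.toFinset.card = Multiset.card (W.preΨ p).roots := by omega
  have h7 : Multiset.card (W.preΨ p).roots = (W.preΨ p).natDegree := by omega
  refine ⟨Finset.eq_of_subset_of_card_le (image_subset_roots W hp hp2 hpK) (by omega), ?_⟩
  have hnd : (W.preΨ p).roots.Nodup := Multiset.toFinset_card_eq_card_iff_nodup.1 h6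
  have h8 := C_leadingCoeff_mul_prod_multiset_X_sub_C h7
  rw [W.leadingCoeff_preΨ (by simpa using hpK), if_neg (by simpa using hp.odd_of_ne_two hp2)] at h8
  conv_lhs => rw [← h8]
  rw [Finset.prod_eq_multiset_prod, Multiset.toFinset_val, hnd.dedup]
  simp

end Fermat.Agent.S13
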