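import Fermat.Prelude.Def_FLTPrelim_CofixedLine
import Fermat.Agent.S13.Card

set_option autoImplicit false

namespace Fermat.Agent.S13

open WeierstrassCurve WeierstrassCurve.Affine WeierstrassCurve.Affine.Point

section general

variable {K : Type*} [Field K] [DecidableEq K] (W : WeierstrassCurve K)

lemma mem_torsionBy_iff_nsmul (p : ℕ) (Q : W.toAffine.Point) :
    Q ∈ Submodule.torsionBy ℤ W.toAffine.Point p ↔ p • Q = 0 := by
  rw [Submodule.mem_torsionBy_iff, natCast_zsmul]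

lemma torsionBy_coe_eq (p : ℕ) :
    (Submodule.torsionBy ℤ W.toAffine.Point p : Set W.toAffine.Point) = insert 0 (torsSet W p) := by
  ext Q
  simp only [SetLike.mem_coe, mem_torsionBy_iff_nsmul, Set.mem_insert_iff, torsSet,
    Set.mem_ofPred_eq]
  constructor
  · intro h
    by_cases h0 : Q = 0
    · exact Or.inl h0
    · exact Or.inr ⟨h0, h⟩
  · rintro (rfl | h)
    · simp
    · exact h.2

theorem torsionBy_finite {p : ℕ} (hp : p.Prime) (hp2 : p ≠ 2) (hpK : (p : K) ≠ 0) :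
    Finite (Submodule.torsionBy ℤ W.toAffine.Point p) := by
  have : (Submodule.torsionBy ℤ W.toAffine.Point p : Set W.toAffine.Point).Finite := by
    rw [torsionBy_coe_eq]
    exact (torsSet_finite W hp hp2 hpK).insert 0
  exact this.to_subtype

lemma card_torsionBy_eq {p : ℕ} (hp : p.Prime) (hp2 : p ≠ 2) (hpK : (p : K) ≠ 0) :
    Nat.card (Submodule.torsionBy ℤ W.toAffine.Point p) = (torsSet W p).ncard + 1 := by
  have h1 : Nat.card (Submodule.torsionBy ℤ W.toAffine.Point p) =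
      (Submodule.torsionBy ℤ W.toAffine.Point p : Set W.toAffine.Point).ncard := rfl
  rw [h1, torsionBy_coe_eq, Set.ncard_insert_of_notMem (fun h => h.1 rfl)
    (torsSet_finite W hp hp2 hpK)]

theorem card_torsionBy_le {p : ℕ} (hp : p.Prime) (hp2 : p ≠ 2) (hpK : (p : K) ≠ 0) :
    Nat.card (Submodule.torsionBy ℤ W.toAffine.Point p) ≤ p ^ 2 := by
  rw [card_torsionBy_eq W hp hp2 hpK]
  have := torsSet_ncard_le W hp hp2 hpK
  have h1 : 0 < p ^ 2 := pow_pos hp.pos 2
  omega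

theorem torsionBy_nontrivial [CharZero K] [IsAlgClosed K] (hΔ : W.Δ ≠ 0) {n : ℕ} (hn : Odd n)
    (hn2 : 2 < n) : Nontrivial (Submodule.torsionBy ℤ W.toAffine.Point n) := by
  obtain ⟨Q, hQ0, hQ⟩ := exists_torsion_point W hΔ hn hn2
  refine ⟨⟨⟨Q, (mem_torsionBy_iff_nsmul W n Q).2 hQ⟩, 0, ?_⟩⟩
  intro h
  exact hQ0 (congrArg Subtype.val h)

end general

section linalg

/-- a proper nonzero subspace of a space with at most `p ^ 2` elements. -/
theorem line_finrank_card {p : ℕ} [Fact p.Prime] {V : Type*} [AddCommGroup V] [Module (ZMod p) V]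
    [Finite V] (hV : Nat.card V ≤ p ^ 2) (N : Submodule (ZMod p) V) (h0 : N ≠ ⊥) (h1 : N ≠ ⊤) :
    Module.finrank (ZMod p) V = 2 ∧ Module.finrank (ZMod p) N = 1 ∧ Nat.card V = p ^ 2 ∧
      Nat.card N = p := by
  have hp : 1 < p := (Fact.out : p.Prime).one_lt
  have hcV : Nat.card V = p ^ Module.finrank (ZMod p) V := by
    rw [Module.natCard_eq_pow_finrank (K := ZMod p) (V := V), Nat.card_zmod]
  have hcN : Nat.card N = p ^ Module.finrank (ZMod p) N := by
    rw [Module.natCard_eq_pow_finrank (K := ZMod p) (V := N), Nat.card_zmod]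
  have h2 : Module.finrank (ZMod p) V ≤ 2 := by
    rw [hcV] at hV
    exact (Nat.pow_le_pow_iff_right hp).1 hV
  have h3 : Module.finrank (ZMod p) N < Module.finrank (ZMod p) V :=
    Submodule.finrank_lt h1
  have h4 : 0 < Module.finrank (ZMod p) N := by
    rw [Module.finrank_pos_iff]
    exact Submodule.nontrivial_iff_ne_bot.2 h0
  have h5 : Module.finrank (ZMod p) V = 2 := by omega
  have h6 : Module.finrank (ZMod p) N = 1 := by omega
  refine ⟨h5, h6, ?_, ?_⟩
  · rw [hcV, h5]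
  · rw [hcN, h6, pow_one]

end linalg

section frey

lemma frey_Δ (P : FreyPackage) :
    P.freyCurve.Δ = ((P.a : ℚ) ^ P.p * (P.b : ℚ) ^ P.p * (P.c : ℚ) ^ P.p) ^ 2 / 256 := by
  have hFLT : (P.a : ℚ) ^ P.p + (P.b : ℚ) ^ P.p = (P.c : ℚ) ^ P.p := by exact_mod_cast P.hFLT
  rw [← hFLT]
  simp only [FreyPackage.freyCurve, WeierstrassCurve.Δ, WeierstrassCurve.b₂, WeierstrassCurve.b₄,
    WeierstrassCurve.b₆, WeierstrassCurve.b₈]
  ring

lemma frey_Δ_ne_zero (P : FreyPackage) : P.freyCurve.Δ ≠ 0 := by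
  rw [frey_Δ]
  have ha0 : (P.a : ℚ) ^ P.p ≠ 0 := pow_ne_zero _ (by exact_mod_cast P.ha0)
  have hb0 : (P.b : ℚ) ^ P.p ≠ 0 := pow_ne_zero _ (by exact_mod_cast P.hb0)
  have hc0 : (P.c : ℚ) ^ P.p ≠ 0 := pow_ne_zero _ (by exact_mod_cast P.hc0)
  positivity

lemma frey_baseChange_Δ_ne_zero (P : FreyPackage) (K : Type*) [Field K] [Algebra ℚ K] :
    (P.freyCurve⁄K).Δ ≠ 0 := by
  change (WeierstrassCurve.map P.freyCurve (algebraMap ℚ K)).Δ ≠ 0
  rw [WeierstrassCurve.map_Δ]
  exact (_root_.map_ne_zero _).2 (frey_Δ_ne_zero P)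

variable (P : FreyPackage)

theorem frey_nontrivial :
    Nontrivial (Submodule.torsionBy ℤ (P.freyCurve⁄(AlgebraicClosure ℚ)).Point P.p) :=
  torsionBy_nontrivial _ (frey_baseChange_Δ_ne_zero P _) P.hp_odd (by have := P.hp5; omega)

theorem frey_finite :
    Finite (Submodule.torsionBy ℤ (P.freyCurve⁄(AlgebraicClosure ℚ)).Point P.p) :=
  torsionBy_finite _ P.pp (by have := P.hp5; omega) (by exact_mod_cast P.hp0)

theorem frey_card_le :
    Nat.card (Submodule.torsionBy ℤ (P.freyCurve⁄(AlgebraicClosure ℚ)).Point P.p) ≤ P.p ^ 2 :=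
  card_torsionBy_le _ P.pp (by have := P.hp5; omega) (by exact_mod_cast P.hp0)

theorem frey_line
    (N : Submodule (ZMod P.p) (Submodule.torsionBy ℤ (P.freyCurve⁄(AlgebraicClosure ℚ)).Point P.p))
    (h0 : N ≠ ⊥) (h1 : N ≠ ⊤) :
    Module.finrank (ZMod P.p)
        (Submodule.torsionBy ℤ (P.freyCurve⁄(AlgebraicClosure ℚ)).Point P.p) = 2 ∧
      Module.finrank (ZMod P.p) N = 1 ∧
      Nat.card (Submodule.torsionBy ℤ (P.freyCurve⁄(AlgebraicClosure ℚ)).Point P.p) = P.p ^ 2 ∧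
      Nat.card N = P.p := by
  have : Fact P.p.Prime := ⟨P.pp⟩
  have := frey_finite P
  exact line_finrank_card (frey_card_le P) N h0 h1

end frey

end Fermat.Agent.S13
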