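import Mathlib
import Fermat.Prelude.Def_FLTPrelim_Ramification

set_option autoImplicit false
set_option linter.unusedSectionVars false
set_option linter.unusedVariables false

namespace Fermat.Agent.S13

open scoped Pointwise

variable {K L : Type*} [Field K] [Field L] [Algebra K L]

lemma mem_iff_of_inertia (A : ValuationSubring L) {σ : L ≃ₐ[K] L}
    (hσ : σ ∈ A.inertiaSubgroupIn K) (y : L) : σ y ∈ A ↔ y ∈ A := by
  obtain ⟨τ, hτ, rfl⟩ := hσ
  have h1 : (τ : L ≃ₐ[K] L) • A = A := τ.2
  have h2 : (τ : L ≃ₐ[K] L) • y ∈ (τ : L ≃ₐ[K] L) • A ↔ y ∈ A :=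
    ValuationSubring.smul_mem_pointwise_smul_iff
  rw [h1] at h2
  exact h2

lemma val_le_iff_of_inertia (A : ValuationSubring L) {σ : L ≃ₐ[K] L}
    (hσ : σ ∈ A.inertiaSubgroupIn K) (a b : L) :
    A.valuation (σ a) ≤ A.valuation (σ b) ↔ A.valuation a ≤ A.valuation b := by
  by_cases hb : b = 0
  · subst hb
    simp
  · have hb' : σ b ≠ 0 := by simpa using hb
    have h0 : 0 < A.valuation b := zero_lt_iff.mpr ((Valuation.ne_zero_iff _).mpr hb)
    have h0' : 0 < A.valuation (σ b) := zero_lt_iff.mpr ((Valuation.ne_zero_iff _).mpr hb')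
    rw [← div_le_one₀ h0, ← div_le_one₀ h0', ← map_div₀, ← map_div₀, ← map_div₀,
      ValuationSubring.valuation_le_one_iff, ValuationSubring.valuation_le_one_iff]
    exact mem_iff_of_inertia A hσ _

lemma exists_pow_fix [Algebra.IsAlgebraic K L] (σ : L ≃ₐ[K] L) (x : L) :
    ∃ n : ℕ, 0 < n ∧ (σ ^ n) x = x := by
  have hx : IsAlgebraic K x := Algebra.IsAlgebraic.isAlgebraic x
  have hfin : ((minpoly K x).rootSet L).Finite := Polynomial.rootSet_finite _ _
  have hmem : ∀ k : ℕ, (σ ^ k) x ∈ (minpoly K x).rootSet L := by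
    intro k
    rw [Polynomial.mem_rootSet]
    refine ⟨minpoly.ne_zero hx.isIntegral, ?_⟩
    have : Polynomial.aeval ((σ ^ k) x) (minpoly K x) =
        (σ ^ k) (Polynomial.aeval x (minpoly K x)) := by
      exact Polynomial.aeval_algHom_apply ((σ ^ k : L ≃ₐ[K] L) : L →ₐ[K] L) x _
    rw [this, minpoly.aeval, map_zero]
  have := hfin.to_subtype
  obtain ⟨i, j, hij, heq⟩ := Finite.exists_ne_map_eq_of_infinite
    (fun k : ℕ => (⟨(σ ^ k) x, hmem k⟩ : (minpoly K x).rootSet L))
  have heq' : (σ ^ i) x = (σ ^ j) x := congrArg Subtype.val heq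
  wlog hlt : i < j generalizing i j
  · exact this j i hij.symm heq.symm heq'.symm (by omega)
  refine ⟨j - i, by omega, ?_⟩
  have hj : j = i + (j - i) := by omega
  rw [hj, pow_add, AlgEquiv.mul_apply] at heq'
  exact ((σ ^ i).injective heq').symm

/-- elements of the inertia group preserve the valuation. -/
theorem val_sigma_eq [Algebra.IsAlgebraic K L] (A : ValuationSubring L) {σ : L ≃ₐ[K] L}
    (hσ : σ ∈ A.inertiaSubgroupIn K) (x : L) : A.valuation (σ x) = A.valuation x := by
  obtain ⟨n, hn, hfix⟩ := exists_pow_fix σ x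
  have hle := val_le_iff_of_inertia A hσ
  have hlt : ∀ a b : L, A.valuation (σ a) < A.valuation (σ b) ↔ A.valuation a < A.valuation b := by
    intro a b
    rw [← not_le, ← not_le, hle]
  rcases lt_trichotomy (A.valuation (σ x)) (A.valuation x) with h | h | h
  · exfalso
    have key : ∀ k : ℕ, A.valuation ((σ ^ (k + 1)) x) < A.valuation x := by
      intro k
      induction k with
      | zero => simpa using h
      | succ k ih =>
        have : A.valuation (σ ((σ ^ (k + 1)) x)) < A.valuation (σ x) := (hlt _ _).mpr ih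
        rw [pow_succ' σ (k + 1), AlgEquiv.mul_apply]
        exact this.trans h
    have := key (n - 1)
    rw [show n - 1 + 1 = n by omega, hfix] at this
    exact lt_irrefl _ this
  · exact h
  · exfalso
    have key : ∀ k : ℕ, A.valuation x < A.valuation ((σ ^ (k + 1)) x) := by
      intro k
      induction k with
      | zero => simpa using h
      | succ k ih =>
        have : A.valuation (σ x) < A.valuation (σ ((σ ^ (k + 1)) x)) := (hlt _ _).mpr ih
        rw [pow_succ' σ (k + 1), AlgEquiv.mul_apply]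
        exact h.trans this
    have := key (n - 1)
    rw [show n - 1 + 1 = n by omega, hfix] at this
    exact lt_irrefl _ this

end Fermat.Agent.S13
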