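import Fermat.Agent.S13.LocalTwo
import Fermat.Agent.S13.LocalInertia

set_option autoImplicit false

namespace Fermat.Agent.S13

open WeierstrassCurve WeierstrassCurve.Affine WeierstrassCurve.Affine.Point

theorem isAlgebraic_Qbar (inst : Algebra ℚ (AlgebraicClosure ℚ)) :
    @Algebra.IsAlgebraic ℚ (AlgebraicClosure ℚ) _ _ inst := by
  have h : inst = AlgebraicClosure.instAlgebra ℚ := Subsingleton.elim _ _
  rw [h]
  infer_instance

/-- **E1**: inertia at `2` acts unipotently on the `p`-torsion of the Frey curve. -/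
theorem frey_unipotent_two (P : FreyPackage) (A : ValuationSubring (AlgebraicClosure ℚ))
    (hA : A.LiesOverPrime 2) (σ : AlgebraicClosure ℚ ≃ₐ[ℚ] AlgebraicClosure ℚ)
    (hσ : σ ∈ A.inertiaSubgroupIn ℚ) (x : (P.freyCurve⁄(AlgebraicClosure ℚ)).Point)
    (hx : P.p • x = 0) : σ • (σ • x - x) = σ • x - x := by
  have := isAlgebraic_Qbar inferInstance
  exact frey_unipotent_two_aux P A (by have := A.mem_nonunits_iff.mp hA; simpa using this) hσ
    (val_sigma_eq A hσ) x hx

end Fermat.Agent.S13
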