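import Fermat.Agent.S13.LocalInst
import Fermat.Agent.S05

set_option autoImplicit false
set_option linter.unusedSectionVars false
set_option linter.unusedVariables false

namespace Fermat.Agent.S13

open Fermat.Agent.S05
open WeierstrassCurve WeierstrassCurve.Affine WeierstrassCurve.Affine.Point

section val

variable {K : Type*} [Field K] {Γ₀ : Type*} [LinearOrderedCommGroupWithZero Γ₀]
  {v : Valuation K Γ₀}

lemma Z_int {x y a₂ a₄ : K} (h : y ^ 2 + x * y = x ^ 3 + a₂ * x ^ 2 + a₄ * x)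
    (ha₂ : v a₂ ≤ 1) (ha₄ : v a₄ ≤ 1) (hx : v x ≤ 1) : v y ≤ 1 := by
  by_contra hy
  push Not at hy
  have h1 : v (x ^ 3 + a₂ * x ^ 2 + a₄ * x) ≤ 1 :=
    le1_add v (le1_add v (le1_pow v hx 3) (le1_mul v ha₂ (le1_pow v hx 2))) (le1_mul v ha₄ hx)
  have h2 : v (y + x) = v y := Valuation.map_add_eq_of_lt_left v (lt_of_le_of_lt hx hy)
  have h3 : y ^ 2 + x * y = y * (y + x) := by ring
  rw [← h, h3, map_mul, h2] at h1
  have h4 : 1 < v y * v y := one_lt_mul'' hy hy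
  exact absurd h1 (not_le.mpr h4)

lemma Z_node {x y a₂ a₄ : K} (h : y ^ 2 + x * y = x ^ 3 + a₂ * x ^ 2 + a₄ * x)
    (ha₂ : v a₂ ≤ 1) (hx : v a₄ < v x) (hx1 : v x < 1) : v y ≤ v x := by
  by_contra hy
  push Not at hy
  have hx0 : 0 < v x := lt_of_le_of_lt zero_le hx
  have h1 : v (x ^ 3 + a₂ * x ^ 2 + a₄ * x) ≤ v x * v x := by
    refine Valuation.map_add_le v (Valuation.map_add_le v ?_ ?_) ?_
    · rw [map_pow, pow_succ, sq]
      exact mul_le_of_le_one_right' hx1.le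
    · rw [map_mul, map_pow, sq]
      exact mul_le_of_le_one_left' ha₂
    · rw [map_mul]
      exact mul_le_mul_left hx.le _
  have h2 : v (y + x) = v y := Valuation.map_add_eq_of_lt_left v hy
  have h3 : y ^ 2 + x * y = y * (y + x) := by ring
  rw [← h, h3, map_mul, h2] at h1
  have h4 : v x * v x < v y * v y := mul_lt_mul'' hy hy zero_le zero_le
  exact absurd h1 (not_le.mpr h4)

end val

section galois

variable {K : Type*} [Field K] [DecidableEq K] [Algebra ℚ K]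

lemma Xc_smul (W' : Affine ℚ) (σ : K ≃ₐ[ℚ] K) (e : ℚ) (P : (W'⁄K).Point) :
    Xc (algebraMap ℚ K e) (σ • P) = σ (Xc (algebraMap ℚ K e) P) := by
  rcases P with _ | ⟨x, y, h⟩
  · change (0 : K) = σ 0
    simp
  · change σ x - algebraMap ℚ K e = σ (x - algebraMap ℚ K e)
    simp

lemma Yc_smul (W' : Affine ℚ) (σ : K ≃ₐ[ℚ] K) (P : (W'⁄K).Point) :
    Yc (σ • P) = σ (Yc P) := by
  rcases P with _ | ⟨x, y, h⟩
  · change (0 : K) = σ 0
    simp
  · change 2 * σ y + (W'⁄K).a₁ * σ x + (W'⁄K).a₃ = σ (2 * y + (W'⁄K).a₁ * x + (W'⁄K).a₃)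
    simp [WeierstrassCurve.baseChange, map_ofNat]

lemma Zc_smul (W' : Affine ℚ) (σ : K ≃ₐ[ℚ] K) (P : (W'⁄K).Point) :
    Zc (σ • P) = σ (Zc P) := by
  rcases P with _ | ⟨x, y, h⟩
  · change (0 : K) = σ 0
    simp
  · rfl

end galois

section frey

lemma frey_a₂_int (P : FreyPackage) : ∃ n : ℤ, P.freyCurve.a₂ = (n : ℚ) := by
  have h4 : (4 : ℤ) ∣ P.b ^ P.p - 1 - P.a ^ P.p := by
    apply (ZMod.intCast_zmod_eq_zero_iff_dvd _ 4).1
    have hb : (2 : ℤ) ∣ P.b := (ZMod.intCast_zmod_eq_zero_iff_dvd P.b 2).1 P.hb2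
    have hb4 : (4 : ℤ) ∣ P.b ^ P.p := by
      obtain ⟨k, hk⟩ := hb
      have : P.p = 2 + (P.p - 2) := by have := P.hp5; omega
      rw [hk, this, pow_add, mul_pow]
      exact ⟨k ^ 2 * (2 * k) ^ (P.p - 2), by ring⟩
    have hb4' : ((P.b ^ P.p : ℤ) : ZMod 4) = 0 := (ZMod.intCast_zmod_eq_zero_iff_dvd _ 4).2 hb4
    push_cast at hb4' ⊢
    rw [hb4', P.ha4]
    obtain ⟨k, hk⟩ := P.hp_odd
    rw [hk, pow_succ, pow_mul]
    have : (3 : ZMod 4) ^ 2 = 1 := by decide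
    rw [this, one_pow]
    decide
  obtain ⟨n, hn⟩ := h4
  refine ⟨n, ?_⟩
  have : ((P.b : ℚ) ^ P.p - 1 - (P.a : ℚ) ^ P.p) = 4 * n := by exact_mod_cast hn
  simp only [FreyPackage.freyCurve]
  rw [this]; ring

lemma frey_a₄_int (P : FreyPackage) : ∃ n : ℤ, P.freyCurve.a₄ = ((2 * n : ℤ) : ℚ) := by
  have hb : (2 : ℤ) ∣ P.b := (ZMod.intCast_zmod_eq_zero_iff_dvd P.b 2).1 P.hb2
  obtain ⟨k, hk⟩ := hb
  have h5 : P.p = 5 + (P.p - 5) := by have := P.hp5; omega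
  refine ⟨-(P.a ^ P.p) * (k ^ 5 * (2 * k) ^ (P.p - 5)), ?_⟩
  simp only [FreyPackage.freyCurve]
  have : (P.b : ℚ) ^ P.p = 32 * ((k : ℚ) ^ 5 * (2 * k) ^ (P.p - 5)) := by
    conv_lhs => rw [h5, pow_add, hk]
    push_cast
    ring
  rw [this]
  push_cast
  ring

variable {K : Type*} [Field K] [DecidableEq K] [Algebra ℚ K] [CharZero K]

/-- the `IsXY2` structure on the Frey curve (`e = 0`). -/
lemma frey_isXY2 (P : FreyPackage) :
    IsXY2 (Xc 0 : (P.freyCurve⁄K).Point → K) Yc Zc (algebraMap ℚ K P.freyCurve.a₄)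
      (algebraMap ℚ K P.freyCurve.b₂) := by
  have hb2' : (P.freyCurve⁄K).b₂ = -4 * (3 * 0 + algebraMap ℚ K ((P.a : ℚ) ^ P.p / 4) +
      algebraMap ℚ K (-(P.b : ℚ) ^ P.p / 4)) := by
    change (P.freyCurve.map (algebraMap ℚ K)).b₂ = _
    rw [map_b₂, frey_b₂]
    have : (P.b : ℚ) ^ P.p - (P.a : ℚ) ^ P.p =
      -4 * (3 * 0 + (P.a : ℚ) ^ P.p / 4 + -(P.b : ℚ) ^ P.p / 4) := by ring
    rw [this]; simp only [map_mul, map_add, map_neg, map_ofNat, _root_.map_zero]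
  have hb4' : (P.freyCurve⁄K).b₄ = 2 * (3 * (0 : K) ^ 2 + 2 * 0 *
      (algebraMap ℚ K ((P.a : ℚ) ^ P.p / 4) + algebraMap ℚ K (-(P.b : ℚ) ^ P.p / 4)) +
      algebraMap ℚ K ((P.a : ℚ) ^ P.p / 4) * algebraMap ℚ K (-(P.b : ℚ) ^ P.p / 4)) := by
    change (P.freyCurve.map (algebraMap ℚ K)).b₄ = _
    rw [map_b₄, frey_b₄]
    have : -((P.a : ℚ) ^ P.p * (P.b : ℚ) ^ P.p) / 8 =
      2 * ((P.a : ℚ) ^ P.p / 4 * (-(P.b : ℚ) ^ P.p / 4)) := by ring
    rw [this, map_mul, map_mul, map_ofNat]; ring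
  have hb6' : (P.freyCurve⁄K).b₆ = -4 * 0 * (0 + algebraMap ℚ K ((P.a : ℚ) ^ P.p / 4)) *
      (0 + algebraMap ℚ K (-(P.b : ℚ) ^ P.p / 4)) := by
    change (P.freyCurve.map (algebraMap ℚ K)).b₆ = _
    rw [map_b₆, frey_b₆]; simp
  have h := isXY2_of hb2' hb4' hb6'
  have e1 : algebraMap ℚ K ((P.a : ℚ) ^ P.p / 4) * algebraMap ℚ K (-(P.b : ℚ) ^ P.p / 4) =
      algebraMap ℚ K P.freyCurve.a₄ := by
    rw [← map_mul]; congr 1
    simp only [FreyPackage.freyCurve]; ring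
  have e2 : -4 * (algebraMap ℚ K ((P.a : ℚ) ^ P.p / 4) + algebraMap ℚ K (-(P.b : ℚ) ^ P.p / 4)) =
      algebraMap ℚ K P.freyCurve.b₂ := by
    rw [frey_b₂]
    have : (P.b : ℚ) ^ P.p - (P.a : ℚ) ^ P.p =
      -4 * ((P.a : ℚ) ^ P.p / 4 + -(P.b : ℚ) ^ P.p / 4) := by ring
    rw [this]; simp only [map_mul, map_add, map_neg, map_ofNat]
  rwa [e1, e2] at h

lemma frey_a₄_ne_zero (P : FreyPackage) : algebraMap ℚ K P.freyCurve.a₄ ≠ 0 := by
  rw [Ne, map_eq_zero_iff _ (algebraMap ℚ K).injective]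
  simp only [FreyPackage.freyCurve]
  have ha0 : (P.a : ℚ) ^ P.p ≠ 0 := pow_ne_zero _ (by exact_mod_cast P.ha0)
  have hb0 : (P.b : ℚ) ^ P.p ≠ 0 := pow_ne_zero _ (by exact_mod_cast P.hb0)
  exact div_ne_zero (mul_ne_zero (neg_ne_zero.mpr ha0) hb0) (by norm_num)

variable {Γ₀ : Type*} [LinearOrderedCommGroupWithZero Γ₀] (v : Valuation K Γ₀)

lemma frey_val_a₂_le (P : FreyPackage) : v (algebraMap ℚ K P.freyCurve.a₂) ≤ 1 := by
  obtain ⟨n, hn⟩ := frey_a₂_int P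
  rw [hn, map_intCast]; exact valInt_le v n

lemma frey_val_a₄_lt (P : FreyPackage) (h2 : v (2 : K) < 1) :
    v (algebraMap ℚ K P.freyCurve.a₄) < 1 := by
  obtain ⟨n, hn⟩ := frey_a₄_int P
  rw [hn, map_intCast]
  exact valInt_lt_one v (q := 2) (by simpa using h2) (Dvd.intro _ rfl)

lemma frey_val_b₂_two (P : FreyPackage) (h2 : v (2 : K) < 1) :
    v (algebraMap ℚ K P.freyCurve.b₂) = 1 := by
  rw [frey_b₂]
  have : (P.b : ℚ) ^ P.p - (P.a : ℚ) ^ P.p = ((P.b ^ P.p - P.a ^ P.p : ℤ) : ℚ) := by push_cast; ring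
  rw [this, map_intCast]
  apply valInt_eq_one v Nat.prime_two (by simpa using h2)
  intro hd
  have hb : (2 : ℤ) ∣ P.b := (ZMod.intCast_zmod_eq_zero_iff_dvd P.b 2).1 P.hb2
  have hbp : (2 : ℤ) ∣ P.b ^ P.p := dvd_pow hb P.hp0
  have hap : (2 : ℤ) ∣ P.a ^ P.p := by
    have := dvd_sub hbp hd
    simpa using this
  have ha : (2 : ℤ) ∣ P.a := Int.prime_two.dvd_of_dvd_pow hap
  exact not_dvd_of_gcd Nat.prime_two P.hgcdab (by exact_mod_cast ha) (by exact_mod_cast hb)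

lemma frey_val_p_two (P : FreyPackage) (h2 : v (2 : K) < 1) : v (P.p : K) = 1 := by
  have : ¬ ((2 : ℕ) : ℤ) ∣ (P.p : ℤ) := by
    intro h
    have h' : 2 ∣ P.p := by exact_mod_cast h
    have := (Nat.prime_dvd_prime_iff_eq Nat.prime_two P.pp).mp h'
    have := P.hp5
    omega
  have h3 := valInt_eq_one v Nat.prime_two (by simpa using h2) this
  simpa using h3

lemma frey_equation (P : FreyPackage) (Q : (P.freyCurve⁄K).Point) :
    Zc Q ^ 2 + Xc 0 Q * Zc Q = Xc 0 Q ^ 3 + algebraMap ℚ K P.freyCurve.a₂ * Xc 0 Q ^ 2 +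
      algebraMap ℚ K P.freyCurve.a₄ * Xc 0 Q := by
  rcases Q with _ | ⟨x, y, h⟩
  · simp [← Point.zero_def]
  · have h1 := h.1
    rw [equation_iff] at h1
    simp only [Xc_some, Zc_some, sub_zero]
    have e1 : (P.freyCurve⁄K).a₁ = 1 := by
      change (P.freyCurve.map (algebraMap ℚ K)).a₁ = 1
      simp [FreyPackage.freyCurve]
    have e3 : (P.freyCurve⁄K).a₃ = 0 := by
      change (P.freyCurve.map (algebraMap ℚ K)).a₃ = 0
      simp [FreyPackage.freyCurve]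
    have e6 : (P.freyCurve⁄K).a₆ = 0 := by
      change (P.freyCurve.map (algebraMap ℚ K)).a₆ = 0
      simp [FreyPackage.freyCurve]
    have e2 : (P.freyCurve⁄K).a₂ = algebraMap ℚ K P.freyCurve.a₂ := rfl
    have e4 : (P.freyCurve⁄K).a₄ = algebraMap ℚ K P.freyCurve.a₄ := rfl
    rw [e1, e3, e6, e2, e4] at h1
    linear_combination h1

/-- inertia at `2` acts unipotently on the `p`-torsion of the Frey curve. -/
theorem frey_unipotent_two_aux (P : FreyPackage) (A : ValuationSubring K)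
    (h2 : A.valuation (2 : K) < 1) {σ : K ≃ₐ[ℚ] K} (hσ : σ ∈ A.inertiaSubgroupIn ℚ)
    (hσv : ∀ x, A.valuation (σ x) = A.valuation x)
    (x : (P.freyCurve⁄K).Point) (hx : P.p • x = 0) : σ • (σ • x - x) = σ • x - x := by
  have hp2 : P.p ≠ 2 := by have := P.hp5; omega
  refine unipotent_mult (v := A.valuation) (S := ⊤)
    (σG := DistribSMul.toAddMonoidHom (P.freyCurve⁄K).Point σ) (σK := (σ : K →+* K))
    (frey_isXY2 P) (frey_val_a₄_lt _ P h2) (frey_a₄_ne_zero P) (frey_val_b₂_two _ P h2)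
    P.pp hp2 ?_ ?_ ?_ ?_ ?_ (frey_val_p_two _ P h2) ?_ ?_ ?_ hx
  · intro Q hQ
    exact (smul_ne_zero_iff_ne σ).mpr hQ
  · intro Q
    have := Xc_smul P.freyCurve σ 0 Q
    rwa [_root_.map_zero] at this
  · intro Q
    exact Zc_smul P.freyCurve σ Q
  · intro y _ hy
    exact inertia_congr A hσ hy
  · intro Q _
    exact ⟨trivial, trivial⟩
  · intro y _
    exact hσv y
  · intro Q _ hQ
    exact Z_int (frey_equation P Q) (frey_val_a₂_le _ P) (frey_val_a₄_lt _ P h2).le hQ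
  · intro Q _ hQ1 hQ2
    exact Z_node (frey_equation P Q) (frey_val_a₂_le _ P) hQ1 hQ2

end frey

end Fermat.Agent.S13
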