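import Mathlib

set_option autoImplicit false

namespace Fermat.Agent.S13

open WeierstrassCurve WeierstrassCurve.Affine

variable {F : Type*} [Field F] {W : Affine F}

/-- The `x`-coordinate of a point, with value `0` at infinity. -/
def xc : W.Point → F
  | .zero => 0
  | .some x _ _ => x

@[simp] lemma xc_some {x y : F} (h : W.Nonsingular x y) : xc (Point.some x y h) = x := rfl

lemma xc_neg (A : W.Point) : xc (-A) = xc A := by
  cases A <;> rfl

/-- The symmetric triquadratic form. -/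
def Phi3 (W : Affine F) (u v c : F) : F :=
  u ^ 2 * v ^ 2 + u ^ 2 * c ^ 2 + v ^ 2 * c ^ 2 - 2 * u * v * c * (u + v + c) - W.b₂ * u * v * c
    - W.b₄ * (u * v + u * c + v * c) - W.b₆ * (u + v + c) - W.b₈

lemma Phi3_swap (u v c : F) : Phi3 W u v c = Phi3 W u c v := by
  unfold Phi3; ring

lemma xc_eq_iff {A B : W.Point} (hA : A ≠ 0) (hB : B ≠ 0) : xc A = xc B ↔ A = B ∨ A = -B := by
  rcases A with _ | ⟨x₁, y₁, h₁⟩
  · exact absurd rfl hA
  rcases B with _ | ⟨x₂, y₂, h₂⟩
  · exact absurd rfl hB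
  exact Point.X_eq_iff

variable [DecidableEq F]

theorem xc_add_sub (A B : W.Point) (hA : A ≠ 0) (hB : B ≠ 0) (hs : A + B ≠ 0) (hd : A - B ≠ 0)
    (c : F) :
    (xc (A + B) - c) * (xc (A - B) - c) * (xc A - xc B) ^ 2 = Phi3 W (xc A) (xc B) c := by
  have hne : xc A ≠ xc B := by
    intro h
    rcases (xc_eq_iff hA hB).1 h with h | h
    · exact hd (by rw [h, sub_self])
    · exact hs (by rw [h, neg_add_cancel])
  rcases A with _ | ⟨x₁, y₁, h₁⟩
  · exact absurd rfl hA
  rcases B with _ | ⟨x₂, y₂, h₂⟩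
  · exact absurd rfl hB
  simp only [xc_some] at hne ⊢
  rw [sub_eq_add_neg (Point.some x₁ y₁ h₁), Point.neg_some, Point.add_of_X_ne hne,
    Point.add_of_X_ne hne]
  simp only [xc_some]
  rw [slope_of_X_ne hne, slope_of_X_ne hne]
  have e₁ := (equation_iff _ _).1 h₁.1
  have e₂ := (equation_iff _ _).1 h₂.1
  have hD : x₁ - x₂ ≠ 0 := sub_ne_zero.2 hne
  simp only [addX, negY, Phi3, WeierstrassCurve.b₂, WeierstrassCurve.b₄, WeierstrassCurve.b₆,
    WeierstrassCurve.b₈]
  field_simp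
  grind

theorem xc_add_add_sub (A B : W.Point) (hA : A ≠ 0) (hB : B ≠ 0) (hs : A + B ≠ 0)
    (hd : A - B ≠ 0) :
    (xc (A + B) + xc (A - B)) * (xc A - xc B) ^ 2 =
      2 * (xc A + xc B) * (xc A * xc B) + W.b₂ * (xc A * xc B) + W.b₄ * (xc A + xc B) + W.b₆ := by
  have hne : xc A ≠ xc B := by
    intro h
    rcases (xc_eq_iff hA hB).1 h with h | h
    · exact hd (by rw [h, sub_self])
    · exact hs (by rw [h, neg_add_cancel])
  rcases A with _ | ⟨x₁, y₁, h₁⟩
  · exact absurd rfl hA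
  rcases B with _ | ⟨x₂, y₂, h₂⟩
  · exact absurd rfl hB
  simp only [xc_some] at hne ⊢
  rw [sub_eq_add_neg (Point.some x₁ y₁ h₁), Point.neg_some, Point.add_of_X_ne hne,
    Point.add_of_X_ne hne]
  simp only [xc_some]
  rw [slope_of_X_ne hne, slope_of_X_ne hne]
  have e₁ := (equation_iff _ _).1 h₁.1
  have e₂ := (equation_iff _ _).1 h₂.1
  have hD : x₁ - x₂ ≠ 0 := sub_ne_zero.2 hne
  simp only [addX, negY, WeierstrassCurve.b₂, WeierstrassCurve.b₄, WeierstrassCurve.b₆]
  field_simp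
  grind

/-- `2 • P = 0` iff `ψ₂` vanishes. -/
lemma two_nsmul_eq_zero_iff {x y : F} (h : W.Nonsingular x y) :
    2 • Point.some x y h = 0 ↔ 2 * y + W.a₁ * x + W.a₃ = 0 := by
  rw [two_nsmul]
  constructor
  · intro h0
    by_contra hne
    have hy : y ≠ W.negY x y := by
      intro hy
      apply hne
      rw [negY] at hy
      linear_combination hy
    rw [Point.add_self_of_Y_ne hy] at h0
    exact Point.some_ne_zero _ h0
  · intro h0
    apply Point.add_self_of_Y_eq
    rw [negY]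
    linear_combination h0

/-- The duplication formula. -/
theorem xc_two_nsmul {x y : F} (h : W.Nonsingular x y) (h2 : 2 • Point.some x y h ≠ 0) :
    (xc (2 • Point.some x y h) - x) * (2 * y + W.a₁ * x + W.a₃) ^ 2 =
      -(3 * x ^ 4 + W.b₂ * x ^ 3 + 3 * W.b₄ * x ^ 2 + 3 * W.b₆ * x + W.b₈) := by
  have hb : 2 * y + W.a₁ * x + W.a₃ ≠ 0 := fun h0 => h2 ((two_nsmul_eq_zero_iff h).2 h0)
  have hy : y ≠ W.negY x y := by
    intro hy
    apply hb
    rw [negY] at hy
    linear_combination hy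
  rw [two_nsmul, Point.add_self_of_Y_ne hy]
  simp only [xc_some]
  have hs : W.slope x x y y =
      (3 * x ^ 2 + 2 * W.a₂ * x + W.a₄ - W.a₁ * y) / (2 * y + W.a₁ * x + W.a₃) := by
    rw [slope_of_Y_ne rfl hy]
    congr 1
    rw [negY]
    ring
  rw [hs]
  have e₁ := (equation_iff _ _).1 h.1
  simp only [addX, WeierstrassCurve.b₂, WeierstrassCurve.b₄, WeierstrassCurve.b₆,
    WeierstrassCurve.b₈]
  generalize hbb : 2 * y + W.a₁ * x + W.a₃ = b at hb ⊢
  field_simp
  subst hbb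
  grind

end Fermat.Agent.S13
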