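import Fermat.Agent.S13.LocalP
import Fermat.Agent.S13.LocalTwo
import Fermat.Agent.S13.ExportTwo
import Fermat.Agent.S13.XOnly
import Fermat.Agent.S05

set_option autoImplicit false
set_option linter.unusedSectionVars false

namespace Fermat.Agent.S13

open Fermat.Agent.S05
open WeierstrassCurve WeierstrassCurve.Affine WeierstrassCurve.Affine.Point

section general

variable {K : Type*} [Field K] [DecidableEq K] [Algebra ℚ K] [CharZero K]

lemma Xc_zero_eq_xc {W : Affine K} (Q : W.Point) : Xc 0 Q = xc Q := by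
  rcases Q with _ | ⟨x, y, h⟩
  · rfl
  · exact sub_zero x

lemma InE1_shift {W : Affine K} {Γ₀ : Type*} [LinearOrderedCommGroupWithZero Γ₀]
    (v : Valuation K Γ₀) {e : K} (he : v e ≤ 1) {Q : W.Point} (h : InE1 v (Xc e) Q) :
    InE1 v (Xc 0) Q := by
  rcases h with h | h
  · exact Or.inl h
  · rcases Q with _ | ⟨x, y, hxy⟩
    · exact Or.inl rfl
    · right
      simp only [Xc_some, sub_zero] at h ⊢
      by_contra hx
      push Not at hx
      exact absurd (le1_sub v hx he) (not_le.2 h)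

/-- `(σ - 1)²` maps the `p`-torsion to the kernel of reduction (odd residue characteristic,
good or multiplicative reduction). -/
theorem sq_mem_E1_of_inertia (W' : Affine ℚ) (A : ValuationSubring K) {σ : K ≃ₐ[ℚ] K}
    (hσ : σ ∈ A.inertiaSubgroupIn ℚ) (hσv : ∀ x, A.valuation (σ x) = A.valuation x)
    {e α β : ℚ}
    (hb2 : W'.b₂ = -4 * (3 * e + α + β))
    (hb4 : W'.b₄ = 2 * (3 * e ^ 2 + 2 * e * (α + β) + α * β))
    (hb6 : W'.b₆ = -4 * e * (e + α) * (e + β))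
    (he : A.valuation (algebraMap ℚ K e) ≤ 1)
    (hα1 : A.valuation (algebraMap ℚ K α) ≤ 1) (hα0 : α ≠ 0)
    (hβ : A.valuation (algebraMap ℚ K β) = 1)
    (hαβ : A.valuation (algebraMap ℚ K (α - β)) = 1) (h2 : A.valuation (2 : K) = 1)
    {p : ℕ} (hp : p.Prime) (hp2 : p ≠ 2)
    (x : (W'⁄K).Point) (hx : p • x = 0) :
    InE1 A.valuation (Xc 0) (σ • (σ • x - x) - (σ • x - x)) := by
  have hb2' : (W'⁄K).b₂ = -4 * (3 * algebraMap ℚ K e + algebraMap ℚ K α + algebraMap ℚ K β) := by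
    change (W'.map (algebraMap ℚ K)).b₂ = _
    rw [map_b₂, hb2]; simp
  have hb4' : (W'⁄K).b₄ = 2 * (3 * algebraMap ℚ K e ^ 2 + 2 * algebraMap ℚ K e *
      (algebraMap ℚ K α + algebraMap ℚ K β) + algebraMap ℚ K α * algebraMap ℚ K β) := by
    change (W'.map (algebraMap ℚ K)).b₄ = _
    rw [map_b₄, hb4]; simp
  have hb6' : (W'⁄K).b₆ = -4 * algebraMap ℚ K e * (algebraMap ℚ K e + algebraMap ℚ K α) *
      (algebraMap ℚ K e + algebraMap ℚ K β) := by
    change (W'.map (algebraMap ℚ K)).b₆ = _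
    rw [map_b₆, hb6]; simp
  have hXY := isXY2_of hb2' hb4' hb6'
  have h4 := v_four (v := A.valuation) h2
  have hβ0 : algebraMap ℚ K β ≠ 0 := by
    intro h0; rw [h0, _root_.map_zero] at hβ; exact zero_ne_one hβ
  apply InE1_shift A.valuation he
  refine sq_mem_E1 (v := A.valuation)
    (σG := DistribSMul.toAddMonoidHom (W'⁄K).Point σ) (σK := (σ : K →+* K)) hXY h2 ?_ ?_ ?_ ?_ ?_
    (mul_ne_zero ((_root_.map_ne_zero _).mpr hα0) hβ0) ?_ hp hp2 hx
  · intro Q hQ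
    exact (smul_ne_zero_iff_ne σ).mpr hQ
  · intro Q
    exact Xc_smul W' σ e Q
  · intro Q
    exact Yc_smul W' σ Q
  · intro y hy
    exact inertia_congr A hσ hy
  · intro y
    exact hσv y
  · rcases lt_or_eq_of_le hα1 with hlt | heq
    · left
      refine ⟨?_, ?_⟩
      · rw [map_mul, hβ, mul_one]; exact hlt
      · rw [map_mul, Valuation.map_neg, h4, one_mul, add_comm]
        rw [← hβ]
        exact Valuation.map_add_eq_of_lt_left _ (by rw [hβ]; exact hlt)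
    · right
      refine ⟨?_, ?_, ?_⟩
      · rw [map_mul, hβ, heq, mul_one]
      · rw [map_mul, Valuation.map_neg, h4, one_mul]
        exact le1_add _ hα1 hβ.le
      · have : (-4 * (algebraMap ℚ K α + algebraMap ℚ K β)) ^ 2 -
            64 * (algebraMap ℚ K α * algebraMap ℚ K β) = 4 * 4 * (algebraMap ℚ K (α - β)) ^ 2 := by
          rw [map_sub]; ring
        rw [this, map_mul, map_mul, map_pow, h4, hαβ]
        simp

theorem frey_sq_mem_E1 (P : FreyPackage) (A : ValuationSubring K)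
    (hvq : A.valuation ((P.p : ℕ) : K) < 1) {σ : K ≃ₐ[ℚ] K}
    (hσ : σ ∈ A.inertiaSubgroupIn ℚ) (hσv : ∀ x, A.valuation (σ x) = A.valuation x)
    (x : (P.freyCurve⁄K).Point) (hx : P.p • x = 0) :
    InE1 A.valuation (Xc 0) (σ • (σ • x - x) - (σ • x - x)) := by
  have hq := P.pp
  have hp2 : P.p ≠ 2 := by have := P.hp5; omega
  have one_of : ∀ {n : ℤ}, ¬ (P.p : ℤ) ∣ n →
      A.valuation (algebraMap ℚ K (n : ℚ)) = 1 := by
    intro n hn
    rw [map_intCast]
    exact valInt_eq_one _ hq hvq hn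
  have le_of : ∀ (n : ℤ), A.valuation (algebraMap ℚ K (n : ℚ)) ≤ 1 := by
    intro n
    rw [map_intCast]
    exact valInt_le _ n
  have h2 : A.valuation (2 : K) = 1 := by
    have : ¬ (P.p : ℤ) ∣ (2 : ℤ) := by
      intro h
      have h' : P.p ∣ 2 := by exact_mod_cast h
      exact hp2 ((Nat.prime_dvd_prime_iff_eq hq Nat.prime_two).mp h')
    have h3 := valInt_eq_one A.valuation hq hvq this
    simpa using h3
  have hFLT := frey_FLT P
  have ha0 : (P.a : ℚ) ^ P.p ≠ 0 := pow_ne_zero _ (by exact_mod_cast P.ha0)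
  have hb0 : (P.b : ℚ) ^ P.p ≠ 0 := pow_ne_zero _ (by exact_mod_cast P.hb0)
  have hc0 : (P.c : ℚ) ^ P.p ≠ 0 := pow_ne_zero _ (by exact_mod_cast P.hc0)
  have he0 : A.valuation (algebraMap ℚ K 0) ≤ 1 := by simp
  by_cases hb : (P.p : ℤ) ∣ P.b
  · have ha : ¬ (P.p : ℤ) ∣ P.a := not_dvd_of_gcd hq (by rw [gcd_comm]; exact P.hgcdab) hb
    have hc : ¬ (P.p : ℤ) ∣ P.c := not_dvd_of_gcd hq P.hgcdbc hb
    refine sq_mem_E1_of_inertia P.freyCurve A hσ hσv (e := 0) (α := -(P.b : ℚ) ^ P.p / 4)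
      (β := (P.a : ℚ) ^ P.p / 4) ?_ ?_ ?_ he0 ?_ ?_ ?_ ?_ h2 hq hp2 _ hx
    · rw [frey_b₂]; ring
    · rw [frey_b₄]; ring
    · rw [frey_b₆]; ring
    · rw [val_neg_pow_div_four _ h2]; exact pow_le_one' (le_of _) _
    · exact div_ne_zero (neg_ne_zero.mpr hb0) (by norm_num)
    · rw [val_pow_div_four _ h2, one_of ha, one_pow]
    · have : -(P.b : ℚ) ^ P.p / 4 - (P.a : ℚ) ^ P.p / 4 = -(P.c : ℚ) ^ P.p / 4 := by
        rw [← hFLT]; ring
      rw [this, val_neg_pow_div_four _ h2, one_of hc, one_pow]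
  by_cases hc : (P.p : ℤ) ∣ P.c
  · have ha : ¬ (P.p : ℤ) ∣ P.a := not_dvd_of_gcd hq (by rw [gcd_comm]; exact P.hgcdac) hc
    refine sq_mem_E1_of_inertia P.freyCurve A hσ hσv (e := (P.a : ℚ) ^ P.p / 4)
      (α := -(P.c : ℚ) ^ P.p / 4) (β := -(P.a : ℚ) ^ P.p / 4) ?_ ?_ ?_ ?_ ?_ ?_ ?_ ?_ h2 hq hp2 _ hx
    · rw [frey_b₂, ← hFLT]; ring
    · rw [frey_b₄, ← hFLT]; ring
    · rw [frey_b₆]; ring
    · rw [val_pow_div_four _ h2]; exact pow_le_one' (le_of _) _
    · rw [val_neg_pow_div_four _ h2]; exact pow_le_one' (le_of _) _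
    · exact div_ne_zero (neg_ne_zero.mpr hc0) (by norm_num)
    · rw [val_neg_pow_div_four _ h2, one_of ha, one_pow]
    · have : -(P.c : ℚ) ^ P.p / 4 - -(P.a : ℚ) ^ P.p / 4 = -(P.b : ℚ) ^ P.p / 4 := by
        rw [← hFLT]; ring
      rw [this, val_neg_pow_div_four _ h2, one_of hb, one_pow]
  · refine sq_mem_E1_of_inertia P.freyCurve A hσ hσv (e := 0) (α := (P.a : ℚ) ^ P.p / 4)
      (β := -(P.b : ℚ) ^ P.p / 4) ?_ ?_ ?_ he0 ?_ ?_ ?_ ?_ h2 hq hp2 _ hx
    · rw [frey_b₂]; ring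
    · rw [frey_b₄]; ring
    · rw [frey_b₆]; ring
    · rw [val_pow_div_four _ h2]; exact pow_le_one' (le_of _) _
    · exact div_ne_zero ha0 (by norm_num)
    · rw [val_neg_pow_div_four _ h2, one_of hb, one_pow]
    · have : (P.a : ℚ) ^ P.p / 4 - -(P.b : ℚ) ^ P.p / 4 = (P.c : ℚ) ^ P.p / 4 := by
        rw [← hFLT]; ring
      rw [this, val_pow_div_four _ h2, one_of hc, one_pow]

/-- the kernel of reduction as a subgroup of the points of the Frey curve (odd residue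
characteristic `q`). -/
def freyE1 (P : FreyPackage) (A : ValuationSubring K) {q : ℕ} (hq : q.Prime) (hq2 : q ≠ 2)
    (hvq : A.valuation (q : K) < 1) : AddSubgroup (P.freyCurve⁄K).Point where
  carrier := {Q | InE1 A.valuation (Xc 0) Q}
  zero_mem' := Or.inl rfl
  add_mem' := by
    intro Q R hQ hR
    have h2 : A.valuation (2 : K) = 1 := by
      have : ¬ (q : ℤ) ∣ (2 : ℤ) := by
        intro h
        have h' : q ∣ 2 := by exact_mod_cast h
        exact hq2 ((Nat.prime_dvd_prime_iff_eq hq Nat.prime_two).mp h')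
      have h3 := valInt_eq_one A.valuation hq hvq this
      simpa using h3
    refine InE1.add (frey_isXY2 P) ?_ ?_ hQ hR
    · have : P.freyCurve.a₄ = -(((P.a * P.b : ℤ) : ℚ) ^ P.p / 4) / 4 := by
        simp only [FreyPackage.freyCurve]; push_cast; ring
      rw [this, map_div₀, map_div₀, map_neg, Valuation.map_neg, val_pow_div_four _ h2,
        map_ofNat, v_four h2, div_one, map_intCast]
      exact pow_le_one' (valInt_le _ _) _
    · rw [frey_b₂]
      have : (P.b : ℚ) ^ P.p - (P.a : ℚ) ^ P.p = ((P.b ^ P.p - P.a ^ P.p : ℤ) : ℚ) := by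
        push_cast; ring
      rw [this, map_intCast]
      exact valInt_le _ _
  neg_mem' := fun hQ => InE1.neg (frey_isXY2 P) hQ

lemma mem_freyE1 (P : FreyPackage) (A : ValuationSubring K) {q : ℕ} (hq : q.Prime) (hq2 : q ≠ 2)
    (hvq : A.valuation (q : K) < 1) (Q : (P.freyCurve⁄K).Point) :
    Q ∈ freyE1 P A hq hq2 hvq ↔ Q = 0 ∨ 1 < A.valuation (xc Q) := by
  rw [← Xc_zero_eq_xc]
  rfl

theorem frey_at_p_aux [Algebra.IsAlgebraic ℚ K] (P : FreyPackage) (A : ValuationSubring K)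
    (hA : A.LiesOverPrime P.p) :
    ∃ V₁ : AddSubgroup (P.freyCurve⁄K).Point,
      (∀ x, x ∈ V₁ ↔ x = 0 ∨ 1 < A.valuation (xc x)) ∧
      (∀ σ ∈ A.inertiaSubgroupIn ℚ, ∀ x ∈ V₁, σ • x ∈ V₁) ∧
      (∀ σ ∈ A.inertiaSubgroupIn ℚ, ∀ x, P.p • x = 0 →
        σ • (σ • x - x) - (σ • x - x) ∈ V₁) := by
  have hp2 : P.p ≠ 2 := by have := P.hp5; omega
  have hvq : A.valuation ((P.p : ℕ) : K) < 1 := A.mem_nonunits_iff.mp hA
  refine ⟨freyE1 P A P.pp hp2 hvq, mem_freyE1 P A P.pp hp2 hvq, ?_, ?_⟩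
  · intro σ hσ x hx
    rw [mem_freyE1] at hx ⊢
    rcases hx with rfl | hx
    · left; rfl
    · right
      have : xc (σ • x) = σ (xc x) := by
        rcases x with _ | ⟨x, y, h⟩
        · exact (_root_.map_zero σ).symm
        · rfl
      rw [this, val_sigma_eq A hσ]
      exact hx
  · intro σ hσ x hx
    exact frey_sq_mem_E1 P A hvq hσ (val_sigma_eq A hσ) x hx

end general

/-- **E2**: the structure at `p`. -/
theorem frey_at_p (P : FreyPackage) (A : ValuationSubring (AlgebraicClosure ℚ))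
    (hA : A.LiesOverPrime P.p) :
    ∃ V₁ : AddSubgroup (P.freyCurve⁄(AlgebraicClosure ℚ)).Point,
      (∀ x, x ∈ V₁ ↔ x = 0 ∨ 1 < A.valuation (xc x)) ∧
      (∀ σ ∈ A.inertiaSubgroupIn ℚ, ∀ x ∈ V₁, σ • x ∈ V₁) ∧
      (∀ σ ∈ A.inertiaSubgroupIn ℚ, ∀ x, P.p • x = 0 →
        σ • (σ • x - x) - (σ • x - x) ∈ V₁) := by
  have := isAlgebraic_Qbar inferInstance
  exact frey_at_p_aux P A hA

end Fermat.Agent.S13
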