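import Fermat.Agent.S13.FreyTorsion
import Fermat.Agent.Lib.Frobenius
import Fermat.Agent.S05

set_option autoImplicit false

namespace Fermat.Agent.S13

open Polynomial WeierstrassCurve WeierstrassCurve.Affine WeierstrassCurve.Affine.Point

section coeffs

variable {K : Type*} [Field K]

/-- the coefficients of the division polynomials lie in any subring containing the `aᵢ`. -/
lemma coeff_preΨ_mem (A : Subring K) (W : WeierstrassCurve K) (h₁ : W.a₁ ∈ A) (h₂ : W.a₂ ∈ A)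
    (h₃ : W.a₃ ∈ A) (h₄ : W.a₄ ∈ A) (h₆ : W.a₆ ∈ A) (n : ℤ) (i : ℕ) :
    (W.preΨ n).coeff i ∈ A := by
  let WA : WeierstrassCurve A := ⟨⟨_, h₁⟩, ⟨_, h₂⟩, ⟨_, h₃⟩, ⟨_, h₄⟩, ⟨_, h₆⟩⟩
  have hW : W = WA.map A.subtype := by
    ext <;> rfl
  rw [hW, map_preΨ, coeff_map]
  exact Subtype.property _

end coeffs

section valuation

variable {K : Type*} [Field K] {Γ₀ : Type*} [LinearOrderedCommGroupWithZero Γ₀]
  (v : Valuation K Γ₀)

lemma one_le_prod_val {ι : Type*} (S : Finset ι) (f : ι → Γ₀) (h : ∀ i ∈ S, 1 ≤ f i) :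
    1 ≤ ∏ i ∈ S, f i := by
  classical
  induction S using Finset.induction_on with
  | empty => simp
  | insert a S ha ih =>
    rw [Finset.prod_insert ha]
    exact one_le_mul (h a (Finset.mem_insert_self a S))
      (ih fun i hi => h i (Finset.mem_insert_of_mem hi))

lemma one_lt_prod_val {ι : Type*} (S : Finset ι) (f : ι → Γ₀) (h : ∀ i ∈ S, 1 < f i)
    (hS : S.Nonempty) : 1 < ∏ i ∈ S, f i := by
  classical
  obtain ⟨a, ha⟩ := hS
  rw [← Finset.mul_prod_erase S f ha]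
  exact lt_of_lt_of_le (h a ha) (le_mul_of_one_le_right'
    (one_le_prod_val _ f fun i hi => (h i (Finset.mem_of_mem_erase hi)).le))

/-- a rational number which is not `p`-integral has a `p` in the denominator. -/
lemma one_le_val_mul_rat [CharZero K] {p : ℕ} (hp : p.Prime) (hv : v (p : K) < 1) (q : ℚ)
    (hq : 1 < v (q : K)) : 1 ≤ v ((p : K) * (q : K)) := by
  have hd0 : (q.den : K) ≠ 0 := by exact_mod_cast q.den_ne_zero
  have hvd0 : v (q.den : K) ≠ 0 := (Valuation.ne_zero_iff v).2 hd0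
  have hn1 : v (q.num : K) ≤ 1 := Fermat.Agent.S05.valInt_le v q.num
  have hd1 : v ((q.den : ℤ) : K) ≤ 1 := Fermat.Agent.S05.valInt_le v q.den
  rw [Int.cast_natCast] at hd1
  rw [Rat.cast_def, map_div₀, lt_div_iff₀ (zero_lt_iff.2 hvd0), one_mul] at hq
  have hdlt : v (q.den : K) < 1 := lt_of_lt_of_le hq hn1
  have hpd : (p : ℤ) ∣ (q.den : ℤ) := by
    by_contra hnd
    have := Fermat.Agent.S05.valInt_eq_one v hp hv hnd
    rw [Int.cast_natCast] at this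
    exact hdlt.ne this
  have hpn : ¬ (p : ℤ) ∣ q.num := by
    intro hpn
    have h1 : p ∣ q.num.natAbs := Int.natCast_dvd.1 hpn
    have h2 : p ∣ q.den := by exact_mod_cast hpd
    have h3 := Nat.dvd_gcd h1 h2
    rw [q.reduced] at h3
    exact hp.one_lt.ne' (Nat.dvd_one.1 h3)
  have hn : v (q.num : K) = 1 := Fermat.Agent.S05.valInt_eq_one v hp hv hpn
  obtain ⟨d', hd'⟩ := hpd
  have hd'K : (q.den : K) = (p : K) * (d' : K) := by exact_mod_cast congrArg (Int.cast : ℤ → K) hd'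
  have hp0 : (p : K) ≠ 0 := by exact_mod_cast hp.ne_zero
  have hd'0 : (d' : K) ≠ 0 := by
    intro h0
    rw [h0, mul_zero] at hd'K
    exact hd0 hd'K
  have : (p : K) * (q : K) = (q.num : K) / (d' : K) := by
    rw [Rat.cast_def, hd'K]
    field_simp
  rw [this, map_div₀, hn, one_le_div₀ (zero_lt_iff.2 ((Valuation.ne_zero_iff v).2 hd'0))]
  exact Fermat.Agent.S05.valInt_le v d'

end valuation

section main

variable {K : Type*} [Field K] [DecidableEq K] [Algebra ℚ K] (W' : Affine ℚ) {p : ℕ}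

/-- the nonzero points of a subspace of the `p`-torsion. -/
def lineSet (N : Submodule (ZMod p) (Submodule.torsionBy ℤ (W'⁄K).Point p)) :
    Set (W'⁄K).Point :=
  {Q | Q ≠ 0 ∧ ∃ h : Q ∈ Submodule.torsionBy ℤ (W'⁄K).Point p,
    (⟨Q, h⟩ : Submodule.torsionBy ℤ (W'⁄K).Point p) ∈ N}

lemma lineSet_subset (N : Submodule (ZMod p) (Submodule.torsionBy ℤ (W'⁄K).Point p)) :
    lineSet W' N ⊆ torsSet (W'⁄K) p := by
  rintro Q ⟨hQ0, hQ, -⟩
  exact ⟨hQ0, (mem_torsionBy_iff_nsmul _ p Q).1 hQ⟩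

lemma xc_smul (σ : K ≃ₐ[ℚ] K) (Q : (W'⁄K).Point) : xc (σ • Q) = σ (xc Q) := by
  rcases Q with _ | ⟨x, y, h⟩
  · exact (map_zero σ).symm
  · rfl

lemma smul_mem_lineSet {N : Submodule (ZMod p) (Submodule.torsionBy ℤ (W'⁄K).Point p)}
    (hN : IsGaloisStable ℚ N) (σ : K ≃ₐ[ℚ] K) {Q : (W'⁄K).Point} (hQ : Q ∈ lineSet W' N) :
    σ • Q ∈ lineSet W' N := by
  obtain ⟨hQ0, hQ, hQN⟩ := hQ
  refine ⟨?_, smul_mem_torsionBy σ hQ, hN σ _ hQN⟩
  intro h0
  apply hQ0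
  have : σ⁻¹ • σ • Q = σ⁻¹ • (0 : (W'⁄K).Point) := congrArg (fun R => σ⁻¹ • R) h0
  have e0 : σ⁻¹ • (0 : (W'⁄K).Point) = 0 := rfl
  exact (inv_smul_smul σ Q).symm.trans (this.trans e0)

theorem exists_integral_torsion_gen [IsGalois ℚ K] {Γ₀ : Type*}
    [LinearOrderedCommGroupWithZero Γ₀] (v : Valuation K Γ₀) (hp : p.Prime) (hp2 : p ≠ 2)
    (hv : v (p : K) < 1)
    (h₁ : v (W'⁄K).a₁ ≤ 1) (h₂ : v (W'⁄K).a₂ ≤ 1) (h₃ : v (W'⁄K).a₃ ≤ 1) (h₄ : v (W'⁄K).a₄ ≤ 1)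
    (h₆ : v (W'⁄K).a₆ ≤ 1)
    (N : Submodule (ZMod p) (Submodule.torsionBy ℤ (W'⁄K).Point p))
    (hN : IsGaloisStable ℚ N) (h0 : N ≠ ⊥) (h1 : N ≠ ⊤) :
    ∃ Q : (W'⁄K).Point, Q ≠ 0 ∧ p • Q = 0 ∧ v (xc Q) ≤ 1 := by
  by_contra hcon
  push Not at hcon
  have : CharZero K := algebraRat.charZero K
  have hpK : (p : K) ≠ 0 := by exact_mod_cast hp.ne_zero
  have : Fact p.Prime := ⟨hp⟩
  have hfin : Finite (Submodule.torsionBy ℤ (W'⁄K).Point p) := torsionBy_finite _ hp hp2 hpK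
  have hcard := (line_finrank_card (card_torsionBy_le (W'⁄K) hp hp2 hpK) N h0 h1).2.2.1
  have hT : (torsSet (W'⁄K) p).ncard = p ^ 2 - 1 := by
    have := card_torsionBy_eq (W'⁄K) hp hp2 hpK
    omega
  obtain ⟨himg, hprod⟩ := preΨ_eq_prod (W'⁄K) hp hp2 hpK hT
  have hSfin : (lineSet W' N).Finite := (torsSet_finite (W'⁄K) hp hp2 hpK).subset
    (lineSet_subset W' N)
  have hRN : hSfin.toFinset.image xc ⊆ ((W'⁄K).preΨ p).roots.toFinset := by
    rw [← himg]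
    apply Finset.image_subset_image
    intro Q hQ
    simp only [Set.Finite.mem_toFinset] at hQ ⊢
    exact lineSet_subset W' N hQ
  -- all abscissae have large valuation
  have hbig : ∀ x ∈ ((W'⁄K).preΨ p).roots.toFinset, 1 < v x := by
    intro x hx
    rw [← himg] at hx
    obtain ⟨Q, hQ, rfl⟩ := Finset.mem_image.1 hx
    simp only [Set.Finite.mem_toFinset] at hQ
    exact hcon Q hQ.1 hQ.2
  -- the product over the line is rational
  have hinv : ∀ σ : K ≃ₐ[ℚ] K, σ (∏ x ∈ hSfin.toFinset.image xc, x) =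
      ∏ x ∈ hSfin.toFinset.image xc, x := by
    intro σ
    have himσ : (hSfin.toFinset.image xc).image σ = hSfin.toFinset.image xc := by
      apply Finset.eq_of_subset_of_card_le
      · intro x hx
        obtain ⟨x', hx', rfl⟩ := Finset.mem_image.1 hx
        obtain ⟨Q, hQ, rfl⟩ := Finset.mem_image.1 hx'
        simp only [Set.Finite.mem_toFinset] at hQ
        rw [← xc_smul]
        apply Finset.mem_image_of_mem
        simp only [Set.Finite.mem_toFinset]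
        exact smul_mem_lineSet W' hN σ hQ
      · rw [Finset.card_image_of_injective _ σ.injective]
    rw [map_prod]
    conv_rhs => rw [← himσ]
    rw [Finset.prod_image (fun a _ b _ hab => σ.injective hab)]
  obtain ⟨q, hq⟩ := (InfiniteGalois.mem_range_algebraMap_iff_fixed _).2 hinv
  rw [eq_ratCast] at hq
  -- nonemptiness
  have hne1 : (hSfin.toFinset.image xc).Nonempty := by
    obtain ⟨Q, hQN, hQ0⟩ := (Submodule.ne_bot_iff N).1 h0
    refine ⟨xc Q.1, Finset.mem_image_of_mem _ ?_⟩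
    simp only [Set.Finite.mem_toFinset]
    exact ⟨fun h => hQ0 (Subtype.ext h), Q.2, hQN⟩
  have hne2 : (((W'⁄K).preΨ p).roots.toFinset \ hSfin.toFinset.image xc).Nonempty := by
    obtain ⟨Q, hQ⟩ : ∃ Q, Q ∉ N := by
      by_contra hall
      push Not at hall
      exact h1 (eq_top_iff.2 fun Q _ => hall Q)
    have hQ0 : Q.1 ≠ 0 := by
      intro h
      apply hQ
      have : Q = 0 := Subtype.ext h
      rw [this]
      exact N.zero_mem
    refine ⟨xc Q.1, Finset.mem_sdiff.2 ⟨?_, ?_⟩⟩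
    · rw [← himg]
      apply Finset.mem_image_of_mem
      simp only [Set.Finite.mem_toFinset]
      exact ⟨hQ0, (mem_torsionBy_iff_nsmul _ p Q.1).1 Q.2⟩
    · intro hmem
      obtain ⟨Q', hQ', hx⟩ := Finset.mem_image.1 hmem
      simp only [Set.Finite.mem_toFinset] at hQ'
      obtain ⟨hQ'0, hQ'V, hQ'N⟩ := hQ'
      rcases (xc_eq_iff hQ'0 hQ0).1 hx with h | h
      · apply hQ
        have : Q = ⟨Q', hQ'V⟩ := Subtype.ext h.symm
        rw [this]; exact hQ'N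
      · apply hQ
        have : Q = -⟨Q', hQ'V⟩ := Subtype.ext (by simp [h])
        rw [this]; exact N.neg_mem hQ'N
  -- valuations
  have hξ : 1 < v (q : K) := by
    rw [hq, map_prod]
    exact one_lt_prod_val _ _ (fun x hx => hbig x (hRN hx)) hne1
  have hpξ := one_le_val_mul_rat v hp hv q hξ
  have hrest : 1 < ∏ x ∈ ((W'⁄K).preΨ p).roots.toFinset \ hSfin.toFinset.image xc, v x :=
    one_lt_prod_val _ _ (fun x hx => hbig x (Finset.mem_sdiff.1 hx).1) hne2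
  have hc0 : v (((W'⁄K).preΨ p).eval 0) ≤ 1 := by
    rw [← coeff_zero_eq_eval_zero]
    exact coeff_preΨ_mem v.integer (W'⁄K) h₁ h₂ h₃ h₄ h₆ p 0
  have heval : v (((W'⁄K).preΨ p).eval 0) =
      v (p : K) * ∏ x ∈ ((W'⁄K).preΨ p).roots.toFinset, v x := by
    conv_lhs => rw [hprod]
    rw [eval_mul, eval_C, eval_prod, map_mul, map_prod]
    congr 1
    apply Finset.prod_congr rfl
    intro x _
    simp
  have hsplit : ∏ x ∈ ((W'⁄K).preΨ p).roots.toFinset, v x =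
      (∏ x ∈ ((W'⁄K).preΨ p).roots.toFinset \ hSfin.toFinset.image xc, v x) * v (q : K) := by
    rw [← Finset.prod_sdiff hRN, hq, map_prod]
  rw [heval, hsplit, mul_left_comm, ← map_mul] at hc0
  have : 1 < (∏ x ∈ ((W'⁄K).preΨ p).roots.toFinset \ hSfin.toFinset.image xc, v x) *
      v ((p : K) * (q : K)) := lt_of_lt_of_le hrest (le_mul_of_one_le_right' hpξ)
  exact absurd hc0 (not_le.2 this)

end main

section frey

lemma val_algebraMap_div_le_one {K : Type*} [Field K] [Algebra ℚ K] {Γ₀ : Type*}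
    [LinearOrderedCommGroupWithZero Γ₀] (v : Valuation K Γ₀) {p : ℕ} (hp : p.Prime)
    (hv : v (p : K) < 1) (n d : ℤ) (hd : ¬ (p : ℤ) ∣ d) :
    v (algebraMap ℚ K ((n : ℚ) / (d : ℚ))) ≤ 1 := by
  rw [map_div₀, map_div₀, map_intCast (algebraMap ℚ K), map_intCast (algebraMap ℚ K),
    Fermat.Agent.S05.valInt_eq_one v hp hv hd, div_one]
  exact Fermat.Agent.S05.valInt_le v n

lemma frey_val_a (P : FreyPackage) {K : Type*} [Field K] [Algebra ℚ K] {Γ₀ : Type*}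
    [LinearOrderedCommGroupWithZero Γ₀] (v : Valuation K Γ₀) {q : ℕ} (hq : q.Prime) (hq2 : q ≠ 2)
    (hv : v (q : K) < 1) :
    v (P.freyCurve⁄K).a₁ ≤ 1 ∧ v (P.freyCurve⁄K).a₂ ≤ 1 ∧ v (P.freyCurve⁄K).a₃ ≤ 1 ∧
      v (P.freyCurve⁄K).a₄ ≤ 1 ∧ v (P.freyCurve⁄K).a₆ ≤ 1 := by
  have h2 : ∀ k : ℕ, ¬ (q : ℤ) ∣ (2 : ℤ) ^ k := by
    intro k h
    have h' : q ∣ 2 ^ k := by exact_mod_cast h
    exact hq2 ((Nat.prime_dvd_prime_iff_eq hq Nat.prime_two).1 (hq.dvd_of_dvd_pow h'))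
  refine ⟨?_, ?_, ?_, ?_, ?_⟩
  · change v (algebraMap ℚ K 1) ≤ 1
    simp
  · change v (algebraMap ℚ K (((P.b : ℚ) ^ P.p - 1 - (P.a : ℚ) ^ P.p) / 4)) ≤ 1
    have := val_algebraMap_div_le_one v hq hv (P.b ^ P.p - 1 - P.a ^ P.p) (2 ^ 2) (h2 2)
    have e : (((P.b ^ P.p - 1 - P.a ^ P.p : ℤ) : ℚ) / (((2 : ℤ) ^ 2 : ℤ) : ℚ)) =
        ((P.b : ℚ) ^ P.p - 1 - (P.a : ℚ) ^ P.p) / 4 := by
      push_cast; norm_num
    rwa [e] at this
  · change v (algebraMap ℚ K 0) ≤ 1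
    simp
  · change v (algebraMap ℚ K (-((P.a : ℚ) ^ P.p) * ((P.b : ℚ) ^ P.p) / 16)) ≤ 1
    have := val_algebraMap_div_le_one v hq hv (-(P.a ^ P.p) * (P.b ^ P.p)) (2 ^ 4) (h2 4)
    have e : (((-(P.a ^ P.p) * (P.b ^ P.p) : ℤ) : ℚ) / (((2 : ℤ) ^ 4 : ℤ) : ℚ)) =
        -((P.a : ℚ) ^ P.p) * ((P.b : ℚ) ^ P.p) / 16 := by
      push_cast; norm_num
    rwa [e] at this
  · change v (algebraMap ℚ K 0) ≤ 1
    simp

/-- **Product of roots at `p`**: if the `p`-torsion of the Frey curve has a Galois stable line,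
then not all nonzero `p`-torsion points lie in the kernel of reduction at a place above `p`. -/
theorem exists_integral_torsion (P : FreyPackage) (A : ValuationSubring (AlgebraicClosure ℚ))
    (hA : A.valuation ((P.p : ℕ) : AlgebraicClosure ℚ) < 1)
    (N : Submodule (ZMod P.p)
      (Submodule.torsionBy ℤ (P.freyCurve⁄(AlgebraicClosure ℚ)).Point P.p))
    (hN : IsGaloisStable ℚ N) (h0 : N ≠ ⊥) (h1 : N ≠ ⊤) :
    ∃ Q : (P.freyCurve⁄(AlgebraicClosure ℚ)).Point,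
      Q ≠ 0 ∧ P.p • Q = 0 ∧ A.valuation (xc Q) ≤ 1 := by
  have := Fermat.Agent.Lib.Frobenius.isGalois_algebraicClosure inferInstance
  have hp2 : P.p ≠ 2 := by have := P.hp5; omega
  obtain ⟨h₁, h₂, h₃, h₄, h₆⟩ := frey_val_a P A.valuation P.pp hp2 hA
  exact exists_integral_torsion_gen P.freyCurve A.valuation P.pp hp2 hA h₁ h₂ h₃ h₄ h₆ N hN h0 h1

/-- the same statement in the shape `[E3]` of the S13 plan. -/
theorem frey_exists_integral_torsion (P : FreyPackage)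
    (A : ValuationSubring (AlgebraicClosure ℚ)) (hA : A.LiesOverPrime P.p)
    (N : Submodule (ZMod P.p)
      (Submodule.torsionBy ℤ (P.freyCurve⁄(AlgebraicClosure ℚ)).Point P.p))
    (hN : IsGaloisStable ℚ N) (h0 : N ≠ ⊥) (h1 : N ≠ ⊤) :
    ∃ Q : (P.freyCurve⁄(AlgebraicClosure ℚ)).Point,
      Q ≠ 0 ∧ P.p • Q = 0 ∧ A.valuation (xc Q) ≤ 1 :=
  exists_integral_torsion P A (A.mem_nonunits_iff.mp hA) N hN h0 h1

end frey

end Fermat.Agent.S13
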