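import Mathlib
import Fermat.Agent.Lib.Frobenius
import Fermat.Agent.S05.Inertia

set_option autoImplicit false

namespace Fermat.Agent.S13

open scoped Pointwise

section Abstract

universe u

variable {B : Type*} [CommRing B] {G : Type u} [Group G] [MulSemiringAction G B]
variable [TopologicalSpace G] [CompactSpace G] [TotallyDisconnectedSpace G]
variable [IsTopologicalGroup G] [TopologicalSpace B] [DiscreteTopology B] [ContinuousSMul G B]

theorem exists_mul_mem_inertia (N : Subgroup G) [hNn : N.Normal] (hN : IsClosed (N : Set G))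
    (Q : Ideal B) [Q.IsPrime] (σ₀ : G)
    (h₀ : ∀ x : B, (∀ n ∈ N, n • x = x) → σ₀ • x - x ∈ Q) :
    ∃ ρ ∈ N, ∀ b : B, (ρ * σ₀) • b - b ∈ Q := by
  let A' := FixedPoints.subalgebra ℤ B N
  have : CompactSpace N := isCompact_iff_compactSpace.mp hN.isCompact
  have hinv : Algebra.IsInvariant A' B N := ⟨fun b hb => ⟨⟨b, hb⟩, rfl⟩⟩
  have hfix : ∀ (g : G) (x : B), (∀ n ∈ N, n • x = x) → (∀ n ∈ N, n • (g • x) = g • x) := by
    intro g x hx n hn
    have h1 : g⁻¹ * n * g ∈ N := by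
      have := hNn.conj_mem n hn g⁻¹
      simpa using this
    have h2 := hx _ h1
    calc n • (g • x) = g • ((g⁻¹ * n * g) • x) := by simp [smul_smul, mul_assoc]
      _ = g • x := by rw [h2]
  have hA' : ∀ x : A', ∀ n ∈ N, n • (x : B) = x := fun x n hn => x.2 ⟨n, hn⟩
  have hunder : (σ₀ • Q).under A' = Q.under A' := by
    ext x
    simp only [Ideal.under_def, Ideal.mem_comap]
    change (x : B) ∈ σ₀ • Q ↔ (x : B) ∈ Q
    rw [Ideal.mem_pointwise_smul_iff_inv_smul_mem]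
    have h1 := h₀ (σ₀⁻¹ • (x:B)) (hfix σ₀⁻¹ _ (hA' x))
    rw [smul_inv_smul] at h1
    constructor
    · intro h
      have := Q.add_mem h1 h
      simpa using this
    · intro h
      have := Q.sub_mem h h1
      simpa using this
  obtain ⟨ρ₁, hρ₁⟩ := Algebra.IsInvariant.exists_smul_of_under_eq_of_profinite (A := A') (G := N)
    (σ₀ • Q) Q hunder
  have hstab : (ρ₁ : G) * σ₀ ∈ MulAction.stabilizer G Q := by
    rw [MulAction.mem_stabilizer_iff, mul_smul]
    exact hρ₁.symm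
  have hσ₁ : ∀ x : A', ((ρ₁ : G) * σ₀) • (x : B) - x ∈ Q := by
    intro x
    rw [mul_smul, hfix σ₀ _ (hA' x) ρ₁ ρ₁.2]
    exact h₀ _ (hA' x)
  let e : (B ⧸ Q) ≃+* (B ⧸ Q) :=
    (Ideal.Quotient.stabilizerHom Q (Q.under ℤ) G ⟨(ρ₁ : G) * σ₀, hstab⟩).toRingEquiv
  have he : ∀ b : B, e (Ideal.Quotient.mk Q b) = Ideal.Quotient.mk Q (((ρ₁ : G) * σ₀) • b) :=
    fun b => rfl
  let φ : (B ⧸ Q) ≃ₐ[A' ⧸ Q.under A'] (B ⧸ Q) := AlgEquiv.ofRingEquiv (f := e) (by
    intro r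
    obtain ⟨x, rfl⟩ := Ideal.Quotient.mk_surjective r
    change e (Ideal.Quotient.mk Q (x : B)) = Ideal.Quotient.mk Q (x : B)
    rw [he, Ideal.Quotient.eq]
    exact hσ₁ x)
  obtain ⟨ρ₂, hρ₂⟩ := Ideal.Quotient.stabilizerHom_surjective_of_profinite (G := N)
    (Q.under A') Q φ
  have h2 : ∀ b : B, (ρ₂ : N) • b - ((ρ₁ : G) * σ₀) • b ∈ Q := by
    intro b
    have h := DFunLike.congr_fun hρ₂ (Ideal.Quotient.mk Q b)
    rw [Ideal.Quotient.stabilizerHom_apply] at h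
    change _ = e (Ideal.Quotient.mk Q b) at h
    rw [he, Ideal.Quotient.eq] at h
    exact h
  refine ⟨((ρ₂ : N)⁻¹ * ρ₁ : N), ((ρ₂ : N)⁻¹ * ρ₁ : N).2, fun b => ?_⟩
  have h3 : (ρ₂ : N) • Q = Q := ρ₂.2
  have h4 : (ρ₂ : N)⁻¹ • ((ρ₂ : N) • b - ((ρ₁ : G) * σ₀) • b) ∈ Q := by
    rw [← Ideal.mem_pointwise_smul_iff_inv_smul_mem]
    exact h3.symm ▸ h2 b
  have h5 : (((ρ₂ : N)⁻¹ * ρ₁ : N) * σ₀ : G) • b - b =
      -((ρ₂ : N)⁻¹ • ((ρ₂ : N) • b - ((ρ₁ : G) * σ₀) • b)) := by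
    rw [smul_sub, inv_smul_smul]
    simp [mul_smul, Subgroup.smul_def]
  rw [h5]
  exact Q.neg_mem h4

end Abstract

section Ramified

open scoped NumberField

theorem exists_ramified_inertia (K : Type*) [Field K] [NumberField K] [IsGalois ℚ K]
    (H : 1 < Module.finrank ℚ K) :
    ∃ p : ℕ, p.Prime ∧ ∀ (P : Ideal (𝓞 K)) (_ : P.IsPrime), (p : 𝓞 K) ∈ P →
      ∃ τ : Gal(K/ℚ), τ ≠ 1 ∧ ∀ x y : 𝓞 K, (y : K) = τ (x : K) → y - x ∈ P := by
  obtain ⟨p, hp, h⟩ := NumberField.exists_not_isUnramifiedAt_int_of_isGalois (K := K) (𝒪 := 𝓞 K) H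
  refine ⟨p, hp, fun P hP hpP => ?_⟩
  have h1 := h P hP hpP
  let _ : MulSemiringAction Gal(K/ℚ) (𝓞 K) := IsIntegralClosure.MulSemiringAction ℤ ℚ K (𝓞 K)
  have := IsGaloisGroup.of_isFractionRing Gal(K/ℚ) ℤ (𝓞 K) ℚ K
  rw [← Ideal.ramificationIdx_eq_one_iff,
    ← Ideal.ramificationIdxIn_eq_ramificationIdx (P.under ℤ) _ Gal(K/ℚ),
    ← Ideal.card_inertia_eq_ramificationIdxIn (G := Gal(K/ℚ)) (P.under ℤ) P,
    Subgroup.card_eq_one, ← ne_eq, Subgroup.ne_bot_iff_exists_ne_one] at h1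
  obtain ⟨⟨τ, hτ⟩, hτ1⟩ := h1
  refine ⟨τ, fun h => hτ1 (Subtype.ext h), fun x y hxy => ?_⟩
  have h2 := hτ x
  have h3 : τ • x = y := by
    apply NumberField.RingOfIntegers.ext
    rw [hxy]
    exact algebraMap_galRestrict_apply ℤ τ x
  rw [h3] at h2
  exact h2

theorem exists_ramified_inertia' (K : Type*) [Field K] [CharZero K] [inst : Algebra ℚ K]
    [FiniteDimensional ℚ K] [IsGalois ℚ K] (H : 1 < Module.finrank ℚ K) :
    ∃ p : ℕ, p.Prime ∧ ∀ (P : Ideal (𝓞 K)) (_ : P.IsPrime), (p : 𝓞 K) ∈ P →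
      ∃ τ : K ≃ₐ[ℚ] K, τ ≠ 1 ∧ ∀ x y : 𝓞 K, (y : K) = τ (x : K) → y - x ∈ P := by
  obtain rfl : inst = DivisionRing.toRatAlgebra := Subsingleton.elim _ _
  have : NumberField K := { to_charZero := inferInstance, to_finiteDimensional := inferInstance }
  exact exists_ramified_inertia K H

end Ramified

section Main

open Fermat.Agent.Lib.Frobenius
open scoped NumberField

variable {L : Type*} [Field L]

attribute [-instance] DivisionRing.toRatAlgebra

theorem mem_inertiaSubgroupIn_of_forall [Algebra ℚ L] [Algebra.IsAlgebraic ℚ L]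
    (A : ValuationSubring L) {ℓ : ℕ} (hℓ : ℓ.Prime) (hA : A.LiesOverPrime ℓ) (σ : L ≃ₐ[ℚ] L)
    (hσ : ∀ b : L, IsIntegral ℤ b → σ b - b ∈ A.nonunits) : σ ∈ A.inertiaSubgroupIn ℚ := by
  have hint : ∀ (τ : L ≃ₐ[ℚ] L) (b : L), IsIntegral ℤ b → IsIntegral ℤ (τ b) :=
    fun τ b hb => hb.map (τ.restrictScalars ℤ)
  have h1 : ∀ s : L, IsIntegral ℤ s → (σ s ∈ A.nonunits ↔ s ∈ A.nonunits) := by
    intro s hs
    constructor
    · intro h
      have := A.nonunits.sub_mem h (hσ s hs)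
      simpa using this
    · intro h
      have := A.nonunits.add_mem (hσ s hs) h
      simpa using this
  have hmem : ∀ x ∈ A, σ x ∈ A := by
    intro x hx
    obtain ⟨b, s, hb, hs, hsA, hxs⟩ := exists_mul_eq_of_mem A hℓ hA hx
    have hσs : σ s ∉ A.nonunits := fun h => hsA ((h1 s hs).mp h)
    have h2 : σ x = σ b * (σ s)⁻¹ := by
      rw [← hxs, map_mul, mul_assoc, mul_inv_cancel₀ (ne_zero_of_not_mem_nonunits A hσs), mul_one]
    rw [h2]
    exact A.mul_mem _ _ (mem_of_isIntegral A (hint σ b hb)) (inv_mem_of_not_mem_nonunits A hσs)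
  have hmem' : ∀ x ∈ A, σ.symm x ∈ A := by
    intro x hx
    obtain ⟨b, s, hb, hs, hsA, hxs⟩ := exists_mul_eq_of_mem A hℓ hA hx
    have hσs : σ.symm s ∉ A.nonunits := by
      intro h
      apply hsA
      have := (h1 _ (hint σ.symm s hs)).mpr h
      simpa using this
    have h2 : σ.symm x = σ.symm b * (σ.symm s)⁻¹ := by
      rw [← hxs, map_mul, mul_assoc, mul_inv_cancel₀ (ne_zero_of_not_mem_nonunits A hσs), mul_one]
    rw [h2]
    exact A.mul_mem _ _ (mem_of_isIntegral A (hint σ.symm b hb))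
      (inv_mem_of_not_mem_nonunits A hσs)
  have hstab : σ ∈ A.decompositionSubgroup ℚ := by
    rw [MulAction.mem_stabilizer_iff]
    ext x
    rw [ValuationSubring.mem_pointwise_smul_iff_inv_smul_mem]
    constructor
    · intro h
      have := hmem _ h
      simpa using this
    · intro h
      exact hmem' x h
  refine ⟨⟨σ, hstab⟩, ?_, rfl⟩
  change MulSemiringAction.toRingAut (A.decompositionSubgroup ℚ)
      (IsLocalRing.ResidueField A) ⟨σ, hstab⟩ = 1
  ext x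
  obtain ⟨x, rfl⟩ := IsLocalRing.residue_surjective x
  change (⟨σ, hstab⟩ : A.decompositionSubgroup ℚ) • IsLocalRing.residue A x =
    IsLocalRing.residue A x
  rw [← IsLocalRing.ResidueField.residue_smul, ← sub_eq_zero, ← map_sub,
    IsLocalRing.residue_eq_zero_iff, ← A.coe_mem_nonunits_iff]
  change σ (x : L) - (x : L) ∈ A.nonunits
  obtain ⟨b, s, hb, hs, hsA, hxs⟩ := exists_mul_eq_of_mem A hℓ hA x.2
  have hσs : σ s ∉ A.nonunits := fun h => hsA ((h1 s hs).mp h)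
  have h3 : σ (x : L) - (x : L) =
      (σ s)⁻¹ * ((σ b - b) - (x : L) * (σ s - s)) := by
    have hne := ne_zero_of_not_mem_nonunits A hσs
    rw [← hxs, map_mul]
    field_simp
    ring
  rw [h3]
  exact mul_mem_nonunits A (inv_mem_of_not_mem_nonunits A hσs)
    (A.nonunits.sub_mem (hσ b hb) (mul_mem_nonunits A x.2 (hσ s hs)))

theorem exists_inertia_not_mem_fixingSubgroup [Algebra ℚ L] [IsGalois ℚ L]
    (K : IntermediateField ℚ L) [FiniteDimensional ℚ K] [IsGalois ℚ K] (hK : K ≠ ⊥) :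
    ∃ ℓ : ℕ, ℓ.Prime ∧ ∀ A : ValuationSubring L, A.LiesOverPrime ℓ →
      ∃ σ ∈ A.inertiaSubgroupIn ℚ, σ ∉ K.fixingSubgroup := by
  have : CharZero L := algebraRat.charZero L
  have H : 1 < Module.finrank ℚ K := by
    have h1 : Module.finrank ℚ K ≠ 1 := fun h => hK (IntermediateField.finrank_eq_one_iff.mp h)
    have h2 : 0 < Module.finrank ℚ K := Module.finrank_pos
    omega
  obtain ⟨p, hp, h⟩ := exists_ramified_inertia' K H
  refine ⟨p, hp, fun A hA => ?_⟩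
  have hfint : ∀ x : 𝓞 K, ((algebraMap K L).comp (algebraMap (𝓞 K) K)) x ∈ intSubring L := by
    intro x
    rw [mem_intSubring]
    exact (NumberField.RingOfIntegers.isIntegral_coe x).map
      ((IsScalarTower.toAlgHom ℚ K L).restrictScalars ℤ)
  let f : 𝓞 K →+* intSubring L :=
    RingHom.codRestrict ((algebraMap K L).comp (algebraMap (𝓞 K) K)) (intSubring L) hfint
  let P : Ideal (𝓞 K) := (centre A).comap f
  have hP : P.IsPrime := Ideal.comap_isPrime _ _
  have hpP : (p : 𝓞 K) ∈ P := by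
    rw [Ideal.mem_comap, mem_centre]
    have hA' : (p : L) ∈ A.nonunits := hA
    simpa using hA'
  obtain ⟨τ, hτ1, hτ⟩ := h P hP hpP
  obtain ⟨σ₀, hσ₀⟩ := AlgEquiv.restrictNormalHom_surjective L τ
  let G := L ≃ₐ[ℚ] L
  let B := intSubring L
  let _ : TopologicalSpace B := ⊥
  have : DiscreteTopology B := ⟨rfl⟩
  have : ContinuousSMul G B := by
    rw [continuousSMul_iff_stabilizer_isOpen]
    intro b
    convert stabilizer_isOpen_of_isIntegral (K := ℚ) (b : L) using 1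
    ext g
    simp only [SetLike.mem_coe, MulAction.mem_stabilizer_iff]
    exact Subtype.ext_iff
  have hNc : IsClosed (K.fixingSubgroup : Set G) := InfiniteGalois.fixingSubgroup_isClosed K
  obtain ⟨ρ, hρ, hρσ⟩ := exists_mul_mem_inertia (G := G) (B := B) K.fixingSubgroup hNc
    (centre A) σ₀ (by
      intro x hx
      have hxK : (x : L) ∈ K := by
        rw [← InfiniteGalois.fixedField_fixingSubgroup K, IntermediateField.mem_fixedField_iff]
        intro n hn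
        exact congrArg Subtype.val (hx n hn)
      have hxi : IsIntegral ℤ (⟨(x : L), hxK⟩ : K) := by
        have h1 : IsIntegral ℤ (x : L) := x.2
        exact (isIntegral_algebraMap_iff (A := K) (B := L) (algebraMap K L).injective).mp h1
      let x' : 𝓞 K := ⟨⟨(x : L), hxK⟩, hxi⟩
      let y' : 𝓞 K := ⟨τ ⟨(x : L), hxK⟩, hxi.map (τ.restrictScalars ℤ)⟩
      have h3 : y' - x' ∈ P := hτ x' y' rfl
      rw [Ideal.mem_comap, mem_centre] at h3
      rw [mem_centre]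
      have h4 : ((f (y' - x') : intSubring L) : L) = ((σ₀ • x - x : B) : L) := by
        have h5 : ((τ ⟨(x : L), hxK⟩ : K) : L) = σ₀ (x : L) := by
          rw [← hσ₀]
          exact AlgEquiv.restrictNormal_commutes σ₀ K ⟨(x : L), hxK⟩
        change ((τ ⟨(x : L), hxK⟩ : K) : L) - (x : L) = σ₀ (x : L) - (x : L)
        rw [h5]
      rw [← h4]
      exact h3)
  refine ⟨ρ * σ₀, mem_inertiaSubgroupIn_of_forall A hp hA _ (fun b hb => ?_), ?_⟩
  · have := hρσ ⟨b, hb⟩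
    rw [mem_centre] at this
    exact this
  · intro hmem
    have h2 : σ₀ ∈ K.fixingSubgroup := by
      have := K.fixingSubgroup.mul_mem (K.fixingSubgroup.inv_mem hρ) hmem
      simpa using this
    apply hτ1
    rw [← hσ₀]
    ext x
    rw [AlgEquiv.restrictNormalHom_apply]
    exact h2 x

/-- Minkowski: a normal subgroup of the Galois group of a Galois extension of `ℚ` which is open
and contains, for every prime, the inertia subgroup of one place over it, is everything. -/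
theorem eq_top_of_exists_inertia_le [Algebra ℚ L] [IsGalois ℚ L] (H : Subgroup (L ≃ₐ[ℚ] L))
    [H.Normal] (M : IntermediateField ℚ L) [FiniteDimensional ℚ M] (hM : M.fixingSubgroup ≤ H)
    (hI : ∀ ℓ : ℕ, ℓ.Prime → ∃ A : ValuationSubring L, A.LiesOverPrime ℓ ∧
      A.inertiaSubgroupIn ℚ ≤ H) :
    H = ⊤ := by
  have hopen : IsOpen (H : Set (L ≃ₐ[ℚ] L)) :=
    Subgroup.isOpen_mono hM (IntermediateField.fixingSubgroup_isOpen M)
  have hclosed : IsClosed (H : Set (L ≃ₐ[ℚ] L)) := Subgroup.isClosed_of_isOpen H hopen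
  let Hc : ClosedSubgroup (L ≃ₐ[ℚ] L) := ⟨H, hclosed⟩
  let K := IntermediateField.fixedField H
  have hKH : K.fixingSubgroup = H := InfiniteGalois.fixingSubgroup_fixedField Hc
  have hfd : FiniteDimensional ℚ K :=
    (InfiniteGalois.isOpen_iff_finite K).mp (by rw [hKH]; exact hopen)
  have hgal : IsGalois ℚ K :=
    (InfiniteGalois.normal_iff_isGalois K).mp (by rw [hKH]; infer_instance)
  by_contra hne
  have hK : K ≠ ⊥ := by
    intro h
    apply hne
    rw [← hKH, h, IntermediateField.fixingSubgroup_bot]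
  obtain ⟨ℓ, hℓ, h⟩ := exists_inertia_not_mem_fixingSubgroup K hK
  obtain ⟨A, hA, hAH⟩ := hI ℓ hℓ
  obtain ⟨σ, hσ, hσK⟩ := h A hA
  exact hσK (hKH ▸ hAH hσ)

theorem eq_top_of_inertia_le [Algebra ℚ L] [IsGalois ℚ L] (H : Subgroup (L ≃ₐ[ℚ] L)) [H.Normal]
    (M : IntermediateField ℚ L) [FiniteDimensional ℚ M] (hM : M.fixingSubgroup ≤ H)
    (hI : ∀ (ℓ : ℕ) (A : ValuationSubring L), ℓ.Prime → A.LiesOverPrime ℓ →
      A.inertiaSubgroupIn ℚ ≤ H) :
    H = ⊤ := by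
  have : CharZero L := algebraRat.charZero L
  refine eq_top_of_exists_inertia_le H M hM fun ℓ hℓ => ?_
  obtain ⟨A, hA⟩ := exists_liesOverPrime L hℓ
  exact ⟨A, hA, hI ℓ A hℓ hA⟩

/-- A homomorphism from the Galois group with open kernel which kills all inertia subgroups is
trivial. -/
theorem monoidHom_eq_one_of_unramified [Algebra ℚ L] [IsGalois ℚ L] {X : Type*} [Group X]
    (χ : (L ≃ₐ[ℚ] L) →* X)
    (M : IntermediateField ℚ L) [FiniteDimensional ℚ M] (hM : ∀ σ ∈ M.fixingSubgroup, χ σ = 1)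
    (hI : ∀ (ℓ : ℕ) (A : ValuationSubring L), ℓ.Prime → A.LiesOverPrime ℓ →
      ∀ σ ∈ A.inertiaSubgroupIn ℚ, χ σ = 1) (σ : L ≃ₐ[ℚ] L) : χ σ = 1 := by
  have h : χ.ker = ⊤ := eq_top_of_inertia_le χ.ker M (fun σ hσ => hM σ hσ)
    (fun ℓ A hℓ hA σ hσ => hI ℓ A hℓ hA σ hσ)
  have h2 : σ ∈ χ.ker := h ▸ Subgroup.mem_top σ
  exact h2

end Main

section Qbar

open Fermat.Agent.Lib.Frobenius

/-- Version for `AlgebraicClosure ℚ` with whatever algebra structure is found by unification. -/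
theorem eq_top_of_inertia_le_Qbar [inst : Algebra ℚ (AlgebraicClosure ℚ)]
    (H : Subgroup (AlgebraicClosure ℚ ≃ₐ[ℚ] AlgebraicClosure ℚ)) [H.Normal]
    (M : IntermediateField ℚ (AlgebraicClosure ℚ)) [FiniteDimensional ℚ M]
    (hM : M.fixingSubgroup ≤ H)
    (hI : ∀ (ℓ : ℕ) (A : ValuationSubring (AlgebraicClosure ℚ)), ℓ.Prime → A.LiesOverPrime ℓ →
      A.inertiaSubgroupIn ℚ ≤ H) :
    H = ⊤ := by
  have := isGalois_algebraicClosure inst
  exact eq_top_of_inertia_le H M hM hI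

theorem monoidHom_eq_one_of_unramified_Qbar [inst : Algebra ℚ (AlgebraicClosure ℚ)]
    {X : Type*} [Group X] (χ : (AlgebraicClosure ℚ ≃ₐ[ℚ] AlgebraicClosure ℚ) →* X)
    (M : IntermediateField ℚ (AlgebraicClosure ℚ)) [FiniteDimensional ℚ M]
    (hM : ∀ σ ∈ M.fixingSubgroup, χ σ = 1)
    (hI : ∀ (ℓ : ℕ) (A : ValuationSubring (AlgebraicClosure ℚ)), ℓ.Prime → A.LiesOverPrime ℓ →
      ∀ σ ∈ A.inertiaSubgroupIn ℚ, χ σ = 1)
    (σ : AlgebraicClosure ℚ ≃ₐ[ℚ] AlgebraicClosure ℚ) : χ σ = 1 := by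
  have := isGalois_algebraicClosure inst
  exact monoidHom_eq_one_of_unramified χ M hM hI σ

/-- The exact interface statement of the S13 skeleton. -/
theorem minkowski
    (H : Subgroup (AlgebraicClosure ℚ ≃ₐ[ℚ] AlgebraicClosure ℚ)) (hnormal : H.Normal)
    (hopen : ∃ s : Finset (AlgebraicClosure ℚ),
      ∀ σ : AlgebraicClosure ℚ ≃ₐ[ℚ] AlgebraicClosure ℚ, (∀ x ∈ s, σ x = x) → σ ∈ H)
    (hI : ∀ q : ℕ, q.Prime → ∀ A : ValuationSubring (AlgebraicClosure ℚ), A.LiesOverPrime q →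
      A.inertiaSubgroupIn ℚ ≤ H) :
    H = ⊤ := by
  obtain ⟨s, hs⟩ := hopen
  have hG := isGalois_algebraicClosure inferInstance
  have hAlg : Algebra.IsAlgebraic ℚ (AlgebraicClosure ℚ) := hG.to_normal.toIsAlgebraic
  let M : IntermediateField ℚ (AlgebraicClosure ℚ) :=
    IntermediateField.adjoin ℚ (s : Set (AlgebraicClosure ℚ))
  have hfd : FiniteDimensional ℚ M :=
    IntermediateField.finiteDimensional_adjoin fun x _ =>
      (Algebra.IsAlgebraic.isAlgebraic x).isIntegral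
  refine eq_top_of_inertia_le_Qbar H M (fun σ hσ => hs σ fun x hx => ?_)
    (fun q A hq hA => hI q hq A hA)
  exact hσ ⟨x, IntermediateField.subset_adjoin ℚ _ hx⟩

/-- Weak inertia set relative to a subfield (interface asked for by the local modules). -/
def Iner [Algebra ℚ (AlgebraicClosure ℚ)] (A : ValuationSubring (AlgebraicClosure ℚ))
    (L : IntermediateField ℚ (AlgebraicClosure ℚ)) :
    Set (AlgebraicClosure ℚ ≃ₐ[ℚ] AlgebraicClosure ℚ) :=
  {σ | ∀ x ∈ L, A.valuation x ≤ 1 → A.valuation (σ x - x) < 1}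

theorem inertiaSubgroupIn_subset_Iner [Algebra ℚ (AlgebraicClosure ℚ)]
    (A : ValuationSubring (AlgebraicClosure ℚ))
    (L : IntermediateField ℚ (AlgebraicClosure ℚ)) :
    ((A.inertiaSubgroupIn ℚ : Subgroup (AlgebraicClosure ℚ ≃ₐ[ℚ] AlgebraicClosure ℚ)) :
      Set (AlgebraicClosure ℚ ≃ₐ[ℚ] AlgebraicClosure ℚ)) ⊆ Iner A L :=
  fun _ hσ _ _ hx => Fermat.Agent.S05.inertia_congr A hσ hx

theorem mink [inst : Algebra ℚ (AlgebraicClosure ℚ)]
    (L : IntermediateField ℚ (AlgebraicClosure ℚ)) [FiniteDimensional ℚ L]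
    (U : Subgroup (AlgebraicClosure ℚ ≃ₐ[ℚ] AlgebraicClosure ℚ)) [U.Normal]
    (hLU : L.fixingSubgroup ≤ U)
    (h : ∀ ℓ : ℕ, ℓ.Prime → ∃ A : ValuationSubring (AlgebraicClosure ℚ),
      A.LiesOverPrime ℓ ∧ Iner A L ⊆ U) : U = ⊤ := by
  have := isGalois_algebraicClosure inst
  refine eq_top_of_exists_inertia_le U L hLU fun ℓ hℓ => ?_
  obtain ⟨A, hA, hAU⟩ := h ℓ hℓ
  exact ⟨A, hA, fun σ hσ => hAU (inertiaSubgroupIn_subset_Iner A L hσ)⟩

theorem exists_liesOverPrime_Qbar {ℓ : ℕ} (hℓ : ℓ.Prime) :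
    ∃ A : ValuationSubring (AlgebraicClosure ℚ), A.LiesOverPrime ℓ :=
  exists_liesOverPrime (AlgebraicClosure ℚ) hℓ

end Qbar

end Fermat.Agent.S13
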