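import Fermat.Agent.S05

/-!
# S13 / E5: valuations of rational numbers
-/

set_option autoImplicit false
set_option linter.unusedSectionVars false

namespace Fermat.Agent.S13.ValRat

open Fermat.Agent.S05

variable {K : Type*} [Field K] {Γ₀ : Type*} [LinearOrderedCommGroupWithZero Γ₀]
  (v : Valuation K Γ₀)

/-- the valuation of a nonzero integer is a power of the valuation of `ℓ`. -/
theorem valInt_eq_pow {ℓ : ℕ} (hℓ : ℓ.Prime) (hv : v (ℓ : K) < 1) {n : ℤ} (hn : n ≠ 0) :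
    ∃ t : ℕ, v (n : K) = v (ℓ : K) ^ t ∧ ∃ n' : ℤ, n = (ℓ : ℤ) ^ t * n' ∧ ¬ (ℓ : ℤ) ∣ n' := by
  have hfin : FiniteMultiplicity (ℓ : ℤ) n := by
    rw [Int.finiteMultiplicity_iff]
    exact ⟨by simpa using hℓ.ne_one, hn⟩
  obtain ⟨c, hc, hdvd⟩ := hfin.exists_eq_pow_mul_and_not_dvd
  refine ⟨multiplicity (ℓ : ℤ) n, ?_, c, hc, hdvd⟩
  conv_lhs => rw [hc]
  push_cast
  rw [map_mul, map_pow, valInt_eq_one v hℓ hv hdvd, mul_one]

variable [Algebra ℚ K] [CharZero K]

theorem algebraMap_rat_eq (r : ℚ) : algebraMap ℚ K r = (r.num : K) / (r.den : K) := by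
  conv_lhs => rw [← Rat.num_div_den r]
  rw [map_div₀, map_intCast, map_natCast]

/-- the valuation of a nonzero rational is an integral power of the valuation of `ℓ`. -/
theorem valRat_eq_zpow {ℓ : ℕ} (hℓ : ℓ.Prime) (hv : v (ℓ : K) < 1) {r : ℚ} (hr : r ≠ 0) :
    ∃ j : ℤ, v (algebraMap ℚ K r) = v (ℓ : K) ^ j := by
  obtain ⟨s, hs, -⟩ := valInt_eq_pow v hℓ hv (Rat.num_ne_zero.mpr hr)
  obtain ⟨t, ht, -⟩ := valInt_eq_pow v hℓ hv (n := (r.den : ℤ)) (by exact_mod_cast r.den_nz)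
  refine ⟨(s : ℤ) - t, ?_⟩
  have hℓ0 : v (ℓ : K) ≠ 0 :=
    (Valuation.ne_zero_iff v).mpr (by exact_mod_cast hℓ.ne_zero)
  rw [algebraMap_rat_eq, map_div₀, hs]
  have : v ((r.den : ℕ) : K) = v (ℓ : K) ^ t := by
    have := ht
    push_cast at this
    exact this
  rw [this, zpow_sub₀ hℓ0, zpow_natCast, zpow_natCast]

/-- a rational 2-adic unit is congruent to `1`. -/
theorem valRat_sub_one_lt (hv : v (2 : K) < 1) {r : ℚ} (hr : v (algebraMap ℚ K r) = 1) :
    v (algebraMap ℚ K r - 1) < 1 := by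
  have hv' : v ((2 : ℕ) : K) < 1 := by simpa using hv
  have hden0 : ((r.den : ℕ) : K) ≠ 0 := by exact_mod_cast r.den_nz
  rw [algebraMap_rat_eq, map_div₀] at hr
  have hdle : v ((r.den : ℕ) : K) ≤ 1 := le1_natCast v _
  have hnle : v (r.num : K) ≤ 1 := valInt_le v _
  have hd0 : v ((r.den : ℕ) : K) ≠ 0 := (Valuation.ne_zero_iff v).mpr hden0
  have heq : v (r.num : K) = v ((r.den : ℕ) : K) := by
    rwa [div_eq_one_iff_eq hd0] at hr
  -- the denominator is odd
  have hdodd : ¬ ((2 : ℕ) : ℤ) ∣ (r.den : ℤ) := by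
    intro hd
    have hn : ((2 : ℕ) : ℤ) ∣ r.num := by
      by_contra hn
      have h1 := valInt_eq_one v Nat.prime_two hv' hn
      have h2 := valInt_lt_one v hv' hd
      rw [heq] at h1
      push_cast at h2
      exact h2.ne h1
    have hcop := r.reduced
    have h2n : 2 ∣ r.num.natAbs := by
      have := Int.natAbs_dvd_natAbs.mpr hn
      simpa using this
    have h2d : 2 ∣ r.den := by exact_mod_cast hd
    have := Nat.dvd_gcd h2n h2d
    rw [hcop] at this
    omega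
  have hnodd : ¬ ((2 : ℕ) : ℤ) ∣ r.num := by
    intro hn
    have h1 := valInt_eq_one v Nat.prime_two hv' hdodd
    have h2 := valInt_lt_one v hv' hn
    push_cast at h1
    rw [heq, h1] at h2
    exact lt_irrefl _ h2
  have hsub : ((2 : ℕ) : ℤ) ∣ r.num - r.den := by
    push_cast at hdodd hnodd ⊢
    omega
  have h3 := valInt_lt_one v hv' hsub
  have h4 : v ((r.den : ℕ) : K) = 1 := by
    have := valInt_eq_one v Nat.prime_two hv' hdodd
    push_cast at this
    exact this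
  have h5 : algebraMap ℚ K r - 1 = ((r.num - r.den : ℤ) : K) / ((r.den : ℕ) : K) := by
    rw [algebraMap_rat_eq]
    push_cast
    field_simp
  rw [h5, map_div₀, h4, div_one]
  exact h3

theorem valRat_sub_lt (hv : v (2 : K) < 1) {r s : ℚ} (hr : v (algebraMap ℚ K r) = 1)
    (hs : v (algebraMap ℚ K s) = 1) : v (algebraMap ℚ K r - algebraMap ℚ K s) < 1 := by
  have : algebraMap ℚ K r - algebraMap ℚ K s =
      (algebraMap ℚ K r - 1) - (algebraMap ℚ K s - 1) := by ring
  rw [this]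
  exact lt1_sub v (valRat_sub_one_lt v hv hr) (valRat_sub_one_lt v hv hs)

/-- the 2-adic valuation of `a₄` of the Frey curve is prime to `p`. -/
theorem frey_val_a₄ (P : FreyPackage) (hv : v (2 : K) < 1) :
    ∃ k : ℤ, v (algebraMap ℚ K P.freyCurve.a₄) = v (2 : K) ^ k ∧ ¬ (P.p : ℤ) ∣ k := by
  have hv' : v ((2 : ℕ) : K) < 1 := by simpa using hv
  obtain ⟨t, ht, -⟩ := valInt_eq_pow v Nat.prime_two hv' P.hb0
  have ha : ¬ ((2 : ℕ) : ℤ) ∣ P.a := by
    intro h
    have h4 := P.ha4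
    obtain ⟨c, hc⟩ := h
    rw [hc] at h4
    push_cast at h4
    have : ∀ z : ZMod 4, 2 * z ≠ 3 := by decide
    exact this _ h4
  have hva := valInt_eq_one v Nat.prime_two hv' ha
  have h20 : v (2 : K) ≠ 0 := (Valuation.ne_zero_iff v).mpr two_ne_zero
  refine ⟨(P.p : ℤ) * t - 4, ?_, ?_⟩
  · have h1 : algebraMap ℚ K P.freyCurve.a₄ = -((P.a : K) ^ P.p * (P.b : K) ^ P.p) / 2 ^ 4 := by
      simp only [FreyPackage.freyCurve]
      rw [map_div₀, map_mul, map_neg, map_pow, map_pow, map_intCast, map_intCast, map_ofNat]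
      norm_num
    rw [h1, map_div₀, Valuation.map_neg, map_mul, map_pow, map_pow, map_pow, hva, ht, one_pow,
      one_mul]
    push_cast
    rw [zpow_sub₀ h20, zpow_mul, zpow_natCast, ← pow_mul, zpow_natCast, ← pow_mul,
      mul_comm t P.p]
    norm_cast
  · intro h
    have h4 : (P.p : ℤ) ∣ 4 := by
      have := dvd_sub (Dvd.intro _ rfl : (P.p : ℤ) ∣ (P.p : ℤ) * t) h
      simpa using this
    have h4' : P.p ∣ 4 := by exact_mod_cast h4
    have := Nat.le_of_dvd (by norm_num) h4'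
    have := P.hp5
    omega

end Fermat.Agent.S13.ValRat
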