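import Fermat.Agent.S13.LocalNoRat
import Fermat.Agent.S13.LocalTwo
import Fermat.Agent.S13.ValRat
import Fermat.Agent.S13.Minkowski

/-!
# S13 / E4: the Frey curve has no rational point of order `p`
-/

set_option autoImplicit false
set_option linter.unusedSectionVars false

namespace Fermat.Agent.S13

open WeierstrassCurve WeierstrassCurve.Affine WeierstrassCurve.Affine.Point
open Fermat.Agent.S05

/-- **E4**: no nonzero Galois-fixed point of order `p` on the Frey curve. -/
theorem frey_no_rat (P : FreyPackage) (Q : (P.freyCurve⁄(AlgebraicClosure ℚ)).Point)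
    (hQ : Q ≠ 0) (hpQ : P.p • Q = 0)
    (hfix : ∀ σ : AlgebraicClosure ℚ ≃ₐ[ℚ] AlgebraicClosure ℚ, σ • Q = Q) : False := by
  have hG := Fermat.Agent.Lib.Frobenius.isGalois_algebraicClosure inferInstance
  obtain ⟨A, hA⟩ := exists_liesOverPrime_Qbar Nat.prime_two
  have h2 : A.valuation (2 : AlgebraicClosure ℚ) < 1 := by
    have := A.mem_nonunits_iff.mp hA
    simpa using this
  have h2' : A.valuation ((2 : ℕ) : AlgebraicClosure ℚ) < 1 := by simpa using h2
  refine no_rat_abstract (v := A.valuation) (frey_isXY2 P) (frey_val_a₄_lt _ P h2)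
    (frey_a₄_ne_zero P) (frey_val_b₂_two _ P h2) P.pp P.hp5 (frey_val_p_two _ P h2)
    (algebraMap ℚ (AlgebraicClosure ℚ)).fieldRange 2 two_ne_zero h2 ?_ ?_
    (ValRat.frey_val_a₄ _ P h2) hQ hpQ ?_
  · rintro x ⟨r, rfl⟩ hx
    have hr : r ≠ 0 := by
      rintro rfl
      exact hx (map_zero _)
    obtain ⟨j, hj⟩ := ValRat.valRat_eq_zpow A.valuation Nat.prime_two h2' hr
    exact ⟨j, by simpa using hj⟩
  · rintro x ⟨r, rfl⟩ y ⟨s, rfl⟩ hx hy
    exact ValRat.valRat_sub_lt A.valuation h2 hx hy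
  · intro n
    have hfixn : ∀ σ : AlgebraicClosure ℚ ≃ₐ[ℚ] AlgebraicClosure ℚ,
        σ (Xc 0 (n • Q)) = Xc 0 (n • Q) := by
      intro σ
      have h1 := Xc_smul P.freyCurve σ 0 (n • Q)
      rw [_root_.map_zero] at h1
      rw [← h1]
      congr 1
      rw [algEquiv_smul_def, map_nsmul, ← algEquiv_smul_def, hfix σ]
    obtain ⟨r, hr⟩ := (InfiniteGalois.mem_range_algebraMap_iff_fixed (k := ℚ) _).mpr hfixn
    exact ⟨r, hr⟩

end Fermat.Agent.S13
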