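import Mathlib

/-!
# S13 / M6: linear algebra over `ZMod p` in dimension `≤ 2`
-/

set_option autoImplicit false

namespace Fermat.Agent.S13

variable {p : ℕ} [Fact p.Prime] {V : Type*} [AddCommGroup V] [Module (ZMod p) V]

theorem finrank_of_line [Finite V] (hV : Nat.card V ≤ p ^ 2) {N : Submodule (ZMod p) V}
    (h0 : N ≠ ⊥) (h1 : N ≠ ⊤) : Module.finrank (ZMod p) N = 1 ∧ Module.finrank (ZMod p) V = 2 := by
  have hp : 1 < p := (Fact.out : p.Prime).one_lt
  have : Module.Finite (ZMod p) V := Module.Finite.of_finite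
  have hcV : Nat.card V = p ^ Module.finrank (ZMod p) V := by
    have := Module.natCard_eq_pow_finrank (K := ZMod p) (V := V)
    rwa [Nat.card_zmod] at this
  have hV2 : Module.finrank (ZMod p) V ≤ 2 := by
    rw [hcV] at hV
    exact (Nat.pow_le_pow_iff_right hp).1 hV
  have hlt : Module.finrank (ZMod p) N < Module.finrank (ZMod p) V :=
    Submodule.finrank_lt h1
  have hpos : 0 < Module.finrank (ZMod p) N := by
    rw [Nat.pos_iff_ne_zero]
    intro h
    exact h0 (Submodule.finrank_eq_zero.1 h)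
  omega

/-- A proper nonzero subspace of a space with at most `p²` elements is a line in a plane. -/
theorem card_of_line [Finite V] (hV : Nat.card V ≤ p ^ 2) {N : Submodule (ZMod p) V}
    (h0 : N ≠ ⊥) (h1 : N ≠ ⊤) : Nat.card N = p ∧ Nat.card V = p ^ 2 := by
  obtain ⟨hN, hV'⟩ := finrank_of_line hV h0 h1
  have : Module.Finite (ZMod p) V := Module.Finite.of_finite
  constructor
  · have := Module.natCard_eq_pow_finrank (K := ZMod p) (V := N)
    rw [Nat.card_zmod, hN, pow_one] at this
    exact this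
  · have := Module.natCard_eq_pow_finrank (K := ZMod p) (V := V)
    rw [Nat.card_zmod, hV'] at this
    exact this

theorem eq_zero_of_sq_zero_of_finrank_one {W : Type*} [AddCommGroup W] [Module (ZMod p) W]
    (hW : Module.finrank (ZMod p) W = 1) (g : W →ₗ[ZMod p] W) (hg : ∀ x, g (g x) = 0) (x : W) :
    g x = 0 := by
  obtain ⟨v, hv0, hv⟩ := finrank_eq_one_iff'.1 hW
  obtain ⟨c, hc⟩ := hv (g v)
  have h2 : (c * c) • v = 0 := by
    have := hg v
    rw [← hc, map_smul, ← hc, smul_smul] at this
    exact this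
  have hc0 : c = 0 := by
    rcases smul_eq_zero.1 h2 with h | h
    · exact mul_self_eq_zero.1 h
    · exact absurd h hv0
  have hgv : g v = 0 := by rw [← hc, hc0, zero_smul]
  obtain ⟨d, hd⟩ := hv x
  rw [← hd, map_smul, hgv, smul_zero]

/-- If `(f - 1)² = 0` and `f` preserves the line `N`, then `f` is trivial on `N` and on `V / N`. -/
theorem unipotent_line [Finite V] (hV : Nat.card V ≤ p ^ 2) {N : Submodule (ZMod p) V}
    (h0 : N ≠ ⊥) (h1 : N ≠ ⊤) (f : V →+ V) (hfN : ∀ x ∈ N, f x ∈ N)
    (hf : ∀ x, f (f x - x) = f x - x) :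
    (∀ x ∈ N, f x = x) ∧ ∀ x, f x - x ∈ N := by
  obtain ⟨hN, hV'⟩ := finrank_of_line hV h0 h1
  have : Module.Finite (ZMod p) V := Module.Finite.of_finite
  let g : V →ₗ[ZMod p] V := AddMonoidHom.toZModLinearMap p (f - AddMonoidHom.id V)
  have hgx : ∀ x, g x = f x - x := fun x => rfl
  have hgg : ∀ x, g (g x) = 0 := by
    intro x
    rw [hgx, hgx, hf, sub_self]
  have hgN : ∀ x ∈ N, g x ∈ N := fun x hx => by
    rw [hgx]; exact N.sub_mem (hfN x hx) hx
  constructor
  · intro x hx
    have := eq_zero_of_sq_zero_of_finrank_one hN (g.restrict hgN)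
      (fun y => by
        apply Subtype.ext
        simp only [LinearMap.coe_restrict_apply, ZeroMemClass.coe_zero]
        exact hgg _) ⟨x, hx⟩
    have h3 : g x = 0 := by
      have := congrArg Subtype.val this
      simpa using this
    rw [hgx, sub_eq_zero] at h3
    exact h3
  · intro x
    have hQ : Module.finrank (ZMod p) (V ⧸ N) = 1 := by
      have := Submodule.finrank_quotient_add_finrank N
      omega
    have hle : N ≤ N.comap g := fun y hy => hgN y hy
    have := eq_zero_of_sq_zero_of_finrank_one hQ (N.mapQ N g hle)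
      (fun y => by
        induction y using Submodule.Quotient.induction_on with
        | H y =>
          rw [Submodule.mapQ_apply, Submodule.mapQ_apply, hgg, Submodule.Quotient.mk_zero])
      (Submodule.Quotient.mk x)
    rw [Submodule.mapQ_apply, Submodule.Quotient.mk_eq_zero, hgx] at this
    exact this

/-- A proper subgroup meeting the line `N` nontrivially is equal to `N`. -/
theorem mem_iff_of_meet [Finite V] (hV : Nat.card V ≤ p ^ 2) {N : Submodule (ZMod p) V}
    (h0 : N ≠ ⊥) (h1 : N ≠ ⊤) (V0 : AddSubgroup V) (hV0 : ∃ x, x ∉ V0)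
    (hx : ∃ x ∈ N, x ≠ 0 ∧ x ∈ V0) (x : V) : x ∈ V0 ↔ x ∈ N := by
  obtain ⟨hN, hV'⟩ := finrank_of_line hV h0 h1
  have : Module.Finite (ZMod p) V := Module.Finite.of_finite
  let W : Submodule (ZMod p) V := AddSubgroup.toZModSubmodule p V0
  have hW : ∀ y, y ∈ W ↔ y ∈ V0 := fun y => Iff.rfl
  obtain ⟨x0, hx0N, hx00, hx0V⟩ := hx
  have hNW : N ≤ W := by
    intro y hy
    obtain ⟨c, hc⟩ := (finrank_eq_one_iff_of_nonzero' (⟨x0, hx0N⟩ : N)
      (fun h => hx00 (congrArg Subtype.val h))).1 hN ⟨y, hy⟩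
    have : c • x0 = y := congrArg Subtype.val hc
    rw [← this]
    exact W.smul_mem c ((hW x0).2 hx0V)
  have hWtop : W ≠ ⊤ := by
    obtain ⟨z, hz⟩ := hV0
    intro h
    exact hz ((hW z).1 (h ▸ Submodule.mem_top))
  have hlt : Module.finrank (ZMod p) W < Module.finrank (ZMod p) V :=
    Submodule.finrank_lt hWtop
  have heq : N = W := Submodule.eq_of_le_of_finrank_le hNW (by omega)
  rw [heq, hW]

end Fermat.Agent.S13
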