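import Fermat.Agent.S05
import Fermat.Agent.S13.FreyTorsion
import Fermat.Agent.S13.LinAlg
import Fermat.Agent.S13.Minkowski
import Fermat.Prelude.Def_FLTPrelim_CofixedLine

/-!
# S13: the final glue (E6)

`glue` deduces the statement of S13 from the four local inputs
`E1` (unipotent inertia at `2`), `E2` (kernel of reduction at `p`), `E3` (an integral torsion point at `p`),
`E4` (no rational point of order `p`).
-/

set_option autoImplicit false
set_option linter.unusedSectionVars false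

namespace Fermat.Agent.S13.Glue

open WeierstrassCurve WeierstrassCurve.Affine WeierstrassCurve.Affine.Point

section linalg

variable {p : ℕ} [Fact p.Prime] {V : Type*} [AddCommGroup V] [Module (ZMod p) V]

/-- If `f` preserves the line `L` and `(f-1)² V ⊆ L` then `(f-1) V ⊆ L`. -/
theorem sub_mem_line [Finite V] (hV : Nat.card V ≤ p ^ 2) {L : Submodule (ZMod p) V}
    (h0 : L ≠ ⊥) (h1 : L ≠ ⊤) (f : V →+ V) (hfL : ∀ x ∈ L, f x ∈ L)
    (hf : ∀ x, f (f x - x) - (f x - x) ∈ L) (x : V) : f x - x ∈ L := by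
  obtain ⟨hN, hV'⟩ := finrank_of_line hV h0 h1
  have : Module.Finite (ZMod p) V := Module.Finite.of_finite
  let g : V →ₗ[ZMod p] V := AddMonoidHom.toZModLinearMap p (f - AddMonoidHom.id V)
  have hgx : ∀ x, g x = f x - x := fun x => rfl
  have hgg : ∀ x, g (g x) ∈ L := by
    intro x
    rw [hgx, hgx]; exact hf x
  have hgN : ∀ x ∈ L, g x ∈ L := fun x hx => by
    rw [hgx]; exact L.sub_mem (hfL x hx) hx
  have hQ : Module.finrank (ZMod p) (V ⧸ L) = 1 := by
    have := Submodule.finrank_quotient_add_finrank L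
    omega
  have hle : L ≤ L.comap g := fun y hy => hgN y hy
  have := eq_zero_of_sq_zero_of_finrank_one hQ (L.mapQ L g hle)
    (fun y => by
      induction y using Submodule.Quotient.induction_on with
      | H y =>
        rw [Submodule.mapQ_apply, Submodule.mapQ_apply, Submodule.Quotient.mk_eq_zero]
        exact hgg y)
    (Submodule.Quotient.mk x)
  rw [Submodule.mapQ_apply, Submodule.Quotient.mk_eq_zero, hgx] at this
  exact this

end linalg

section minkowski

open Fermat.Agent.Lib.Frobenius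

/-- Minkowski, one place for each prime, openness expressed by a finite set. -/
theorem minkowski_exists
    (H : Subgroup (AlgebraicClosure ℚ ≃ₐ[ℚ] AlgebraicClosure ℚ)) (hnormal : H.Normal)
    (hopen : ∃ s : Finset (AlgebraicClosure ℚ),
      ∀ σ : AlgebraicClosure ℚ ≃ₐ[ℚ] AlgebraicClosure ℚ, (∀ x ∈ s, σ x = x) → σ ∈ H)
    (hI : ∀ q : ℕ, q.Prime → ∃ A : ValuationSubring (AlgebraicClosure ℚ), A.LiesOverPrime q ∧
      A.inertiaSubgroupIn ℚ ≤ H) :
    H = ⊤ := by
  obtain ⟨s, hs⟩ := hopen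
  have hG := isGalois_algebraicClosure inferInstance
  have hAlg : Algebra.IsAlgebraic ℚ (AlgebraicClosure ℚ) := hG.to_normal.toIsAlgebraic
  let M : IntermediateField ℚ (AlgebraicClosure ℚ) :=
    IntermediateField.adjoin ℚ (s : Set (AlgebraicClosure ℚ))
  have hfd : FiniteDimensional ℚ M :=
    IntermediateField.finiteDimensional_adjoin fun x _ =>
      (Algebra.IsAlgebraic.isAlgebraic x).isIntegral
  refine eq_top_of_exists_inertia_le H M (fun σ hσ => hs σ fun x hx => ?_) hI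
  exact hσ ⟨x, IntermediateField.subset_adjoin ℚ _ hx⟩

end minkowski

section groups

variable {W' : Affine ℚ} {n : ℕ}

/-- the coordinates of a point. -/
def coords {F : Type*} [Field F] [DecidableEq F] {W : Affine F} : W.Point → Finset F
  | .zero => ∅
  | .some x y _ => {x, y}

theorem smul_eq_self_of_coords (σ : AlgebraicClosure ℚ ≃ₐ[ℚ] AlgebraicClosure ℚ)
    (Q : (W'⁄(AlgebraicClosure ℚ)).Point) (h : ∀ z ∈ coords Q, σ z = z) : σ • Q = Q := by
  rcases Q with _ | ⟨x, y, hxy⟩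
  · rfl
  · have hx : σ x = x := h x (by simp [coords])
    have hy : σ y = y := h y (by simp [coords])
    change Point.some (σ x) (σ y) _ = Point.some x y hxy
    simp only [hx, hy]

/-- The pointwise stabiliser of `N`. -/
def fixer (N : Submodule (ZMod n) (Submodule.torsionBy ℤ (W'⁄(AlgebraicClosure ℚ)).Point n)) :
    Subgroup (AlgebraicClosure ℚ ≃ₐ[ℚ] AlgebraicClosure ℚ) where
  carrier := {σ | ∀ x ∈ N, σ • x = x}
  mul_mem' := by
    intro σ τ hσ hτ x hx
    rw [mul_smul, hτ x hx, hσ x hx]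
  one_mem' := fun x _ => one_smul _ x
  inv_mem' := by
    intro σ hσ x hx
    rw [inv_smul_eq_iff, hσ x hx]

theorem fixer_normal
    {N : Submodule (ZMod n) (Submodule.torsionBy ℤ (W'⁄(AlgebraicClosure ℚ)).Point n)}
    (hN : IsGaloisStable ℚ N) : (fixer N).Normal := by
  constructor
  intro σ hσ τ x hx
  rw [mul_smul, mul_smul, hσ _ (hN τ⁻¹ x hx), smul_inv_smul]

/-- The elements acting trivially on the quotient by `N`. -/
def cofixer {N : Submodule (ZMod n) (Submodule.torsionBy ℤ (W'⁄(AlgebraicClosure ℚ)).Point n)}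
    (hN : IsGaloisStable ℚ N) :
    Subgroup (AlgebraicClosure ℚ ≃ₐ[ℚ] AlgebraicClosure ℚ) where
  carrier := {σ | ∀ x, σ • x - x ∈ N}
  mul_mem' := by
    intro σ τ hσ hτ x
    have h1 : (σ * τ) • x - x = σ • (τ • x - x) + (σ • x - x) := by
      rw [mul_smul, smul_sub]; abel
    rw [h1]
    exact N.add_mem (hN σ _ (hτ x)) (hσ x)
  one_mem' := fun x => by rw [one_smul, sub_self]; exact N.zero_mem
  inv_mem' := by
    intro σ hσ x
    have h1 : σ⁻¹ • x - x = -(σ • (σ⁻¹ • x) - σ⁻¹ • x) := by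
      rw [smul_inv_smul]; abel
    rw [h1]
    exact N.neg_mem (hσ _)

theorem cofixer_normal
    {N : Submodule (ZMod n) (Submodule.torsionBy ℤ (W'⁄(AlgebraicClosure ℚ)).Point n)}
    (hN : IsGaloisStable ℚ N) : (cofixer hN).Normal := by
  constructor
  intro σ hσ τ x
  have h1 : (τ * σ * τ⁻¹) • x - x = τ • (σ • (τ⁻¹ • x) - τ⁻¹ • x) := by
    rw [mul_smul, mul_smul, smul_sub, smul_inv_smul]
  rw [h1]
  exact hN τ _ (hσ _)

theorem exists_coords_finset
    [Finite (Submodule.torsionBy ℤ (W'⁄(AlgebraicClosure ℚ)).Point n)] :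
    ∃ s : Finset (AlgebraicClosure ℚ),
      ∀ σ : AlgebraicClosure ℚ ≃ₐ[ℚ] AlgebraicClosure ℚ, (∀ z ∈ s, σ z = z) →
        ∀ x : Submodule.torsionBy ℤ (W'⁄(AlgebraicClosure ℚ)).Point n, σ • x = x := by
  classical
  have := Fintype.ofFinite (Submodule.torsionBy ℤ (W'⁄(AlgebraicClosure ℚ)).Point n)
  refine ⟨Finset.univ.biUnion fun x : Submodule.torsionBy ℤ (W'⁄(AlgebraicClosure ℚ)).Point n =>
    coords (x : (W'⁄(AlgebraicClosure ℚ)).Point), fun σ hσ x => ?_⟩
  apply Subtype.ext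
  exact smul_eq_self_of_coords σ _ fun z hz =>
    hσ z (Finset.mem_biUnion.mpr ⟨x, Finset.mem_univ _, hz⟩)

end groups

section main

variable (P : FreyPackage)

theorem glue
    (E1 : ∀ (A : ValuationSubring (AlgebraicClosure ℚ)), A.LiesOverPrime 2 →
      ∀ σ ∈ A.inertiaSubgroupIn ℚ, ∀ x : (P.freyCurve⁄(AlgebraicClosure ℚ)).Point,
        P.p • x = 0 → σ • (σ • x - x) = σ • x - x)
    (E2 : ∀ (A : ValuationSubring (AlgebraicClosure ℚ)), A.LiesOverPrime P.p →
      ∃ V₁ : AddSubgroup (P.freyCurve⁄(AlgebraicClosure ℚ)).Point,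
        (∀ x, x ∈ V₁ ↔ x = 0 ∨ 1 < A.valuation (xc x)) ∧
        (∀ σ ∈ A.inertiaSubgroupIn ℚ, ∀ x ∈ V₁, σ • x ∈ V₁) ∧
        (∀ σ ∈ A.inertiaSubgroupIn ℚ, ∀ x, P.p • x = 0 →
          σ • (σ • x - x) - (σ • x - x) ∈ V₁))
    (E3 : ∀ (A : ValuationSubring (AlgebraicClosure ℚ)), A.LiesOverPrime P.p →
      ∀ N : Submodule (ZMod P.p)
        (Submodule.torsionBy ℤ (P.freyCurve⁄(AlgebraicClosure ℚ)).Point P.p),
        IsGaloisStable ℚ N → N ≠ ⊥ → N ≠ ⊤ →
        ∃ Q : (P.freyCurve⁄(AlgebraicClosure ℚ)).Point,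
          Q ≠ 0 ∧ P.p • Q = 0 ∧ A.valuation (xc Q) ≤ 1)
    (E4 : ∀ Q : (P.freyCurve⁄(AlgebraicClosure ℚ)).Point, Q ≠ 0 → P.p • Q = 0 →
      (∀ σ : AlgebraicClosure ℚ ≃ₐ[ℚ] AlgebraicClosure ℚ, σ • Q = Q) → False)
    (hred : ¬ GaloisRepIsIrreducible (K := AlgebraicClosure ℚ) ℚ P.freyCurve P.p) :
    HasGaloisStableCofixedLine (K := AlgebraicClosure ℚ) ℚ P.freyCurve P.p := by
  haveI : Fact P.p.Prime := ⟨P.pp⟩
  haveI hfin := frey_finite P
  have hcard := frey_card_le P
  have hnt := frey_nontrivial P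
  -- the stable line
  obtain ⟨N, hN, h0, h1⟩ : ∃ N : Submodule (ZMod P.p)
      (Submodule.torsionBy ℤ (P.freyCurve⁄(AlgebraicClosure ℚ)).Point P.p),
      IsGaloisStable ℚ N ∧ N ≠ ⊥ ∧ N ≠ ⊤ := by
    by_contra hcon
    apply hred
    refine ⟨hnt, fun N hN => ?_⟩
    by_contra h
    push Not at h
    exact hcon ⟨N, hN, h.1, h.2⟩
  have htors : ∀ x : Submodule.torsionBy ℤ (P.freyCurve⁄(AlgebraicClosure ℚ)).Point P.p,
      P.p • (x : (P.freyCurve⁄(AlgebraicClosure ℚ)).Point) = 0 := by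
    intro x
    have hx := x.2
    rwa [Submodule.mem_torsionBy_iff, natCast_zsmul] at hx
  -- the additive map attached to `σ`
  let f : (AlgebraicClosure ℚ ≃ₐ[ℚ] AlgebraicClosure ℚ) →
      (Submodule.torsionBy ℤ (P.freyCurve⁄(AlgebraicClosure ℚ)).Point P.p →+
        Submodule.torsionBy ℤ (P.freyCurve⁄(AlgebraicClosure ℚ)).Point P.p) :=
    fun σ => DistribMulAction.toAddMonoidHom _ σ
  have hf : ∀ σ x, f σ x = σ • x := fun _ _ => rfl
  -- away from `p`
  have haway : ∀ q : ℕ, q.Prime → q ≠ P.p → ∀ A : ValuationSubring (AlgebraicClosure ℚ),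
      A.LiesOverPrime q → ∀ σ ∈ A.inertiaSubgroupIn ℚ, σ ∈ fixer N ∧ σ ∈ cofixer hN := by
    intro q hq hqp A hA σ hσ
    have huni : ∀ x, f σ (f σ x - x) = f σ x - x := by
      intro x
      simp only [hf]
      by_cases hq2 : q = 2
      · subst hq2
        apply Subtype.ext
        exact E1 A hA σ hσ x (htors x)
      · have h := Fermat.Agent.S05.result P hq hq2 hqp A hA σ hσ
        have hx : σ • x = x := h x
        rw [hx, sub_self, smul_zero]
    exact unipotent_line hcard h0 h1 (f σ) (fun x hx => hN σ x hx) huni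
  -- at `p`
  obtain ⟨Ap, hAp⟩ := exists_liesOverPrime_Qbar P.pp
  obtain ⟨V₁, hV₁, hV₁σ, hV₁2⟩ := E2 Ap hAp
  obtain ⟨Q, hQ0, hpQ, hQv⟩ := E3 Ap hAp N hN h0 h1
  let V0 : AddSubgroup (Submodule.torsionBy ℤ (P.freyCurve⁄(AlgebraicClosure ℚ)).Point P.p) :=
    V₁.comap (Submodule.subtype _).toAddMonoidHom
  have hV0 : ∀ x, x ∈ V0 ↔ (x : (P.freyCurve⁄(AlgebraicClosure ℚ)).Point) ∈ V₁ := fun _ => Iff.rfl
  have hV0ne : ∃ x, x ∉ V0 := by
    refine ⟨⟨Q, ?_⟩, ?_⟩
    · rw [Submodule.mem_torsionBy_iff, natCast_zsmul]; exact hpQ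
    · rw [hV0, hV₁]
      push Not
      exact ⟨hQ0, hQv⟩
  have hsq : ∀ σ ∈ Ap.inertiaSubgroupIn ℚ, ∀ x, f σ (f σ x - x) - (f σ x - x) ∈ V0 := by
    intro σ hσ x
    rw [hV0]
    exact hV₁2 σ hσ x (htors x)
  have hatp : (∀ σ ∈ Ap.inertiaSubgroupIn ℚ, σ ∈ cofixer hN) ∨
      (∀ σ ∈ Ap.inertiaSubgroupIn ℚ, σ ∈ fixer N) := by
    by_cases hmeet : ∃ x ∈ N, x ≠ 0 ∧ x ∈ V0
    · left
      intro σ hσ x
      have hiff := mem_iff_of_meet hcard h0 h1 V0 hV0ne hmeet
      exact sub_mem_line hcard h0 h1 (f σ) (fun x hx => hN σ x hx)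
        (fun x => (hiff _).1 (hsq σ hσ x)) x
    · right
      intro σ hσ
      push Not at hmeet
      by_cases hbot : ∀ x, x ∈ V0 → x = 0
      · have huni : ∀ x, f σ (f σ x - x) = f σ x - x := fun x =>
          sub_eq_zero.mp (hbot _ (hsq σ hσ x))
        exact (unipotent_line hcard h0 h1 (f σ) (fun x hx => hN σ x hx) huni).1
      · push Not at hbot
        obtain ⟨z, hzV, hz0⟩ := hbot
        let L : Submodule (ZMod P.p)
          (Submodule.torsionBy ℤ (P.freyCurve⁄(AlgebraicClosure ℚ)).Point P.p) :=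
          AddSubgroup.toZModSubmodule P.p V0
        have hL : ∀ y, y ∈ L ↔ y ∈ V0 := fun y => Iff.rfl
        have hL0 : L ≠ ⊥ := by
          intro h
          exact hz0 ((Submodule.mem_bot _).1 (h ▸ (hL z).2 hzV))
        have hL1 : L ≠ ⊤ := by
          obtain ⟨w, hw⟩ := hV0ne
          intro h
          exact hw ((hL w).1 (h ▸ Submodule.mem_top))
        have hsub := sub_mem_line hcard hL0 hL1 (f σ)
          (fun x hx => (hV0 _).2 (hV₁σ σ hσ _ ((hV0 x).1 hx))) (hsq σ hσ)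
        intro x hx
        by_contra hne
        have h3 : σ • x - x ≠ 0 := sub_ne_zero.mpr hne
        exact hmeet (σ • x - x) (N.sub_mem (hN σ x hx) hx) h3 (hsub x)
  obtain ⟨s, hs⟩ := exists_coords_finset (W' := P.freyCurve) (n := P.p)
  rcases hatp with hp | hp
  · have htop : cofixer hN = ⊤ := by
      refine minkowski_exists _ (cofixer_normal hN) ⟨s, fun σ hσ x => ?_⟩ fun q hq => ?_
      · rw [hs σ hσ x, sub_self]; exact N.zero_mem
      · by_cases hqp : q = P.p
        · subst hqp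
          exact ⟨Ap, hAp, hp⟩
        · obtain ⟨A, hA⟩ := exists_liesOverPrime_Qbar hq
          exact ⟨A, hA, fun σ hσ => (haway q hq hqp A hA σ hσ).2⟩
    refine ⟨N, hN, h0, h1, fun σ x => ?_⟩
    have : σ ∈ cofixer hN := htop ▸ Subgroup.mem_top σ
    exact this x
  · exfalso
    have htop : fixer N = ⊤ := by
      refine minkowski_exists _ (fixer_normal hN) ⟨s, fun σ hσ x _ => hs σ hσ x⟩ fun q hq => ?_
      by_cases hqp : q = P.p
      · subst hqp
        exact ⟨Ap, hAp, hp⟩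
      · obtain ⟨A, hA⟩ := exists_liesOverPrime_Qbar hq
        exact ⟨A, hA, fun σ hσ => (haway q hq hqp A hA σ hσ).1⟩
    obtain ⟨x, hxN, hx0⟩ := Submodule.exists_mem_ne_zero_of_ne_bot h0
    refine E4 x (fun h => hx0 (Subtype.ext h)) (htors x) fun σ => ?_
    have : σ ∈ fixer N := htop ▸ Subgroup.mem_top σ
    exact congrArg Subtype.val (this x hxN)

end main

end Fermat.Agent.S13.Glue
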