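import Mathlib

set_option autoImplicit false

namespace Fermat.Agent.S13

variable {K : Type*} [Field K]

/-- The sequence built from the `x`-coordinates of the multiples of a point. -/
noncomputable def geoSeq (X : ℕ → K) (b : K) : ℕ → K
  | 0 => 0
  | 1 => 1
  | 2 => b
  | (k + 3) => -(X (k + 2) - X 1) * (geoSeq X b (k + 2)) ^ 2 / geoSeq X b (k + 1)

@[simp] lemma geoSeq_zero (X : ℕ → K) (b : K) : geoSeq X b 0 = 0 := by rw [geoSeq]
@[simp] lemma geoSeq_one (X : ℕ → K) (b : K) : geoSeq X b 1 = 1 := by rw [geoSeq]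
@[simp] lemma geoSeq_two (X : ℕ → K) (b : K) : geoSeq X b 2 = b := by rw [geoSeq]
lemma geoSeq_add_three (X : ℕ → K) (b : K) (k : ℕ) : geoSeq X b (k + 3) =
    -(X (k + 2) - X 1) * (geoSeq X b (k + 2)) ^ 2 / geoSeq X b (k + 1) := by rw [geoSeq]

/-- The hypotheses on the sequence of `x`-coordinates, up to the bound `N`. -/
structure GeoHyp (X : ℕ → K) (b : K) (N : ℕ) : Prop where
  hb : 2 < N → b ≠ 0
  hX : ∀ k, k + 3 < N → X (k + 2) ≠ X 1
  hP : ∀ k, k + 3 < N → (X (k + 3) - X 1) * (X (k + 1) - X 1) * (X (k + 2) - X 1) ^ 2 =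
    -b ^ 2 * (X (k + 2) - X 2)
  hPhi : ∀ a e, 2 * a + e + 5 < N →
    (X (2 * a + e + 5) - X 1) * (X (e + 1) - X 1) * (X (a + 2) - X (a + e + 3)) ^ 2 =
      (X (a + 3) - X (a + e + 3)) * (X (a + 1) - X (a + e + 3)) * (X (a + 2) - X 1) ^ 2

variable {X : ℕ → K} {b : K} {N : ℕ}

lemma GeoHyp.ne_zero (H : GeoHyp X b N) : ∀ k, k + 1 < N → geoSeq X b (k + 1) ≠ 0 := by
  intro k
  induction k using Nat.strong_induction_on with
  | _ k ih =>
    intro hk
    match k, ih, hk with
    | 0, _, _ => simp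
    | 1, _, hk => simpa using H.hb hk
    | (k + 2), ih, hk =>
      rw [geoSeq_add_three]
      have h1 := ih (k + 1) (by omega) (by omega)
      have h2 := ih k (by omega) (by omega)
      have h3 := H.hX k hk
      refine div_ne_zero (mul_ne_zero (neg_ne_zero.2 (sub_ne_zero.2 h3)) (pow_ne_zero _ h1)) h2

/-- `T(k+1)`. -/
lemma GeoHyp.T (H : GeoHyp X b N) (k : ℕ) (hk : k + 2 ≤ N) :
    (X (k + 1) - X 1) * geoSeq X b (k + 1) ^ 2 = -geoSeq X b (k + 2) * geoSeq X b k := by
  match k, hk with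
  | 0, _ => simp
  | (k + 1), hk =>
    rw [geoSeq_add_three]
    have h2 := H.ne_zero k (by omega)
    field_simp

private lemma step_aux (A1 A2 A3 A4 A5 U gab gab1 gabm ge ge1 ge2 ga ga1 gam gb : K)
    (E1 : A1 * gab ^ 2 = -gab1 * gabm)
    (E2 : A2 * ge1 ^ 2 = -ge2 * ge)
    (E3 : A3 * ga ^ 2 * gb ^ 2 = -gab * ge1)
    (E4 : A4 * gam ^ 2 * gb ^ 2 = -gabm * ge2)
    (E5 : A5 * ga ^ 2 = -ga1 * gam)
    (E6 : A1 * A2 * A3 ^ 2 = U * A4 * A5 ^ 2)
    (h1 : gab ≠ 0) (h2 : gabm ≠ 0) (h3 : ge1 ≠ 0) (h4 : ge2 ≠ 0) (h5 : ga ≠ 0) (h6 : gam ≠ 0)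
    (h7 : gb ≠ 0) :
    U * ga1 ^ 2 * gb ^ 2 = -gab1 * ge := by
  have hA1 : A1 = -gab1 * gabm / gab ^ 2 := by field_simp; linear_combination E1
  have hA2 : A2 = -ge2 * ge / ge1 ^ 2 := by field_simp; linear_combination E2
  have hA3 : A3 = -gab * ge1 / (ga ^ 2 * gb ^ 2) := by field_simp; linear_combination E3
  have hA4 : A4 = -gabm * ge2 / (gam ^ 2 * gb ^ 2) := by field_simp; linear_combination E4
  have hA5 : A5 = -ga1 * gam / ga ^ 2 := by field_simp; linear_combination E5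
  rw [hA1, hA2, hA3, hA4, hA5] at E6
  field_simp at E6
  linear_combination E6

private lemma base_aux (A1 A2 A3 U b g4 g3 g2 g1 g0 : K)
    (E1 : A1 * g3 ^ 2 = -g4 * g2)
    (E2 : A2 * g1 ^ 2 = -g2 * g0)
    (E3 : A3 * g2 ^ 2 = -g3 * g1)
    (E6 : A1 * A2 * A3 ^ 2 = -b ^ 2 * U)
    (h1 : g1 ≠ 0) (h2 : g2 ≠ 0) (h3 : g3 ≠ 0) :
    U * b ^ 2 * g2 ^ 2 = -g4 * g0 := by
  have hA1 : A1 = -g4 * g2 / g3 ^ 2 := by field_simp; linear_combination E1
  have hA2 : A2 = -g2 * g0 / g1 ^ 2 := by field_simp; linear_combination E2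
  have hA3 : A3 = -g3 * g1 / g2 ^ 2 := by field_simp; linear_combination E3
  rw [hA1, hA2, hA3] at E6
  field_simp at E6
  linear_combination E6

/-- `Q(a+1, e+1)`: the general two-index relation. -/
theorem GeoHyp.Q (H : GeoHyp X b N) : ∀ a e, 2 * a + e + 3 ≤ N →
    (X (a + e + 2) - X (a + 1)) * geoSeq X b (a + 1) ^ 2 * geoSeq X b (a + e + 2) ^ 2 =
      -geoSeq X b (2 * a + e + 3) * geoSeq X b (e + 1) := by
  intro a
  induction a using Nat.strong_induction_on with
  | _ a ih =>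
    intro e he
    match a, ih, he with
    | 0, _, he =>
      have := H.T (e + 1) (by omega)
      simp only [zero_add, mul_zero, geoSeq_one, one_pow, mul_one]
      exact this
    | 1, _, he =>
      have E1 := H.T (e + 3) (by omega)
      have E2 := H.T (e + 1) (by omega)
      have E3 := H.T (e + 2) (by omega)
      have E6 := H.hP (e + 1) (by omega)
      have := base_aux _ _ _ _ b _ _ _ _ _ E1 E2 E3 E6 (H.ne_zero (e + 1) (by omega))
        (H.ne_zero (e + 2) (by omega)) (H.ne_zero (e + 3) (by omega))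
      simp only [Nat.reduceAdd, geoSeq_two, mul_one]
      have e1 : 1 + e + 2 = e + 1 + 2 := by omega
      have e2 : 2 + e + 3 = e + 3 + 2 := by omega
      rw [e1, e2]
      exact this
    | (a + 2), ih, he =>
      -- here `a_old = a + 2`, `b_old = a + e + 4`
      have E1 := H.T (2 * a + e + 5) (by omega)
      have E2 := H.T (e + 1) (by omega)
      have E3 := ih (a + 1) (by omega) (e + 1) (by omega)
      have E4 := ih a (by omega) (e + 2) (by omega)
      have E5 := H.T (a + 1) (by omega)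
      have E6 := H.hPhi a (e + 1) (by omega)
      have r1 : a + 1 + (e + 1) + 2 = a + e + 4 := by omega
      have r2 : 2 * (a + 1) + (e + 1) + 3 = 2 * a + e + 6 := by omega
      have r3 : a + (e + 2) + 2 = a + e + 4 := by omega
      have r4 : 2 * a + (e + 2) + 3 = 2 * a + e + 5 := by omega
      have r5 : 2 * a + (e + 1) + 5 = 2 * a + e + 6 := by omega
      have r6 : a + (e + 1) + 3 = a + e + 4 := by omega
      have r7 : a + 2 + e + 2 = a + e + 4 := by omega
      have r8 : 2 * (a + 2) + e + 3 = 2 * a + e + 7 := by omega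
      have r9 : 2 * a + e + 5 + 1 = 2 * a + e + 6 := by omega
      have r10 : 2 * a + e + 5 + 2 = 2 * a + e + 7 := by omega
      have r11 : a + 1 + 1 = a + 2 := by omega
      have r12 : a + 1 + 2 = a + 3 := by omega
      have r13 : e + 1 + 1 = e + 2 := by omega
      have r14 : e + 1 + 2 = e + 3 := by omega
      simp only [r1, r2, r3, r4, r5, r6, r7, r8, r9, r10, r11, r12, r13, r14]
        at E1 E2 E3 E4 E5 E6 ⊢
      refine step_aux (X (2 * a + e + 6) - X 1) (X (e + 2) - X 1) (X (a + e + 4) - X (a + 2))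
        (X (a + e + 4) - X (a + 1)) (X (a + 2) - X 1) (X (a + e + 4) - X (a + 3))
        _ _ _ _ _ _ _ _ _ _ E1 E2 E3 E4 E5 (by linear_combination E6)
        (H.ne_zero (2 * a + e + 5) (by omega)) (H.ne_zero (2 * a + e + 4) (by omega))
        (H.ne_zero (e + 1) (by omega)) (H.ne_zero (e + 2) (by omega))
        (H.ne_zero (a + 1) (by omega)) (H.ne_zero a (by omega)) (H.ne_zero (a + e + 3) (by omega))

/-- The odd recursion. -/
theorem GeoHyp.odd (H : GeoHyp X b N) (m : ℕ) (hm : 2 * m + 3 ≤ N) :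
    geoSeq X b (2 * m + 3) = geoSeq X b (m + 3) * geoSeq X b (m + 1) ^ 3 -
      geoSeq X b m * geoSeq X b (m + 2) ^ 3 := by
  have hQ := H.Q m 0 (by omega)
  have T1 := H.T (m + 1) (by omega)
  have T0 := H.T m (by omega)
  simp only [add_zero, zero_add, geoSeq_one, mul_one] at hQ
  have r1 : m + 1 + 1 = m + 2 := by omega
  have r2 : m + 1 + 2 = m + 3 := by omega
  simp only [r1, r2] at T1
  linear_combination hQ - geoSeq X b (m + 1) ^ 2 * T1 + geoSeq X b (m + 2) ^ 2 * T0

/-- The even recursion. -/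
theorem GeoHyp.even (H : GeoHyp X b N) (m : ℕ) (hm : 2 * m + 4 ≤ N) :
    geoSeq X b (2 * m + 4) * b = geoSeq X b (m + 1) ^ 2 * geoSeq X b (m + 2) * geoSeq X b (m + 4) -
      geoSeq X b m * geoSeq X b (m + 2) * geoSeq X b (m + 3) ^ 2 := by
  have hQ := H.Q m 1 (by omega)
  have T1 := H.T (m + 2) (by omega)
  have T0 := H.T m (by omega)
  have r1 : m + 2 + 1 = m + 3 := by omega
  have r2 : m + 2 + 2 = m + 4 := by omega
  have r3 : m + 1 + 2 = m + 3 := by omega
  have r4 : 2 * m + 1 + 3 = 2 * m + 4 := by omega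
  simp only [r1, r2, r4, Nat.reduceAdd, geoSeq_two] at T1 hQ
  linear_combination hQ - geoSeq X b (m + 1) ^ 2 * T1 + geoSeq X b (m + 3) ^ 2 * T0

/-- The geometric sequence agrees with the normalised elliptic divisibility sequence. -/
theorem GeoHyp.eq_normEDS (H : GeoHyp X b N) (c d : K) (h3 : 3 ≤ N → geoSeq X b 3 = c)
    (h4 : 4 ≤ N → geoSeq X b 4 = d * b) :
    ∀ n : ℕ, n ≤ N → geoSeq X b n = normEDS b c d n := by
  intro n
  induction n using Nat.strong_induction_on with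
  | _ n ih =>
    intro hn
    match n, ih, hn with
    | 0, _, _ => simp
    | 1, _, _ => simp
    | 2, _, _ => simp
    | 3, _, hn => simpa using h3 hn
    | 4, _, hn => simpa using h4 hn
    | (n + 5), ih, hn =>
      rcases Nat.even_or_odd' n with ⟨m, rfl | rfl⟩
      · -- `2 * m + 5 = 2 * (m + 1) + 3`
        have e := H.odd (m + 1) (by omega)
        have o := normEDS_odd b c d ((m : ℤ) + 2)
        have c1 : ((2 * m + 5 : ℕ) : ℤ) = 2 * ((m : ℤ) + 2) + 1 := by push_cast; ring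
        have c2 : (m : ℤ) + 2 + 2 = ((m + 4 : ℕ) : ℤ) := by push_cast; ring
        have c3 : (m : ℤ) + 2 = ((m + 2 : ℕ) : ℤ) := by push_cast; ring
        have c4 : (m : ℤ) + 2 - 1 = ((m + 1 : ℕ) : ℤ) := by push_cast; ring
        have c5 : (m : ℤ) + 2 + 1 = ((m + 3 : ℕ) : ℤ) := by push_cast; ring
        rw [c1, o, c2, c4, c5, c3, ← ih (m + 4) (by omega) (by omega),
          ← ih (m + 2) (by omega) (by omega), ← ih (m + 1) (by omega) (by omega),
          ← ih (m + 3) (by omega) (by omega)]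
        exact e
      · -- `2 * m + 1 + 5 = 2 * (m + 1) + 4`
        have e := H.even (m + 1) (by omega)
        have o := normEDS_even b c d ((m : ℤ) + 3)
        have hb : b ≠ 0 := H.hb (by omega)
        have c1 : ((2 * m + 1 + 5 : ℕ) : ℤ) = 2 * ((m : ℤ) + 3) := by push_cast; ring
        have c2 : (m : ℤ) + 3 - 1 = ((m + 2 : ℕ) : ℤ) := by push_cast; ring
        have c3 : (m : ℤ) + 3 = ((m + 3 : ℕ) : ℤ) := by push_cast; ring
        have c4 : (m : ℤ) + 3 + 2 = ((m + 5 : ℕ) : ℤ) := by push_cast; ring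
        have c5 : (m : ℤ) + 3 - 2 = ((m + 1 : ℕ) : ℤ) := by push_cast; ring
        have c6 : (m : ℤ) + 3 + 1 = ((m + 4 : ℕ) : ℤ) := by push_cast; ring
        rw [c2, c4, c5, c6, c3, ← ih (m + 2) (by omega) (by omega),
          ← ih (m + 3) (by omega) (by omega), ← ih (m + 5) (by omega) (by omega),
          ← ih (m + 1) (by omega) (by omega), ← ih (m + 4) (by omega) (by omega)] at o
        rw [c1]
        refine mul_right_cancel₀ hb ?_
        rw [c3, o]
        exact e

end Fermat.Agent.S13
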