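import Fermat.Agent.S13.XOnly
import Fermat.Agent.S13.GeoSeq

set_option autoImplicit false

namespace Fermat.Agent.S13

open WeierstrassCurve WeierstrassCurve.Affine

variable {F : Type*} [Field F] {W : Affine F}

/-- value of `Ψ₃`. -/
def c3 (W : Affine F) (x : F) : F :=
  3 * x ^ 4 + W.b₂ * x ^ 3 + 3 * W.b₄ * x ^ 2 + 3 * W.b₆ * x + W.b₈

/-- value of `preΨ₄`. -/
def d4 (W : Affine F) (x : F) : F :=
  2 * x ^ 6 + W.b₂ * x ^ 5 + 5 * W.b₄ * x ^ 4 + 10 * W.b₆ * x ^ 3 + 10 * W.b₈ * x ^ 2 +
    (W.b₂ * W.b₈ - W.b₄ * W.b₆) * x + (W.b₄ * W.b₈ - W.b₆ ^ 2)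

/-- value of `ψ₂`. -/
def b2 (W : Affine F) (x y : F) : F := 2 * y + W.a₁ * x + W.a₃

lemma b2_sq {x y : F} (h : W.Equation x y) :
    b2 W x y ^ 2 = 4 * x ^ 3 + W.b₂ * x ^ 2 + 2 * W.b₄ * x + W.b₆ := by
  have e₁ := (equation_iff _ _).1 h
  simp only [b2, WeierstrassCurve.b₂, WeierstrassCurve.b₄, WeierstrassCurve.b₆]
  linear_combination 4 * e₁

lemma Phi3_diag (u x : F) : Phi3 W u x x =
    -(4 * x ^ 3 + W.b₂ * x ^ 2 + 2 * W.b₄ * x + W.b₆) * (u - x) - c3 W x := by
  unfold Phi3 c3; ring

lemma d4_eq (x : F) : d4 W x = c3 W x * (6 * x ^ 2 + W.b₂ * x + W.b₄) -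
    (4 * x ^ 3 + W.b₂ * x ^ 2 + 2 * W.b₄ * x + W.b₆) ^ 2 := by
  have := W.b_relation
  unfold d4 c3
  linear_combination (x ^ 2) * this

/-- The values of the division polynomials at a point. -/
noncomputable def wseq (W : Affine F) (x y : F) (n : ℤ) : F :=
  normEDS (b2 W x y) (c3 W x) (d4 W x) n

section

variable [DecidableEq F] {x y : F} (h : W.Nonsingular x y) {N : ℕ}

theorem geoHyp (hN : ∀ k, 0 < k → k < N → k • Point.some x y h ≠ 0) :
    GeoHyp (fun k => xc (k • Point.some x y h)) (b2 W x y) N := by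
  set P := Point.some x y h with hPdef
  have hx1 : xc (1 • P) = x := by rw [one_nsmul]; rfl
  have key : ∀ a b : ℕ, 0 < a → a < b → a + b < N → ∀ c : F,
      (xc ((a + b) • P) - c) * (xc ((b - a) • P) - c) * (xc (a • P) - xc (b • P)) ^ 2 =
        Phi3 W (xc (a • P)) (xc (b • P)) c := by
    intro a b ha hab hN' c
    have h1 := xc_add_sub (a • P) (b • P) (hN a ha (by omega)) (hN b (by omega) (by omega))
      (by rw [← add_nsmul]; exact hN _ (by omega) hN')
      (by
        intro h0
        have : (b - a) • P = 0 := by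
          rw [sub_nsmul _ hab.le, ← sub_eq_add_neg, ← neg_sub, h0, neg_zero]
        exact hN _ (by omega) (by omega) this) c
    have h2 : xc (a • P - b • P) = xc ((b - a) • P) := by
      rw [sub_nsmul _ hab.le, ← sub_eq_add_neg, ← neg_sub, xc_neg]
    rw [← add_nsmul, h2] at h1
    exact h1
  refine ⟨?_, ?_, ?_, ?_⟩
  · intro h2 hb
    exact hN 2 (by omega) h2 ((two_nsmul_eq_zero_iff h).2 hb)
  · intro k hk heq
    rcases (xc_eq_iff (hN _ (by omega) (by omega)) (hN _ (by omega) (by omega))).1 heq with h1 | h1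
    · have : (k + 1) • P = 0 := by
        have : (k + 2) • P = (k + 1) • P + 1 • P := by rw [← add_nsmul]
        rw [this] at h1
        simpa using h1
      exact hN _ (by omega) (by omega) this
    · have : (k + 3) • P = 0 := by
        have : (k + 3) • P = (k + 2) • P + 1 • P := by rw [← add_nsmul]
        rw [this, h1, neg_add_cancel]
      exact hN _ (by omega) hk this
  · intro k hk
    have h1 := key 1 (k + 2) (by omega) (by omega) (by omega) x
    have e1 : 1 + (k + 2) = k + 3 := by omega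
    have e2 : k + 2 - 1 = k + 1 := by omega
    rw [e1, e2, hx1, Phi3_swap, ← Phi3_swap, show Phi3 W x (xc ((k + 2) • P)) x =
      Phi3 W (xc ((k + 2) • P)) x x by unfold Phi3; ring, Phi3_diag, ← b2_sq h.1] at h1
    have h2 := xc_two_nsmul h (hN 2 (by omega) (by omega))
    simp only [hx1]
    change (xc (2 • P) - x) * b2 W x y ^ 2 = -c3 W x at h2
    linear_combination h1 - h2
  · intro a e hae
    have h1 := key (a + 2) (a + e + 3) (by omega) (by omega) (by omega) x
    have h2 := key 1 (a + 2) (by omega) (by omega) (by omega) (xc ((a + e + 3) • P))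
    have e1 : a + 2 + (a + e + 3) = 2 * a + e + 5 := by omega
    have e2 : a + e + 3 - (a + 2) = e + 1 := by omega
    have e3 : 1 + (a + 2) = a + 3 := by omega
    have e4 : a + 2 - 1 = a + 1 := by omega
    rw [e1, e2] at h1
    rw [e3, e4, hx1] at h2
    simp only [hx1]
    rw [h1, Phi3_swap, show Phi3 W (xc ((a + 2) • P)) x (xc ((a + e + 3) • P)) =
      Phi3 W x (xc ((a + 2) • P)) (xc ((a + e + 3) • P)) by unfold Phi3; ring, ← h2]
    ring

theorem geoSeq_three (hN : ∀ k, 0 < k → k < N → k • Point.some x y h ≠ 0) (h3 : 3 ≤ N) :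
    geoSeq (fun k => xc (k • Point.some x y h)) (b2 W x y) 3 = c3 W x := by
  have h2 := xc_two_nsmul h (hN 2 (by omega) (by omega))
  change (xc (2 • Point.some x y h) - x) * b2 W x y ^ 2 = -c3 W x at h2
  have hx1 : xc (1 • Point.some x y h) = x := by rw [one_nsmul]; rfl
  rw [geoSeq_add_three]
  simp only [zero_add, geoSeq_two, geoSeq_one, div_one, hx1]
  linear_combination -h2

theorem geoSeq_four (hN : ∀ k, 0 < k → k < N → k • Point.some x y h ≠ 0) (h4 : 4 ≤ N) :
    geoSeq (fun k => xc (k • Point.some x y h)) (b2 W x y) 4 = d4 W x * b2 W x y := by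
  have h2 := xc_two_nsmul h (hN 2 (by omega) (by omega))
  change (xc (2 • Point.some x y h) - x) * b2 W x y ^ 2 = -c3 W x at h2
  have hx1 : xc (1 • Point.some x y h) = x := by rw [one_nsmul]; rfl
  have hb : b2 W x y ≠ 0 := fun hb => hN 2 (by omega) (by omega) ((two_nsmul_eq_zero_iff h).2 hb)
  have e1 : 2 • Point.some x y h - 1 • Point.some x y h = 1 • Point.some x y h := by
    rw [two_nsmul, one_nsmul, add_sub_cancel_right]
  have hs := xc_add_add_sub (2 • Point.some x y h) (1 • Point.some x y h)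
    (hN 2 (by omega) (by omega))
    (hN 1 (by omega) (by omega)) (by rw [← add_nsmul]; exact hN 3 (by omega) (by omega))
    (by rw [e1]; exact hN 1 (by omega) (by omega))
  rw [← add_nsmul, e1, hx1] at hs
  have h3 := geoSeq_three h hN (by omega)
  have hsq := b2_sq h.1
  rw [show (4 : ℕ) = 1 + 3 from rfl, geoSeq_add_three]
  simp only [Nat.reduceAdd, geoSeq_two, h3, hx1] at hs ⊢
  rw [d4_eq, ← hsq]
  generalize xc (2 • Point.some x y h) = X2 at *
  generalize xc (3 • Point.some x y h) = X3 at *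
  generalize b2 W x y = b at *
  generalize c3 W x = c at *
  have hX2 : X2 = x - c / b ^ 2 := by field_simp; linear_combination h2
  subst hX2
  field_simp at hs ⊢
  linear_combination -hs + b ^ 4 * hsq

theorem geoSeq_eq_wseq (hN : ∀ k, 0 < k → k < N → k • Point.some x y h ≠ 0) :
    ∀ n : ℕ, n ≤ N → geoSeq (fun k => xc (k • Point.some x y h)) (b2 W x y) n = wseq W x y n :=
  (geoHyp h hN).eq_normEDS _ _ (geoSeq_three h hN) (geoSeq_four h hN)

theorem wseq_ne_zero (hN : ∀ k, 0 < k → k < N → k • Point.some x y h ≠ 0) (k : ℕ) (hk0 : 0 < k)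
    (hk : k < N) : wseq W x y k ≠ 0 := by
  rw [← geoSeq_eq_wseq h hN k hk.le]
  obtain ⟨k, rfl⟩ : ∃ j, k = j + 1 := ⟨k - 1, by omega⟩
  exact (geoHyp h hN).ne_zero k hk

theorem wseq_T (hN : ∀ k, 0 < k → k < N → k • Point.some x y h ≠ 0) (k : ℕ) (hk : k + 2 ≤ N) :
    (xc ((k + 1) • Point.some x y h) - x) * wseq W x y (k + 1 : ℕ) ^ 2 =
      -wseq W x y (k + 2 : ℕ) * wseq W x y k := by
  have := (geoHyp h hN).T k hk
  rw [geoSeq_eq_wseq h hN _ (by omega), geoSeq_eq_wseq h hN _ (by omega),
    geoSeq_eq_wseq h hN _ (by omega)] at this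
  have hx1 : xc (1 • Point.some x y h) = x := by rw [one_nsmul]; rfl
  simpa only [hx1] using this

theorem wseq_Q (hN : ∀ k, 0 < k → k < N → k • Point.some x y h ≠ 0) (a e : ℕ)
    (hk : 2 * a + e + 3 ≤ N) :
    (xc ((a + e + 2) • Point.some x y h) - xc ((a + 1) • Point.some x y h)) *
      wseq W x y (a + 1 : ℕ) ^ 2 * wseq W x y (a + e + 2 : ℕ) ^ 2 =
      -wseq W x y (2 * a + e + 3 : ℕ) * wseq W x y (e + 1 : ℕ) := by
  have := (geoHyp h hN).Q a e hk
  rw [geoSeq_eq_wseq h hN _ (by omega), geoSeq_eq_wseq h hN _ (by omega),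
    geoSeq_eq_wseq h hN _ (by omega), geoSeq_eq_wseq h hN _ (by omega)] at this
  exact this

theorem wseq_eq_zero_iff (hN : ∀ k, 0 < k → k < N → k • Point.some x y h ≠ 0) (hN0 : 0 < N) :
    wseq W x y N = 0 ↔ N • Point.some x y h = 0 := by
  rw [← geoSeq_eq_wseq h hN N le_rfl]
  match N, hN, hN0 with
  | 1, _, _ =>
    simp only [geoSeq_one, one_ne_zero, one_nsmul, false_iff]
    exact Point.some_ne_zero h
  | 2, _, _ =>
    rw [geoSeq_two, two_nsmul_eq_zero_iff]; rfl
  | (k + 3), hN, _ =>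
    have H := geoHyp h hN
    rw [geoSeq_add_three, div_eq_zero_iff, mul_eq_zero, neg_eq_zero, sub_eq_zero]
    have h1 := H.ne_zero (k + 1) (by omega)
    have h2 := H.ne_zero k (by omega)
    constructor
    · rintro ((h0 | h0) | h0)
      · rcases (xc_eq_iff (hN _ (by omega) (by omega)) (hN _ (by omega) (by omega))).1 h0 with
          h3 | h3
        · exfalso
          have : (k + 1) • Point.some x y h = 0 := by
            have h4 : (k + 2) • Point.some x y h =
              (k + 1) • Point.some x y h + 1 • Point.some x y h := by rw [← add_nsmul]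
            rw [h4] at h3
            simpa using h3
          exact hN _ (by omega) (by omega) this
        · have h4 : (k + 3) • Point.some x y h =
              (k + 2) • Point.some x y h + 1 • Point.some x y h := by rw [← add_nsmul]
          rw [h4, h3, neg_add_cancel]
      · exact absurd (pow_eq_zero_iff (two_ne_zero)|>.1 h0) h1
      · exact absurd h0 h2
    · intro h0
      left; left
      refine (xc_eq_iff (hN _ (by omega) (by omega)) (hN _ (by omega) (by omega))).2 (Or.inr ?_)
      have h4 : (k + 3) • Point.some x y h =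
          (k + 2) • Point.some x y h + 1 • Point.some x y h := by rw [← add_nsmul]
      rw [h4] at h0
      exact eq_neg_of_add_eq_zero_left h0

end

end Fermat.Agent.S13
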