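import Fermat.Agent.S13.DivPoly

set_option autoImplicit false

namespace Fermat.Agent.S13

open Polynomial WeierstrassCurve
open scoped Polynomial.Bivariate

variable {K L : Type*} [Field K] [Field L] (W : WeierstrassCurve K)

/-- The image of `ψₙ` under a ring homomorphism to a field. -/
lemma map_psi_eq_wseq (f : K[X][Y] →+* L) (n : ℤ) :
    f (W.ψ n) = wseq (W.map (f.comp (C.comp C))).toAffine (f (C X)) (f Y) n := by
  unfold wseq WeierstrassCurve.ψ
  rw [map_normEDS]
  congr 1
  · simp [ψ₂, Affine.polynomialY, b2, map_ofNat, add_assoc]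
  · simp [Ψ₃, c3, map_ofNat]
  · simp [preΨ₄, d4, map_ofNat]

/-- The map from bivariate polynomials to the function field. -/
noncomputable def toFF : K[X][Y] →+* W.toAffine.FunctionField :=
  (algebraMap W.toAffine.CoordinateRing W.toAffine.FunctionField).comp
    (Affine.CoordinateRing.mk W.toAffine)

lemma toFF_eq_zero_iff (q : K[X][Y]) : toFF W q = 0 ↔ W.toAffine.polynomial ∣ q := by
  unfold toFF
  rw [RingHom.comp_apply, map_eq_zero_iff _ (IsFractionRing.injective _ _)]
  exact AdjoinRoot.mk_eq_zero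

lemma toFF_psi_ne_zero [CharZero K] {n : ℤ} (hn : n ≠ 0) : toFF W (W.ψ n) ≠ 0 := by
  unfold toFF
  rw [RingHom.comp_apply, Ne, map_eq_zero_iff _ (IsFractionRing.injective _ _)]
  intro h0
  have h1 := Affine.CoordinateRing.mk_Ψ_sq W n
  rw [← Affine.CoordinateRing.mk_ψ, h0, zero_pow two_ne_zero] at h1
  have h2 : algebraMap K[X] W.toAffine.CoordinateRing (W.ΨSq n) = 0 := h1.symm
  rw [map_eq_zero_iff _ (FaithfulSMul.algebraMap_injective K[X] W.toAffine.CoordinateRing)] at h2
  exact W.ΨSq_ne_zero (by exact_mod_cast hn) h2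

/-- The base change of the curve to its function field. -/
noncomputable abbrev WF : WeierstrassCurve W.toAffine.FunctionField :=
  W.map ((toFF W).comp (C.comp C))

lemma generic_equation : (WF W).toAffine.Equation (toFF W (C X)) (toFF W Y) := by
  rw [Affine.equation_iff]
  have h0 : toFF W W.toAffine.polynomial = 0 := (toFF_eq_zero_iff W _).2 dvd_rfl
  simp only [Affine.polynomial, map_add, map_sub, map_mul, map_pow] at h0
  simp only [map_a₁, map_a₂, map_a₃, map_a₄, map_a₆, RingHom.comp_apply]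
  linear_combination h0

lemma generic_nonsingular (hΔ : W.Δ ≠ 0) :
    (WF W).toAffine.Nonsingular (toFF W (C X)) (toFF W Y) := by
  refine (Affine.equation_iff_nonsingular_of_Δ_ne_zero ?_).1 (generic_equation W)
  rw [map_Δ]
  exact (_root_.map_ne_zero _).2 hΔ

open Classical in
theorem generic_nsmul_ne_zero [CharZero K] (hΔ : W.Δ ≠ 0) :
    ∀ n : ℕ, 0 < n → n • Affine.Point.some _ _ (generic_nonsingular W hΔ) ≠ 0 := by
  intro n
  induction n using Nat.strong_induction_on with
  | _ n ih =>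
    intro hn h0
    have h1 := (wseq_eq_zero_iff (generic_nonsingular W hΔ) (N := n)
      (fun k hk hkn => ih k hkn hk) hn).2 h0
    rw [← map_psi_eq_wseq] at h1
    exact toFF_psi_ne_zero W (by exact_mod_cast hn.ne') h1

open Classical in
/-- The elliptic relation for the division polynomials, in the function field. -/
theorem generic_rel [CharZero K] (hΔ : W.Δ ≠ 0) (a e : ℕ) :
    toFF W (W.ψ (2 * a + e + 3 : ℕ) * W.ψ (e + 1 : ℕ) -
      (W.ψ (a + e + 3 : ℕ) * W.ψ (a + e + 1 : ℕ) * W.ψ (a + 1 : ℕ) ^ 2 -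
        W.ψ (a + 2 : ℕ) * W.ψ (a : ℕ) * W.ψ (a + e + 2 : ℕ) ^ 2)) = 0 := by
  have hN : ∀ k, 0 < k → k < 2 * a + e + 4 →
      k • Affine.Point.some _ _ (generic_nonsingular W hΔ) ≠ 0 :=
    fun k hk _ => generic_nsmul_ne_zero W hΔ k hk
  have hQ := wseq_Q (generic_nonsingular W hΔ) hN a e (by omega)
  have hT1 := wseq_T (generic_nonsingular W hΔ) hN a (by omega)
  have hT2 := wseq_T (generic_nonsingular W hΔ) hN (a + e + 1) (by omega)
  simp only [map_sub, map_mul, map_pow, map_psi_eq_wseq]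
  have r1 : a + e + 1 + 1 = a + e + 2 := by omega
  have r2 : a + e + 1 + 2 = a + e + 3 := by omega
  simp only [r1, r2] at hT2
  linear_combination hQ - wseq (WF W).toAffine (toFF W (C X)) (toFF W Y) (a + 1 : ℕ) ^ 2 * hT2 +
    wseq (WF W).toAffine (toFF W (C X)) (toFF W Y) (a + e + 2 : ℕ) ^ 2 * hT1

lemma evalEval_psi (x₀ y₀ : K) (n : ℤ) :
    (W.ψ n).evalEval x₀ y₀ = wseq W.toAffine x₀ y₀ n := by
  have h := map_psi_eq_wseq W (evalEvalRingHom x₀ y₀) n
  have h1 : (evalEvalRingHom x₀ y₀).comp (C.comp C) = RingHom.id K := by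
    ext; simp
  rw [h1, WeierstrassCurve.map_id] at h
  simpa using h

/-- The elliptic relation for the values of the division polynomials at any point. -/
theorem wseq_rel [CharZero K] (hΔ : W.Δ ≠ 0) {x₀ y₀ : K} (h : W.toAffine.Equation x₀ y₀)
    (a e : ℕ) :
    wseq W.toAffine x₀ y₀ (2 * a + e + 3 : ℕ) * wseq W.toAffine x₀ y₀ (e + 1 : ℕ) =
      wseq W.toAffine x₀ y₀ (a + e + 3 : ℕ) * wseq W.toAffine x₀ y₀ (a + e + 1 : ℕ) *
          wseq W.toAffine x₀ y₀ (a + 1 : ℕ) ^ 2 -
        wseq W.toAffine x₀ y₀ (a + 2 : ℕ) * wseq W.toAffine x₀ y₀ (a : ℕ) *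
          wseq W.toAffine x₀ y₀ (a + e + 2 : ℕ) ^ 2 := by
  obtain ⟨q, hq⟩ := (toFF_eq_zero_iff W _).1 (generic_rel W hΔ a e)
  have h1 := congrArg (evalEvalRingHom x₀ y₀) hq
  have h2 : evalEvalRingHom x₀ y₀ W.toAffine.polynomial = 0 := h
  rw [map_mul, h2, zero_mul] at h1
  simp only [map_sub, map_mul, map_pow, coe_evalEvalRingHom, evalEval_psi] at h1
  linear_combination h1

end Fermat.Agent.S13
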