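import Mathlib
import Fermat.Agent.S13.XOnly

/-!
# Montgomery-ladder polynomials and existence of torsion points

`lad c n` is the state `((X_n : Z_n), (X_{n+1} : Z_{n+1}))` of the `x`-only Montgomery ladder.
* pointwise: for every nonzero point `P` and every `n`, `(X_n : Z_n)` represents `x(n • P)`;
* as polynomials in `x`, `X_n` is monic of degree `n ^ 2`, `Z_n = n ^ 2 x ^ (n ^ 2 - 1) + ...`.
-/

set_option autoImplicit false

namespace Fermat.Agent.S13.Ladder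

open WeierstrassCurve WeierstrassCurve.Affine Polynomial

section defs

/-- parameters of the ladder -/
structure Par (R : Type*) where
  b2 : R
  b4 : R
  b6 : R
  b8 : R
  x : R

/-- state of the ladder -/
@[ext] structure St (R : Type*) where
  X0 : R
  Z0 : R
  X1 : R
  Z1 : R

variable {R S : Type*} [CommRing R] [CommRing S]

def dblX (c : Par R) (X Z : R) : R :=
  X ^ 4 - c.b4 * (X ^ 2 * Z ^ 2) - 2 * c.b6 * (X * Z ^ 3) - c.b8 * Z ^ 4

def dblZ (c : Par R) (X Z : R) : R :=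
  4 * (X ^ 3 * Z) + c.b2 * (X ^ 2 * Z ^ 2) + 2 * c.b4 * (X * Z ^ 3) + c.b6 * Z ^ 4

def addZ (X₁ Z₁ X₂ Z₂ : R) : R := (X₁ * Z₂ - X₂ * Z₁) ^ 2

def addX (c : Par R) (X₁ Z₁ X₂ Z₂ : R) : R :=
  2 * ((X₁ * Z₂ + X₂ * Z₁) * (X₁ * X₂)) + c.b2 * ((X₁ * X₂) * (Z₁ * Z₂))
    + c.b4 * ((X₁ * Z₂ + X₂ * Z₁) * (Z₁ * Z₂)) + c.b6 * (Z₁ * Z₂) ^ 2
    - c.x * addZ X₁ Z₁ X₂ Z₂

def step (c : Par R) (b : Bool) (s : St R) : St R :=
  match b with
  | false => ⟨dblX c s.X0 s.Z0, dblZ c s.X0 s.Z0, addX c s.X0 s.Z0 s.X1 s.Z1,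
      addZ s.X0 s.Z0 s.X1 s.Z1⟩
  | true => ⟨addX c s.X0 s.Z0 s.X1 s.Z1, addZ s.X0 s.Z0 s.X1 s.Z1, dblX c s.X1 s.Z1,
      dblZ c s.X1 s.Z1⟩

def lad (c : Par R) (n : ℕ) : St R :=
  Nat.binaryRec (motive := fun _ => St R) ⟨1, 0, c.x, 1⟩ (fun b _ s => step c b s) n

@[simp] lemma lad_zero (c : Par R) : lad c 0 = ⟨1, 0, c.x, 1⟩ := by
  simp [lad]

lemma lad_bit (c : Par R) (b : Bool) (n : ℕ) : lad c (Nat.bit b n) = step c b (lad c n) := by
  unfold lad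
  rw [Nat.binaryRec_eq]
  left
  ext <;> simp [step, dblX, dblZ, addX, addZ]
  ring

def Par.map (f : R →+* S) (c : Par R) : Par S := ⟨f c.b2, f c.b4, f c.b6, f c.b8, f c.x⟩

def St.map (f : R →+* S) (s : St R) : St S := ⟨f s.X0, f s.Z0, f s.X1, f s.Z1⟩

lemma step_map (f : R →+* S) (c : Par R) (b : Bool) (s : St R) :
    step (c.map f) b (s.map f) = (step c b s).map f := by
  cases b <;> ext <;> simp [step, dblX, dblZ, addX, addZ, Par.map, St.map, map_ofNat]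

lemma lad_map (f : R →+* S) (c : Par R) (n : ℕ) : lad (c.map f) n = (lad c n).map f := by
  induction n using Nat.binaryRec with
  | zero => simp [St.map, Par.map]
  | bit b n ih => rw [lad_bit, lad_bit, ih, step_map]

end defs

section pointwise

variable {F : Type*} [Field F] {W : Affine F}

/-- `(X : Z)` represents the `x`-coordinate of `Q`. -/
def Repr (Q : W.Point) (X Z : F) : Prop :=
  (Q = 0 ∧ Z = 0 ∧ X ≠ 0) ∨ (Q ≠ 0 ∧ Z ≠ 0 ∧ X = xc Q * Z)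

/-- the parameters attached to a curve and an `x`-coordinate -/
def par (W : Affine F) (x : F) : Par F := ⟨W.b₂, W.b₄, W.b₆, W.b₈, x⟩

lemma psi2_sq {x y : F} (h : W.Equation x y) :
    (2 * y + W.a₁ * x + W.a₃) ^ 2 = 4 * x ^ 3 + W.b₂ * x ^ 2 + 2 * W.b₄ * x + W.b₆ := by
  have e := (equation_iff _ _).1 h
  simp only [WeierstrassCurve.b₂, WeierstrassCurve.b₄, WeierstrassCurve.b₆]
  linear_combination 4 * e

lemma dbl_num_ne_zero {x y : F} (h : W.Nonsingular x y) (h0 : 2 * y + W.a₁ * x + W.a₃ = 0) :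
    x ^ 4 - W.b₄ * x ^ 2 - 2 * W.b₆ * x - W.b₈ ≠ 0 := by
  have e := (equation_iff _ _).1 h.1
  have hn := (nonsingular_iff _ _).1 h
  have hX : W.a₁ * y ≠ 3 * x ^ 2 + 2 * W.a₂ * x + W.a₄ := by
    rcases hn.2 with h1 | h1
    · exact h1
    · exfalso
      apply h1
      linear_combination h0
  have key : x ^ 4 - W.b₄ * x ^ 2 - 2 * W.b₆ * x - W.b₈ =
      (W.a₁ * y - (3 * x ^ 2 + 2 * W.a₂ * x + W.a₄)) ^ 2 := by
    simp only [WeierstrassCurve.b₄, WeierstrassCurve.b₆, WeierstrassCurve.b₈]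
    linear_combination (-W.a₁ * (W.a₁ * y - (3 * x ^ 2 + 2 * W.a₂ * x + W.a₄))
      - (W.a₂ + 2 * x) * (2 * y + W.a₁ * x + W.a₃)) * h0 + (W.a₁ ^ 2 + 4 * W.a₂ + 8 * x) * e
  rw [key]
  exact pow_ne_zero 2 (sub_ne_zero.2 hX)

variable [DecidableEq F]

lemma repr_dbl {Q : W.Point} {X Z : F} (x₀ : F) (h : Repr Q X Z) :
    Repr (2 • Q) (dblX (par W x₀) X Z) (dblZ (par W x₀) X Z) := by
  rcases h with ⟨rfl, rfl, hX⟩ | ⟨hQ, hZ, rfl⟩
  · left
    refine ⟨by simp, by simp [dblZ], ?_⟩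
    simpa [dblX] using hX
  · rcases Q with _ | ⟨x, y, h⟩
    · exact absurd rfl hQ
    simp only [xc_some]
    have e1 : dblX (par W x₀) (x * Z) Z = (x ^ 4 - W.b₄ * x ^ 2 - 2 * W.b₆ * x - W.b₈) * Z ^ 4 := by
      simp only [dblX, par]; ring
    have e2 : dblZ (par W x₀) (x * Z) Z = (2 * y + W.a₁ * x + W.a₃) ^ 2 * Z ^ 4 := by
      rw [psi2_sq h.1]
      simp only [dblZ, par]; ring
    rw [e1, e2]
    by_cases h2 : 2 • Point.some x y h = 0
    · left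
      have h0 := (two_nsmul_eq_zero_iff h).1 h2
      refine ⟨h2, by rw [h0]; ring, mul_ne_zero (dbl_num_ne_zero h h0) (pow_ne_zero 4 hZ)⟩
    · right
      have h0 : 2 * y + W.a₁ * x + W.a₃ ≠ 0 := fun h0 => h2 ((two_nsmul_eq_zero_iff h).2 h0)
      refine ⟨h2, mul_ne_zero (pow_ne_zero 2 h0) (pow_ne_zero 4 hZ), ?_⟩
      have hd := xc_two_nsmul h h2
      have hp := psi2_sq h.1
      linear_combination (-Z ^ 4) * hd + (-x * Z ^ 4) * hp

lemma repr_add {P Q : W.Point} (hP : P ≠ 0) {X₁ Z₁ X₂ Z₂ : F} (h₁ : Repr Q X₁ Z₁)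
    (h₂ : Repr (Q + P) X₂ Z₂) :
    Repr (Q + (Q + P)) (addX (par W (xc P)) X₁ Z₁ X₂ Z₂) (addZ X₁ Z₁ X₂ Z₂) := by
  rcases h₁ with ⟨rfl, rfl, hX₁⟩ | ⟨hQ, hZ₁, rfl⟩
  · rcases h₂ with ⟨h0, -, -⟩ | ⟨-, hZ₂, rfl⟩
    · exact absurd (by simpa using h0) hP
    · right
      simp only [zero_add]
      refine ⟨hP, ?_, ?_⟩
      · simp only [addZ]
        exact pow_ne_zero 2 (by simpa using mul_ne_zero hX₁ hZ₂)
      · simp only [addX, addZ, par]; ring
  · rcases h₂ with ⟨h0, rfl, hX₂⟩ | ⟨hQP, hZ₂, rfl⟩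
    · right
      rw [h0, add_zero]
      have hQ' : Q = -P := eq_neg_of_add_eq_zero_left h0
      refine ⟨hQ, ?_, ?_⟩
      · simp only [addZ]
        exact pow_ne_zero 2 (by simpa using mul_ne_zero hX₂ hZ₁)
      · rw [hQ', xc_neg]
        simp only [addX, addZ, par]; ring
    · have hd : (Q + P) - Q ≠ 0 := by simpa using hP
      have e1 : addZ (xc Q * Z₁) Z₁ (xc (Q + P) * Z₂) Z₂ =
          (xc (Q + P) - xc Q) ^ 2 * (Z₁ * Z₂) ^ 2 := by
        simp only [addZ]; ring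
      have e2 : addX (par W (xc P)) (xc Q * Z₁) Z₁ (xc (Q + P) * Z₂) Z₂ =
          (2 * (xc (Q + P) + xc Q) * (xc (Q + P) * xc Q) + W.b₂ * (xc (Q + P) * xc Q)
            + W.b₄ * (xc (Q + P) + xc Q) + W.b₆ - xc P * (xc (Q + P) - xc Q) ^ 2)
            * (Z₁ * Z₂) ^ 2 := by
        simp only [addX, addZ, par]; ring
      rw [e1, e2]
      have hZZ : (Z₁ * Z₂) ^ 2 ≠ 0 := pow_ne_zero 2 (mul_ne_zero hZ₁ hZ₂)
      by_cases hs : Q + (Q + P) = 0
      · left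
        have hQP' : Q + P = -Q := eq_neg_of_add_eq_zero_right hs
        refine ⟨hs, by rw [hQP', xc_neg]; ring, mul_ne_zero ?_ hZZ⟩
        rw [hQP', xc_neg]
        rcases Q with _ | ⟨x, y, h⟩
        · exact absurd rfl hQ
        simp only [xc_some]
        have hp := psi2_sq h.1
        have h2 : 2 * y + W.a₁ * x + W.a₃ ≠ 0 := by
          intro h0
          have h2Q := (two_nsmul_eq_zero_iff h).2 h0
          apply hP
          have : Point.some x y h + P = Point.some x y h := by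
            rw [hQP']
            rw [two_nsmul] at h2Q
            exact (eq_neg_of_add_eq_zero_left h2Q).symm
          simpa using this
        have : 2 * (x + x) * (x * x) + W.b₂ * (x * x) + W.b₄ * (x + x) + W.b₆
            - xc P * (x - x) ^ 2 = (2 * y + W.a₁ * x + W.a₃) ^ 2 := by
          rw [hp]; ring
        rw [this]
        exact pow_ne_zero 2 h2
      · right
        have hs' : (Q + P) + Q ≠ 0 := by rwa [add_comm]
        have hsum := xc_add_add_sub (Q + P) Q hQP hQ hs' hd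
        have hne : xc (Q + P) ≠ xc Q := by
          intro h
          rcases (xc_eq_iff hQP hQ).1 h with h | h
          · exact hd (by rw [h, sub_self])
          · exact hs' (by rw [h, neg_add_cancel])
        refine ⟨hs, mul_ne_zero (pow_ne_zero 2 (sub_ne_zero.2 hne)) hZZ, ?_⟩
        have e3 : Q + P - Q = P := by abel
        rw [e3, add_comm (Q + P) Q] at hsum
        linear_combination (-(Z₁ * Z₂) ^ 2) * hsum

theorem lad_repr {P : W.Point} (hP : P ≠ 0) (n : ℕ) :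
    Repr (n • P) (lad (par W (xc P)) n).X0 (lad (par W (xc P)) n).Z0 ∧
      Repr ((n + 1) • P) (lad (par W (xc P)) n).X1 (lad (par W (xc P)) n).Z1 := by
  induction n using Nat.binaryRec with
  | zero =>
    simp only [lad_zero, zero_smul, zero_add, one_smul]
    exact ⟨Or.inl ⟨rfl, rfl, one_ne_zero⟩, Or.inr ⟨hP, one_ne_zero, by simp [par]⟩⟩
  | bit b n ih =>
    obtain ⟨ih1, ih2⟩ := ih
    rw [lad_bit]
    have ih2' : Repr (n • P + P) (lad (par W (xc P)) n).X1 (lad (par W (xc P)) n).Z1 := by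
      rwa [← succ_nsmul]
    have hadd := repr_add hP ih1 ih2'
    have e : n • P + (n • P + P) = (2 * n + 1) • P := by
      rw [succ_nsmul, mul_smul, two_nsmul]; abel
    rw [e] at hadd
    cases b
    · simp only [step, Nat.bit_false]
      refine ⟨?_, hadd⟩
      have := repr_dbl (xc P) ih1
      rwa [← mul_smul] at this
    · simp only [step, Nat.bit_true]
      refine ⟨hadd, ?_⟩
      have := repr_dbl (xc P) ih2
      rwa [← mul_smul, show 2 * (n + 1) = 2 * n + 1 + 1 by ring] at this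

theorem ladZ_eq_zero_iff {P : W.Point} (hP : P ≠ 0) (n : ℕ) :
    (lad (par W (xc P)) n).Z0 = 0 ↔ n • P = 0 := by
  rcases (lad_repr hP n).1 with ⟨h1, h2, -⟩ | ⟨h1, h2, -⟩
  · exact ⟨fun _ => h1, fun _ => h2⟩
  · exact ⟨fun h => absurd h h2, fun h => absurd h h1⟩

theorem ladX_eq {P : W.Point} (hP : P ≠ 0) (n : ℕ) (hn : n • P ≠ 0) :
    (lad (par W (xc P)) n).X0 = xc (n • P) * (lad (par W (xc P)) n).Z0 := by
  rcases (lad_repr hP n).1 with ⟨h1, -, -⟩ | ⟨-, -, h3⟩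
  · exact absurd h1 hn
  · exact h3

end pointwise

section degree

variable {R : Type*} [CommRing R]

/-- `f = a * X ^ (d - k) + lower order terms`. -/
def LT (k : ℕ) (f : R[X]) (d : ℕ) (a : R) : Prop :=
  (X ^ k * f).natDegree ≤ d ∧ (X ^ k * f).coeff d = a

lemma LT.congr {k : ℕ} {f : R[X]} {d d' : ℕ} {a a' : R} (h : LT k f d a) (hd : d = d')
    (ha : a = a') : LT k f d' a' := by
  subst hd ha; exact h

lemma LT.mul {k l : ℕ} {f g : R[X]} {d e : ℕ} {a b : R} (hf : LT k f d a) (hg : LT l g e b) :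
    LT (k + l) (f * g) (d + e) (a * b) := by
  have e1 : X ^ (k + l) * (f * g) = (X ^ k * f) * (X ^ l * g) := by ring
  refine ⟨?_, ?_⟩
  · rw [e1]; exact natDegree_mul_le_of_le hf.1 hg.1
  · rw [e1, coeff_mul_add_eq_of_natDegree_le hf.1 hg.1, hf.2, hg.2]

lemma LT.add {k : ℕ} {f g : R[X]} {d : ℕ} {a b : R} (hf : LT k f d a) (hg : LT k g d b) :
    LT k (f + g) d (a + b) := by
  refine ⟨?_, ?_⟩
  · rw [mul_add]; exact natDegree_add_le_of_degree_le hf.1 hg.1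
  · rw [mul_add, coeff_add, hf.2, hg.2]

lemma LT.sub {k : ℕ} {f g : R[X]} {d : ℕ} {a b : R} (hf : LT k f d a) (hg : LT k g d b) :
    LT k (f - g) d (a - b) := by
  refine ⟨?_, ?_⟩
  · rw [mul_sub]; exact (natDegree_sub_le_of_le hf.1 hg.1).trans (by simp)
  · rw [mul_sub, coeff_sub, hf.2, hg.2]

lemma LT.C_mul {k : ℕ} {f : R[X]} {d : ℕ} {a : R} (r : R) (hf : LT k f d a) :
    LT k (C r * f) d (r * a) := by
  have e1 : X ^ k * (C r * f) = C r * (X ^ k * f) := by ring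
  refine ⟨?_, ?_⟩
  · rw [e1]; exact (natDegree_C_mul_le _ _).trans hf.1
  · rw [e1, coeff_C_mul, hf.2]

lemma LT.pow {k : ℕ} {f : R[X]} {d : ℕ} {a : R} (hf : LT k f d a) (n : ℕ) :
    LT (n * k) (f ^ n) (n * d) (a ^ n) := by
  induction n with
  | zero => simp [LT]
  | succ n ih =>
    rw [pow_succ, pow_succ, add_mul, add_mul, one_mul, one_mul]
    exact ih.mul hf

lemma LT.down {k : ℕ} {f : R[X]} {d : ℕ} {a : R} (hf : LT (k + 1) f (d + 1) a) : LT k f d a := by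
  have e1 : X ^ (k + 1) * f = X * (X ^ k * f) := by ring
  obtain ⟨h1, h2⟩ := hf
  rw [e1] at h1 h2
  refine ⟨?_, ?_⟩
  · by_cases h0 : X ^ k * f = 0
    · rw [h0]; simp
    · nontriviality R
      rw [natDegree_X_mul h0] at h1
      omega
  · rwa [coeff_X_mul] at h2

lemma LT.lower {k : ℕ} {f : R[X]} {d : ℕ} {a : R} (hf : LT (k + 1) f d a) : LT k f d 0 := by
  have e1 : X ^ (k + 1) * f = X * (X ^ k * f) := by ring
  obtain ⟨h1, -⟩ := hf
  rw [e1] at h1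
  refine ⟨?_, ?_⟩
  · by_cases h0 : X ^ k * f = 0
    · rw [h0]; simp
    · nontriviality R
      rw [natDegree_X_mul h0] at h1
      omega
  · rw [← coeff_X_mul]
    exact coeff_eq_zero_of_natDegree_lt (by omega)

lemma LT.lower' {k : ℕ} {f : R[X]} {d : ℕ} {a : R} (j : ℕ) (hf : LT (k + (j + 1)) f d a) :
    LT k f d 0 := by
  induction j generalizing a with
  | zero => exact hf.lower
  | succ j ih => exact ih (a := 0) (LT.lower (k := k + (j + 1)) hf)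

lemma LT_iff {k : ℕ} {f : R[X]} {d : ℕ} {a : R} (hf : f ≠ 0) :
    LT k f d a ↔ k + f.natDegree ≤ d ∧ f.coeff (d - k) = a := by
  have : Nontrivial R := Polynomial.nontrivial_iff.mp (nontrivial_of_ne f 0 hf)
  unfold LT
  rw [natDegree_X_pow_mul k hf, coeff_X_pow_mul', add_comm]
  constructor
  · rintro ⟨h1, h2⟩
    rw [if_pos (by omega)] at h2
    exact ⟨h1, h2⟩
  · rintro ⟨h1, h2⟩
    rw [if_pos (by omega)]
    exact ⟨h1, h2⟩

lemma LT_zero_iff {k d : ℕ} {a : R} : LT k (0 : R[X]) d a ↔ a = 0 := by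
  simp [LT, eq_comm]

lemma LT.shift {k l : ℕ} {f : R[X]} {d e : ℕ} {a : R} (hf : LT l f e a) (h : e + k = d + l) :
    LT k f d a := by
  by_cases h0 : f = 0
  · subst h0
    rw [LT_zero_iff] at hf ⊢
    exact hf
  · rw [LT_iff h0] at hf ⊢
    refine ⟨by omega, ?_⟩
    rw [← hf.2]
    congr 1
    omega

lemma LT.small {k l : ℕ} {f : R[X]} {d e : ℕ} {a : R} (hf : LT l f e a) (h : e + k < d + l) :
    LT k f d 0 := by
  by_cases h0 : f = 0
  · subst h0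
    rw [LT_zero_iff]
  · rw [LT_iff h0] at hf ⊢
    refine ⟨by omega, ?_⟩
    apply coeff_eq_zero_of_natDegree_lt
    omega

lemma LT.X_mul {k : ℕ} {f : R[X]} {d : ℕ} {a : R} (hf : LT (k + 1) f d a) : LT k (X * f) d a := by
  have e1 : X ^ k * (X * f) = X ^ (k + 1) * f := by ring
  unfold LT
  rw [e1]
  exact hf

/-- polynomial parameters -/
noncomputable def ppar (b2 b4 b6 b8 : R) : Par R[X] := ⟨C b2, C b4, C b6, C b8, X⟩

variable (b2 b4 b6 b8 : R)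

omit b2 b4 b6 b8 in
lemma C_two' : (C (2 : R) : R[X]) = 2 := map_ofNat C 2

omit b2 b4 b6 b8 in
lemma C_four' : (C (4 : R) : R[X]) = 4 := map_ofNat C 4

lemma LT_dblX {Xn Zn : R[X]} {N : ℕ} {a : R} (hX : LT 0 Xn N 1) (hZ : LT 1 Zn N a) :
    LT 0 (dblX (ppar b2 b4 b6 b8) Xn Zn) (4 * N) 1 := by
  have e : dblX (ppar b2 b4 b6 b8) Xn Zn = Xn ^ 4 - C b4 * (Xn ^ 2 * Zn ^ 2)
      - C (2 * b6) * (Xn * Zn ^ 3) - C b8 * Zn ^ 4 := by
    simp [dblX, ppar, C_two']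
  rw [e]
  have t1 : LT 0 (Xn ^ 4) (4 * N) 1 := ((hX.pow 4).shift (by omega)).congr rfl (by simp)
  have t2 : LT 0 (Xn ^ 2 * Zn ^ 2) (4 * N) 0 := ((hX.pow 2).mul (hZ.pow 2)).small (by omega)
  have t3 : LT 0 (Xn * Zn ^ 3) (4 * N) 0 := (hX.mul (hZ.pow 3)).small (by omega)
  have t4 : LT 0 (Zn ^ 4) (4 * N) 0 := (hZ.pow 4).small (by omega)
  exact (((t1.sub (t2.C_mul b4)).sub (t3.C_mul _)).sub (t4.C_mul b8)).congr rfl (by simp)

lemma LT_dblZ {Xn Zn : R[X]} {N : ℕ} {a : R} (hX : LT 0 Xn N 1) (hZ : LT 1 Zn N a) :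
    LT 1 (dblZ (ppar b2 b4 b6 b8) Xn Zn) (4 * N) (4 * a) := by
  have e : dblZ (ppar b2 b4 b6 b8) Xn Zn = C 4 * (Xn ^ 3 * Zn) + C b2 * (Xn ^ 2 * Zn ^ 2)
      + C (2 * b4) * (Xn * Zn ^ 3) + C b6 * Zn ^ 4 := by
    simp [dblZ, ppar, C_two', C_four']
  rw [e]
  have t1 : LT 1 (Xn ^ 3 * Zn) (4 * N) a :=
    (((hX.pow 3).mul hZ).shift (by omega)).congr rfl (by simp)
  have t2 : LT 1 (Xn ^ 2 * Zn ^ 2) (4 * N) 0 := ((hX.pow 2).mul (hZ.pow 2)).small (by omega)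
  have t3 : LT 1 (Xn * Zn ^ 3) (4 * N) 0 := (hX.mul (hZ.pow 3)).small (by omega)
  have t4 : LT 1 (Zn ^ 4) (4 * N) 0 := (hZ.pow 4).small (by omega)
  exact ((((t1.C_mul 4).add (t2.C_mul b2)).add (t3.C_mul _)).add (t4.C_mul b6)).congr rfl
    (by simp)

omit b2 b4 b6 b8 in
lemma LT_addZ {X₁ Z₁ X₂ Z₂ : R[X]} {N M d : ℕ} {a b : R} (hX₁ : LT 0 X₁ N 1) (hZ₁ : LT 1 Z₁ N a)
    (hX₂ : LT 0 X₂ M 1) (hZ₂ : LT 1 Z₂ M b) (hd : d + 1 = 2 * (N + M)) :
    LT 1 (addZ X₁ Z₁ X₂ Z₂) d ((b - a) ^ 2) := by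
  have m1 : LT 1 (X₁ * Z₂) (N + M) b := ((hX₁.mul hZ₂).shift (by omega)).congr rfl (by simp)
  have m2 : LT 1 (X₂ * Z₁) (N + M) a := ((hX₂.mul hZ₁).shift (by omega)).congr rfl (by simp)
  exact ((m1.sub m2).pow 2).shift (by omega)

lemma LT_addX {X₁ Z₁ X₂ Z₂ : R[X]} {N M d : ℕ} {a b : R} (hX₁ : LT 0 X₁ N 1) (hZ₁ : LT 1 Z₁ N a)
    (hX₂ : LT 0 X₂ M 1) (hZ₂ : LT 1 Z₂ M b) (hd : d + 1 = 2 * (N + M)) :
    LT 0 (addX (ppar b2 b4 b6 b8) X₁ Z₁ X₂ Z₂) d (2 * (b + a) - (b - a) ^ 2) := by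
  have e : addX (ppar b2 b4 b6 b8) X₁ Z₁ X₂ Z₂ =
      C 2 * ((X₁ * Z₂ + X₂ * Z₁) * (X₁ * X₂)) + C b2 * ((X₁ * X₂) * (Z₁ * Z₂))
        + C b4 * ((X₁ * Z₂ + X₂ * Z₁) * (Z₁ * Z₂)) + C b6 * (Z₁ * Z₂) ^ 2
        - X * addZ X₁ Z₁ X₂ Z₂ := by
    simp [addX, ppar, C_two']
  rw [e]
  have m1 : LT 1 (X₁ * Z₂) (N + M) b := ((hX₁.mul hZ₂).shift (by omega)).congr rfl (by simp)
  have m2 : LT 1 (X₂ * Z₁) (N + M) a := ((hX₂.mul hZ₁).shift (by omega)).congr rfl (by simp)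
  have s : LT 1 (X₁ * Z₂ + X₂ * Z₁) (N + M) (b + a) := m1.add m2
  have xx : LT 0 (X₁ * X₂) (N + M) 1 := (hX₁.mul hX₂).congr rfl (by simp)
  have zz : LT 2 (Z₁ * Z₂) (N + M) (a * b) := (hZ₁.mul hZ₂).shift (by omega)
  have t1' : LT 0 ((X₁ * Z₂ + X₂ * Z₁) * (X₁ * X₂)) d ((b + a) * 1) :=
    (s.mul xx).shift (by omega)
  have t2 : LT 0 ((X₁ * X₂) * (Z₁ * Z₂)) d 0 := (xx.mul zz).small (by omega)
  have t3 : LT 0 ((X₁ * Z₂ + X₂ * Z₁) * (Z₁ * Z₂)) d 0 := (s.mul zz).small (by omega)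
  have t4 : LT 0 ((Z₁ * Z₂) ^ 2) d 0 := (zz.pow 2).small (by omega)
  have t5 : LT 0 (X * addZ X₁ Z₁ X₂ Z₂) d ((b - a) ^ 2) := (LT_addZ hX₁ hZ₁ hX₂ hZ₂ hd).X_mul
  have fin := ((((t1'.C_mul 2).add (t2.C_mul b2)).add (t3.C_mul b4)).add (t4.C_mul b6)).sub t5
  exact fin.congr rfl (by ring)

theorem lad_LT (n : ℕ) :
    LT 0 (lad (ppar b2 b4 b6 b8) n).X0 (n ^ 2) 1 ∧
    LT 1 (lad (ppar b2 b4 b6 b8) n).Z0 (n ^ 2) ((n : R) ^ 2) ∧
    LT 0 (lad (ppar b2 b4 b6 b8) n).X1 ((n + 1) ^ 2) 1 ∧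
    LT 1 (lad (ppar b2 b4 b6 b8) n).Z1 ((n + 1) ^ 2) (((n : R) + 1) ^ 2) := by
  induction n using Nat.binaryRec with
  | zero =>
    simp only [lad_zero]
    refine ⟨?_, ?_, ?_, ?_⟩ <;> simp [LT, ppar, natDegree_X_le]
  | bit b n ih =>
    obtain ⟨h1, h2, h3, h4⟩ := ih
    rw [lad_bit]
    have hd : (2 * n + 1) ^ 2 + 1 = 2 * (n ^ 2 + (n + 1) ^ 2) := by ring
    have aX := (LT_addX b2 b4 b6 b8 h1 h2 h3 h4 hd).congr rfl
      (show 2 * (((n : R) + 1) ^ 2 + (n : R) ^ 2) - (((n : R) + 1) ^ 2 - (n : R) ^ 2) ^ 2 = 1 by ring)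
    have aZ := (LT_addZ h1 h2 h3 h4 hd).congr rfl
      (show (((n : R) + 1) ^ 2 - (n : R) ^ 2) ^ 2 = (2 * (n : R) + 1) ^ 2 by ring)
    cases b
    · simp only [step, Nat.bit_false]
      refine ⟨(LT_dblX b2 b4 b6 b8 h1 h2).congr (by ring) rfl,
        (LT_dblZ b2 b4 b6 b8 h1 h2).congr (by ring) (by push_cast; ring), aX,
        aZ.congr rfl (by push_cast; ring)⟩
    · simp only [step, Nat.bit_true]
      refine ⟨aX, aZ.congr rfl (by push_cast; ring),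
        (LT_dblX b2 b4 b6 b8 h3 h4).congr (by ring) rfl,
        (LT_dblZ b2 b4 b6 b8 h3 h4).congr (by ring) (by push_cast; ring)⟩

end degree

section polys

variable {R S : Type*} [CommRing R] [CommRing S]

/-- numerator of `x(n • P)` as a polynomial in `x(P)` -/
noncomputable def ladX (W : WeierstrassCurve R) (n : ℕ) : R[X] :=
  (lad (ppar W.b₂ W.b₄ W.b₆ W.b₈) n).X0

/-- denominator of `x(n • P)` as a polynomial in `x(P)` -/
noncomputable def ladZ (W : WeierstrassCurve R) (n : ℕ) : R[X] :=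
  (lad (ppar W.b₂ W.b₄ W.b₆ W.b₈) n).Z0

lemma ppar_map (f : R →+* S) (b2 b4 b6 b8 : R) :
    (ppar b2 b4 b6 b8).map (Polynomial.mapRingHom f) = ppar (f b2) (f b4) (f b6) (f b8) := by
  simp [ppar, Par.map]

lemma ladX_map (f : R →+* S) (W : WeierstrassCurve R) (n : ℕ) :
    (ladX W n).map f = ladX (W.map f) n := by
  have := lad_map (Polynomial.mapRingHom f) (ppar W.b₂ W.b₄ W.b₆ W.b₈) n
  rw [ppar_map] at this
  simp only [ladX, WeierstrassCurve.map_b₂, WeierstrassCurve.map_b₄, WeierstrassCurve.map_b₆,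
    WeierstrassCurve.map_b₈, this]
  rfl

lemma ladZ_map (f : R →+* S) (W : WeierstrassCurve R) (n : ℕ) :
    (ladZ W n).map f = ladZ (W.map f) n := by
  have := lad_map (Polynomial.mapRingHom f) (ppar W.b₂ W.b₄ W.b₆ W.b₈) n
  rw [ppar_map] at this
  simp only [ladZ, WeierstrassCurve.map_b₂, WeierstrassCurve.map_b₄, WeierstrassCurve.map_b₆,
    WeierstrassCurve.map_b₈, this]
  rfl

lemma natDegree_ladX_le (W : WeierstrassCurve R) (n : ℕ) : (ladX W n).natDegree ≤ n ^ 2 := by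
  have := (lad_LT W.b₂ W.b₄ W.b₆ W.b₈ n).1.1
  simpa [ladX] using this

lemma coeff_ladX (W : WeierstrassCurve R) (n : ℕ) : (ladX W n).coeff (n ^ 2) = 1 := by
  have := (lad_LT W.b₂ W.b₄ W.b₆ W.b₈ n).1.2
  simpa [ladX] using this

lemma monic_ladX (W : WeierstrassCurve R) (n : ℕ) : (ladX W n).Monic :=
  monic_of_natDegree_le_of_coeff_eq_one _ (natDegree_ladX_le W n) (coeff_ladX W n)

lemma natDegree_ladX [Nontrivial R] (W : WeierstrassCurve R) (n : ℕ) :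
    (ladX W n).natDegree = n ^ 2 := by
  apply le_antisymm (natDegree_ladX_le W n)
  apply le_natDegree_of_ne_zero
  rw [coeff_ladX]
  exact one_ne_zero

lemma natDegree_ladZ_lt (W : WeierstrassCurve R) {n : ℕ} (hn : n ≠ 0) :
    (ladZ W n).natDegree < n ^ 2 := by
  have h := (lad_LT W.b₂ W.b₄ W.b₆ W.b₈ n).2.1
  have hpos : 0 < n ^ 2 := by positivity
  by_cases h0 : ladZ W n = 0
  · rw [h0]; simpa using hpos
  · have := ((LT_iff h0).1 h).1
    omega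

lemma coeff_ladZ (W : WeierstrassCurve R) (n : ℕ) : (ladZ W n).coeff (n ^ 2 - 1) = (n : R) ^ 2 := by
  have h := (lad_LT W.b₂ W.b₄ W.b₆ W.b₈ n).2.1
  by_cases h0 : ladZ W n = 0
  · have h' : LT 1 (0 : R[X]) (n ^ 2) ((n : R) ^ 2) := by rw [← h0]; exact h
    rw [LT_zero_iff] at h'
    rw [h0, h']; simp
  · exact ((LT_iff h0).1 h).2

lemma natDegree_ladZ (W : WeierstrassCurve R) {n : ℕ} (hn : (n : R) ^ 2 ≠ 0) :
    (ladZ W n).natDegree = n ^ 2 - 1 := by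
  have hn0 : n ≠ 0 := by
    rintro rfl
    simp at hn
  have h1 := natDegree_ladZ_lt W hn0
  apply le_antisymm (by omega)
  apply le_natDegree_of_ne_zero
  rw [coeff_ladZ]
  exact hn

lemma leadingCoeff_ladZ (W : WeierstrassCurve R) {n : ℕ} (hn : (n : R) ^ 2 ≠ 0) :
    (ladZ W n).leadingCoeff = (n : R) ^ 2 := by
  rw [leadingCoeff, natDegree_ladZ W hn, coeff_ladZ]

end polys

section existence

variable {K : Type*} [Field K]

lemma ppar_eval (W : Affine K) (x : K) :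
    (ppar W.b₂ W.b₄ W.b₆ W.b₈).map (Polynomial.evalRingHom x) = par W x := by
  simp [ppar, Par.map, par]

lemma ladZ_eval (W : Affine K) (n : ℕ) (x : K) : (ladZ W n).eval x = (lad (par W x) n).Z0 := by
  rw [← ppar_eval, lad_map]
  rfl

lemma ladX_eval (W : Affine K) (n : ℕ) (x : K) : (ladX W n).eval x = (lad (par W x) n).X0 := by
  rw [← ppar_eval, lad_map]
  rfl

variable [DecidableEq K] {W : Affine K}

/-- `n • P = 0` iff `x(P)` is a root of the `n`-th ladder denominator. -/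
theorem ladZ_eval_eq_zero_iff {P : W.Point} (hP : P ≠ 0) (n : ℕ) :
    (ladZ W n).eval (xc P) = 0 ↔ n • P = 0 := by
  rw [ladZ_eval, ladZ_eq_zero_iff hP]

/-- `x(n • P) = X_n(x(P)) / Z_n(x(P))`. -/
theorem ladX_eval_eq {P : W.Point} (hP : P ≠ 0) (n : ℕ) (hn : n • P ≠ 0) :
    (ladX W n).eval (xc P) = xc (n • P) * (ladZ W n).eval (xc P) := by
  rw [ladZ_eval, ladX_eval, ladX_eq hP n hn]

omit [DecidableEq K] in
/-- every `x` is the `x`-coordinate of a point over an algebraically closed field -/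
theorem exists_point_of_x [IsAlgClosed K] (hΔ : W.Δ ≠ 0) (x : K) :
    ∃ P : W.Point, P ≠ 0 ∧ xc P = x := by
  obtain ⟨y, hy⟩ := IsAlgClosed.exists_root
    (C (1 : K) * X ^ 2 + C (W.a₁ * x + W.a₃) * X + C (-(x ^ 3 + W.a₂ * x ^ 2 + W.a₄ * x + W.a₆)))
    (by rw [degree_quadratic one_ne_zero]; decide)
  have hE : W.Equation x y := by
    rw [equation_iff]
    simp only [IsRoot.def, eval_add, eval_mul, eval_C, eval_pow, eval_X] at hy
    linear_combination hy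
  exact ⟨Point.some x y ((equation_iff_nonsingular_of_Δ_ne_zero hΔ).1 hE), Point.some_ne_zero _, rfl⟩

/-- **Existence of torsion points.** -/
theorem exists_torsion [IsAlgClosed K] (hΔ : W.Δ ≠ 0) {n : ℕ} (hn : 2 ≤ n) (hnK : (n : K) ≠ 0) :
    ∃ P : W.Point, P ≠ 0 ∧ n • P = 0 := by
  have hdeg : (ladZ W n).natDegree = n ^ 2 - 1 := natDegree_ladZ W (pow_ne_zero 2 hnK)
  have h4 : 4 ≤ n ^ 2 := by nlinarith
  obtain ⟨x, hx⟩ := IsAlgClosed.exists_root (ladZ W n) (by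
    intro h0
    have h1 : (ladZ W n).natDegree = 0 := natDegree_eq_of_degree_eq_some h0
    omega)
  obtain ⟨P, hP, rfl⟩ := exists_point_of_x hΔ x
  exact ⟨P, hP, (ladZ_eval_eq_zero_iff hP n).1 hx⟩

end existence

end Fermat.Agent.S13.Ladder
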