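import Fermat.Agent.S13.LocalA

set_option autoImplicit false
set_option linter.unusedSectionVars false
set_option linter.unusedVariables false

namespace Fermat.Agent.S13

open Fermat.Agent.S05

variable {G : Type*} [AddCommGroup G] {K : Type*} [Field K]
  {Γ₀ : Type*} [LinearOrderedCommGroupWithZero Γ₀]

section val

variable {v : Valuation K Γ₀} {m b₂ : K}

/-- ordered version of the two point estimate -/
lemma two_point_aux (hb : v b₂ ≤ 1) {x y r₁ r₂ : K} (hy : 1 ≤ v y) (hyx : v y ≤ v x)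
    (hm : v m < v x * v y) (hne : x ≠ y)
    (hadd : (r₁ + r₂) * (x - y) ^ 2 = 2 * (x + y) * (m + x * y) + b₂ * (x * y))
    (hmul : r₁ * r₂ * (x - y) ^ 2 = (x * y - m) ^ 2) : v y ≤ v r₁ := by
  have hy0 : 0 < v y := lt_of_lt_of_le zero_lt_one hy
  have hx1 : 1 ≤ v x := le_trans hy hyx
  have hx0 : 0 < v x := lt_of_lt_of_le zero_lt_one hx1
  have hT0 : 0 < v x * v y := mul_pos hx0 hy0
  have hd0 : 0 < v (x - y) := by
    rw [zero_lt_iff]; exact (Valuation.ne_zero_iff v).mpr (sub_ne_zero.mpr hne)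
  have hd : v (x - y) ≤ v x := Valuation.map_sub_le v le_rfl hyx
  have hT : v (x * y - m) = v x * v y := by
    rw [← map_mul]
    apply Valuation.map_sub_eq_of_lt_left
    rw [map_mul]; exact hm
  have h1 := congrArg v hmul
  rw [map_mul, map_mul, map_pow, map_pow, hT] at h1
  have hN : v (2 * (x + y) * (m + x * y) + b₂ * (x * y)) ≤ v x * (v x * v y) := by
    apply Valuation.map_add_le
    · rw [map_mul, map_mul]
      have h2 : v (2 : K) ≤ 1 := le1_ofNat v 2
      have h3 : v (x + y) ≤ v x := Valuation.map_add_le v le_rfl hyx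
      have h4 : v (m + x * y) ≤ v x * v y :=
        Valuation.map_add_le v hm.le (by rw [map_mul])
      calc v 2 * v (x + y) * v (m + x * y) ≤ 1 * v x * (v x * v y) := by gcongr
        _ = v x * (v x * v y) := by rw [one_mul]
    · rw [map_mul, map_mul]
      have h7 : v b₂ * (v x * v y) ≤ v x * (v x * v y) := by
        gcongr; exact le_trans hb hx1
      exact h7
  rw [← hadd, map_mul, map_pow] at hN
  rcases lt_or_ge (v r₁) (v r₂) with hlt | hge
  · have hs : v (r₁ + r₂) = v r₂ := Valuation.map_add_eq_of_lt_right v hlt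
    rw [hs] at hN
    -- T^2 = r1 r2 d^2 ≤ r1 * x * T
    have h5 : (v x * v y) * (v x * v y) ≤ (v r₁ * v x) * (v x * v y) := by
      calc (v x * v y) * (v x * v y) = v r₁ * (v r₂ * v (x - y) ^ 2) := by
            rw [← sq, ← h1, mul_assoc]
        _ ≤ v r₁ * (v x * (v x * v y)) := by gcongr
        _ = (v r₁ * v x) * (v x * v y) := by rw [mul_assoc]
    have h6 : v x * v y ≤ v r₁ * v x := le_of_mul_le_mul_right h5 hT0
    rw [mul_comm (v r₁)] at h6
    exact le_of_mul_le_mul_left h6 hx0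
  · -- (r1 d)^2 ≥ T^2
    have h5 : (v x * v y) ^ 2 ≤ (v r₁ * v x) ^ 2 := by
      calc (v x * v y) ^ 2 = v r₁ * v r₂ * v (x - y) ^ 2 := h1.symm
        _ ≤ v r₁ * v r₁ * v x ^ 2 := by gcongr
        _ = (v r₁ * v x) ^ 2 := by rw [mul_pow, sq (v r₁)]
    have h6 : v x * v y ≤ v r₁ * v x := (pow_le_pow_iff_left₀ zero_le zero_le two_ne_zero).mp h5
    rw [mul_comm (v r₁)] at h6
    exact le_of_mul_le_mul_left h6 hx0

lemma two_point (hb : v b₂ ≤ 1) {x y r₁ r₂ : K} (hx : 1 ≤ v x) (hy : 1 ≤ v y)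
    (hm : v m < v x * v y) (hne : x ≠ y)
    (hadd : (r₁ + r₂) * (x - y) ^ 2 = 2 * (x + y) * (m + x * y) + b₂ * (x * y))
    (hmul : r₁ * r₂ * (x - y) ^ 2 = (x * y - m) ^ 2) : min (v x) (v y) ≤ v r₁ := by
  rcases le_total (v y) (v x) with hyx | hxy
  · rw [min_eq_right hyx]
    exact two_point_aux hb hy hyx hm hne hadd hmul
  · rw [min_eq_left hxy]
    have hadd' : (r₁ + r₂) * (y - x) ^ 2 = 2 * (y + x) * (m + y * x) + b₂ * (y * x) := by
      linear_combination hadd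
    have hmul' : r₁ * r₂ * (y - x) ^ 2 = (y * x - m) ^ 2 := by linear_combination hmul
    exact two_point_aux hb hx hxy (by rwa [mul_comm]) hne.symm hadd' hmul'

lemma dbl_point (hb : v b₂ ≤ 1) {x r : K} (hx : 1 ≤ v x) (hm1 : v m ≤ 1) (hm : v m < v x * v x)
    (hdbl : r * (4 * x ^ 3 + b₂ * x ^ 2 + 4 * m * x) = (x ^ 2 - m) ^ 2) : v x ≤ v r := by
  have hx0 : 0 < v x := lt_of_lt_of_le zero_lt_one hx
  have hT : v (x ^ 2 - m) = v x ^ 2 := by
    rw [← map_pow]
    apply Valuation.map_sub_eq_of_lt_left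
    rw [map_pow, sq]; exact hm
  have h4 : v (4 : K) ≤ 1 := le1_ofNat v 4
  have hY : v (4 * x ^ 3 + b₂ * x ^ 2 + 4 * m * x) ≤ v x ^ 3 := by
    apply Valuation.map_add_le
    · apply Valuation.map_add_le
      · rw [map_mul, map_pow]
        calc v 4 * v x ^ 3 ≤ 1 * v x ^ 3 := by gcongr
          _ = v x ^ 3 := one_mul _
      · rw [map_mul, map_pow]
        calc v b₂ * v x ^ 2 ≤ v x * v x ^ 2 := by gcongr; exact le_trans hb hx
          _ = v x ^ 3 := by rw [← pow_succ']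
    · rw [map_mul, map_mul]
      calc v 4 * v m * v x ≤ 1 * 1 * v x := by gcongr
        _ = v x := by rw [one_mul, one_mul]
        _ ≤ v x ^ 3 := le_self_pow₀ hx (by norm_num)
  have h1 := congrArg v hdbl
  rw [map_mul, map_pow, hT] at h1
  have h5 : v x * v x ^ 3 ≤ v r * v x ^ 3 := by
    calc v x * v x ^ 3 = (v x ^ 2) ^ 2 := by rw [← pow_succ', ← pow_mul]
      _ = v r * v (4 * x ^ 3 + b₂ * x ^ 2 + 4 * m * x) := h1.symm
      _ ≤ v r * v x ^ 3 := by gcongr
  exact le_of_mul_le_mul_right h5 (pow_pos hx0 3)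

end val

/-- kernel of reduction -/
def InE1 (v : Valuation K Γ₀) (X : G → K) (P : G) : Prop := P = 0 ∨ 1 < v (X P)

/-- points not reducing to the node `X = 0` -/
def InE0 (v : Valuation K Γ₀) (X : G → K) (P : G) : Prop := P = 0 ∨ 1 ≤ v (X P)

section grp

variable {v : Valuation K Γ₀} {X Y Z : G → K} {m b₂ : K} (h : IsXY2 X Y Z m b₂)

omit [AddCommGroup G] in
lemma InE1.inE0 [AddCommGroup G] {P : G} (hP : InE1 v X P) : InE0 v X P :=
  hP.imp id le_of_lt

include h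

lemma InE1.neg {P : G} (hP : InE1 v X P) : InE1 v X (-P) := by
  rcases hP with rfl | hP
  · left; simp
  · right; rwa [h.X_neg]

lemma InE0.neg {P : G} (hP : InE0 v X P) : InE0 v X (-P) := by
  rcases hP with rfl | hP
  · left; simp
  · right; rwa [h.X_neg]

/-- common estimate -/
lemma min_le_X_add (hm1 : v m ≤ 1) (hb : v b₂ ≤ 1) {P Q : G} (hP : P ≠ 0) (hQ : Q ≠ 0)
    (hPQ : P + Q ≠ 0) (hx : 1 ≤ v (X P)) (hy : 1 ≤ v (X Q)) (hm : v m < v (X P) * v (X Q)) :
    min (v (X P)) (v (X Q)) ≤ v (X (P + Q)) := by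
  by_cases hX : X P = X Q
  · rcases (h.X_eq_iff hP hQ).1 hX with rfl | rfl
    · rw [min_self]
      have hd := h.dbl hP hPQ
      rw [h.Y_sq] at hd
      exact dbl_point hb hx hm1 hm hd
    · exact absurd (by abel) hPQ
  · exact two_point hb hx hy hm hX (h.add_add_sub hP hQ hX) (h.add_mul_sub hP hQ hX)

lemma InE1.add (hm1 : v m ≤ 1) (hb : v b₂ ≤ 1) {P Q : G} (hP : InE1 v X P) (hQ : InE1 v X Q) :
    InE1 v X (P + Q) := by
  rcases hP with rfl | hP
  · rw [zero_add]; exact hQ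
  rcases hQ with rfl | hQ
  · rw [add_zero]; exact Or.inr hP
  by_cases hPQ : P + Q = 0
  · exact Or.inl hPQ
  right
  have hP0 : P ≠ 0 := by
    rintro rfl; rw [h.X_zero, map_zero] at hP; exact absurd hP (by simp)
  have hQ0 : Q ≠ 0 := by
    rintro rfl; rw [h.X_zero, map_zero] at hQ; exact absurd hQ (by simp)
  have hm : v m < v (X P) * v (X Q) := lt_of_le_of_lt hm1 (one_lt_mul'' hP hQ)
  exact lt_of_lt_of_le (lt_min hP hQ) (min_le_X_add h hm1 hb hP0 hQ0 hPQ hP.le hQ.le hm)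

lemma InE0.add (hm1 : v m < 1) (hb : v b₂ ≤ 1) {P Q : G} (hP : InE0 v X P) (hQ : InE0 v X Q) :
    InE0 v X (P + Q) := by
  rcases hP with rfl | hP
  · rw [zero_add]; exact hQ
  rcases hQ with rfl | hQ
  · rw [add_zero]; exact Or.inr hP
  by_cases hPQ : P + Q = 0
  · exact Or.inl hPQ
  right
  have hP0 : P ≠ 0 := by
    rintro rfl; rw [h.X_zero, map_zero] at hP; exact absurd hP (by simp)
  have hQ0 : Q ≠ 0 := by
    rintro rfl; rw [h.X_zero, map_zero] at hQ; exact absurd hQ (by simp)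
  have hm : v m < v (X P) * v (X Q) := lt_of_lt_of_le hm1 (one_le_mul hP hQ)
  exact le_trans (le_min hP hQ) (min_le_X_add h hm1.le hb hP0 hQ0 hPQ hP hQ hm)

lemma InE1.nsmul (hm1 : v m ≤ 1) (hb : v b₂ ≤ 1) {P : G} (hP : InE1 v X P) (k : ℕ) :
    InE1 v X (k • P) := by
  induction k with
  | zero => left; simp
  | succ k ih => rw [succ_nsmul]; exact InE1.add h hm1 hb ih hP

lemma InE0.nsmul (hm1 : v m < 1) (hb : v b₂ ≤ 1) {P : G} (hP : InE0 v X P) (k : ℕ) :
    InE0 v X (k • P) := by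
  induction k with
  | zero => left; simp
  | succ k ih => rw [succ_nsmul]; exact InE0.add h hm1 hb ih hP

lemma InE1.sub (hm1 : v m ≤ 1) (hb : v b₂ ≤ 1) {P Q : G} (hP : InE1 v X P) (hQ : InE1 v X Q) :
    InE1 v X (P - Q) := by
  rw [sub_eq_add_neg]; exact InE1.add h hm1 hb hP (InE1.neg h hQ)

lemma InE0.sub (hm1 : v m < 1) (hb : v b₂ ≤ 1) {P Q : G} (hP : InE0 v X P) (hQ : InE0 v X Q) :
    InE0 v X (P - Q) := by
  rw [sub_eq_add_neg]; exact InE0.add h hm1 hb hP (InE0.neg h hQ)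

end grp

end Fermat.Agent.S13
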