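import Fermat.Agent.S13.LocalSigma
import Fermat.Agent.S05.General

set_option autoImplicit false
set_option linter.unusedSectionVars false
set_option linter.unusedVariables false

namespace Fermat.Agent.S13

open Fermat.Agent.S05
open WeierstrassCurve WeierstrassCurve.Affine WeierstrassCurve.Affine.Point

variable {F : Type*} [Field F] [DecidableEq F] {W : Affine F}

/-- the `y`-coordinate. -/
def Zc : W.Point → F
  | .zero => 0
  | .some _ y _ => y

@[simp] lemma Zc_zero : Zc (0 : W.Point) = 0 := rfl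
@[simp] lemma Zc_some {x y : F} (h : W.Nonsingular x y) : Zc (Point.some x y h) = y := rfl

lemma Zc_neg (P : W.Point) : Zc (-P) = Zc P - Yc P := by
  rcases P with _ | ⟨x, y, h⟩
  · simp [← Point.zero_def]
  · simp only [Point.neg_some, Yc_some, Zc_some, negY]
    ring

lemma isXY2_of [CharZero F] {e α β : F}
    (hb2 : W.b₂ = -4 * (3 * e + α + β))
    (hb4 : W.b₄ = 2 * (3 * e ^ 2 + 2 * e * (α + β) + α * β))
    (hb6 : W.b₆ = -4 * e * (e + α) * (e + β)) :
    IsXY2 (Xc e : W.Point → F) Yc Zc (α * β) (-4 * (α + β)) where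
  X_zero := rfl
  X_neg := Xc_neg e
  Y_neg := Yc_neg
  Z_neg := Zc_neg
  X_eq_iff := fun hP hQ => Xc_eq_iff e hP hQ
  Y_sq := fun P => by rw [Yc_sq hb2 hb4 hb6]; ring
  dbl := fun hP hPP => Xc_two_nsmul hb2 hb4 hb6 hP hPP
  add_add_sub := fun hP hQ hne => by rw [Xc_add_add_sub hb2 hb4 hb6 hP hQ hne]; ring
  add_mul_sub := fun hP hQ hne => Xc_add_mul_sub hb2 hb4 hb6 hP hQ hne
  add_formula := fun {P Q} hP hQ hne => by
    rw [Xc_add_of_ne hb2 hP hQ hne]
    have hd : Xc e P - Xc e Q ≠ 0 := sub_ne_zero.mpr hne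
    field_simp
    ring

/-- variant with `Z = Y / 2` (useful in odd residue characteristic). -/
lemma isXY2_of' [CharZero F] {e α β : F}
    (hb2 : W.b₂ = -4 * (3 * e + α + β))
    (hb4 : W.b₄ = 2 * (3 * e ^ 2 + 2 * e * (α + β) + α * β))
    (hb6 : W.b₆ = -4 * e * (e + α) * (e + β)) :
    IsXY2 (Xc e : W.Point → F) Yc (fun P => Yc P / 2) (α * β) (-4 * (α + β)) :=
  { isXY2_of hb2 hb4 hb6 with
    Z_neg := fun P => by rw [Yc_neg]; ring }

end Fermat.Agent.S13
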