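import Fermat.Agent.S13.LocalSigma

set_option autoImplicit false
set_option linter.unusedSectionVars false
set_option linter.unusedVariables false

namespace Fermat.Agent.S13

open Fermat.Agent.S05

variable {G : Type*} [AddCommGroup G] {K : Type*} [Field K]
  {Γ₀ : Type*} [LinearOrderedCommGroupWithZero Γ₀]

/-- no "rational" point of order `p` (multiplicative reduction, residue field `𝔽₂`,
`p ∤ v(m)`). -/
theorem no_rat_abstract {v : Valuation K Γ₀} {X Y Z : G → K} {m b₂ : K}
    (h : IsXY2 X Y Z m b₂) (hm1 : v m < 1) (hm0 : m ≠ 0) (hb : v b₂ = 1)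
    {p : ℕ} (hp : p.Prime) (hp5 : 5 ≤ p) (hvp : v (p : K) = 1)
    (R : Subfield K) (π : K) (hπ0 : π ≠ 0) (hπ : v π < 1)
    (hR : ∀ x ∈ R, x ≠ 0 → ∃ j : ℤ, v x = v π ^ j)
    (hres : ∀ x ∈ R, ∀ y ∈ R, v x = 1 → v y = 1 → v (x - y) < 1)
    (hm : ∃ k : ℤ, v m = v π ^ k ∧ ¬ (p : ℤ) ∣ k)
    {P : G} (hP : P ≠ 0) (hpP : p • P = 0) (hPR : ∀ n : ℕ, X (n • P) ∈ R) : False := by
  have hp2 : p ≠ 2 := by omega
  have hI : ∀ {Q : G}, Q ≠ 0 → p • Q = 0 → v (X Q) ≤ 1 :=
    fun hQ hpQ => intX h hm1 hm0 hb hp hp2 hvp hQ hpQ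
  have hx := hI hP hpP
  have hXR : X P ∈ R := by simpa using hPR 1
  rcases lt_or_eq_of_le hx with hlt | heq
  · -- node type
    have hN := node_gt h hm1 hm0 hb hp hp2 hP hpP hlt
    have hx0 : 0 < v (X P) := lt_of_le_of_lt zero_le hN
    have hx0' : X P ≠ 0 := (Valuation.ne_zero_iff v).mp hx0.ne'
    obtain ⟨n, hn⟩ := claimB h hm1 hm0 hb hp hp2 hP hpP hlt
    obtain ⟨j, hj⟩ := hR _ hXR hx0'
    obtain ⟨k, hk, hpk⟩ := hm
    have hπ0' : 0 < v π := zero_lt_iff.mpr ((Valuation.ne_zero_iff v).mpr hπ0)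
    rw [hj, hk, ← zpow_natCast, ← zpow_mul, ← zpow_mul] at hn
    have hinj := zpow_right_injective₀ hπ0' hπ.ne hn
    have hpZ : Prime (p : ℤ) := Nat.prime_iff_prime_int.mp hp
    have hdvd : (p : ℤ) ∣ k * (2 * n) := ⟨j, by rw [← hinj]; ring⟩
    have hpn : (p : ℤ) ∣ n := by
      rcases hpZ.dvd_or_dvd hdvd with h1 | h1
      · exact absurd h1 hpk
      · rcases hpZ.dvd_or_dvd h1 with h3 | h3
        · exfalso
          have h4 : p ∣ 2 := by exact_mod_cast h3
          have := Nat.le_of_dvd (by norm_num) h4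
          omega
        · exact h3
    obtain ⟨n', rfl⟩ := hpn
    have hp0 : (p : ℤ) ≠ 0 := by exact_mod_cast hp.ne_zero
    have hj' : j = k * (2 * n') := by
      apply mul_right_cancel₀ hp0
      rw [hinj]; ring
    have hxm : v (X P) = v m ^ (2 * n') := by rw [hj, hk, ← zpow_mul, hj']
    rw [hxm] at hN hlt
    exact not_between_zpow ((Valuation.ne_zero_iff v).mpr hm0) hm1 n' hN hlt
  · -- unit type
    have hPP := add_self_ne_zero_of_prime hp hp2 hP hpP
    have hpPP : p • (P + P) = 0 := by rw [smul_add, hpP, add_zero]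
    have hd := h.dbl hP hPP
    have h3 : v (X P ^ 2 - m) = 1 := by
      have : v (X P ^ 2) = 1 := by rw [map_pow, heq, one_pow]
      rw [← this]
      apply Valuation.map_sub_eq_of_lt_left
      rw [this]; exact hm1
    have h4 := congrArg v hd
    rw [map_pow v (X P ^ 2 - m), h3, one_pow] at h4
    have hY : v (Y P ^ 2) ≤ 1 := by
      rw [h.Y_sq]
      exact le1_add v (le1_add v (le1_mul v (le1_ofNat v 4) (le1_pow v hx 3))
        (le1_mul v hb.le (le1_pow v hx 2))) (le1_mul v (le1_mul v (le1_ofNat v 4) hm1.le) hx)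
    have hX2 : v (X (P + P)) = 1 := by
      apply le_antisymm (hI hPP hpPP)
      by_contra hlt
      push Not at hlt
      exact (lt1_mul_left v hlt hY).ne h4
    have hXR2 : X (P + P) ∈ R := by
      have := hPR 2
      rwa [two_nsmul] at this
    have hcong := hres _ hXR2 _ hXR hX2 heq
    have hXeq := X_eq_of_congr_unit h hm1 hm0 hb hp hp2 hvp hP hpP hPP hpPP heq hcong
    rcases (h.X_eq_iff hP hPP).1 hXeq with h5 | h5
    · apply hP
      have : P + 0 = P + P := by rw [add_zero]; exact h5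
      exact (add_left_cancel this).symm
    · have h6 : 3 • P = 0 := by
        have : P + (P + P) = 0 := by
          nth_rewrite 1 [h5]
          exact neg_add_cancel _
        rw [← this]
        simp only [succ_nsmul, zero_nsmul, zero_add]
        abel
      exact nsmul_ne_zero_of_lt hp hP hpP (by norm_num) (by omega) h6

end Fermat.Agent.S13
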