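import Fermat.Agent.S13.LocalVal
import Fermat.Agent.S05.ClaimB

set_option autoImplicit false
set_option linter.unusedSectionVars false
set_option linter.unusedVariables false

namespace Fermat.Agent.S13

open Fermat.Agent.S05

variable {G : Type*} [AddCommGroup G] {K : Type*} [Field K]
  {Γ₀ : Type*} [LinearOrderedCommGroupWithZero Γ₀]

variable {v : Valuation K Γ₀} {X Y Z : G → K} {m b₂ : K} (h : IsXY2 X Y Z m b₂)
  (hm1 : v m < 1) (hm0 : m ≠ 0) (hb : v b₂ = 1)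
  {p : ℕ} (hp : p.Prime) (hp2 : p ≠ 2)

include h hm1 hm0 hb hp hp2

omit h hm1 hm0 hb in
lemma half_smul {P : G} (hpP : p • P = 0) : ((p + 1) / 2) • (P + P) = P := by
  obtain ⟨k, hk⟩ := hp.odd_of_ne_two hp2
  have h1 : (p + 1) / 2 = k + 1 := by omega
  rw [h1, ← two_nsmul, ← mul_smul]
  have h2 : (k + 1) * 2 = p + 1 := by omega
  rw [h2, succ_nsmul, hpP, zero_add]

lemma node_gt {P : G} (hP : P ≠ 0) (hpP : p • P = 0) (hXP : v (X P) < 1) : v m < v (X P) := by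
  by_contra hcon
  push Not at hcon
  have hν0 : 0 < v m := zero_lt_iff.mpr ((Valuation.ne_zero_iff v).mpr hm0)
  have hPP := add_self_ne_zero_of_prime hp hp2 hP hpP
  have hd := h.dbl hP hPP
  rw [h.Y_sq] at hd
  have h4 : v (4 : K) ≤ 1 := le1_ofNat v 4
  have h5 : v (X P ^ 2 - m) = v m := by
    apply Valuation.map_sub_eq_of_lt_right
    rw [map_pow, sq]
    calc v (X P) * v (X P) ≤ v m * v m := by gcongr
      _ < 1 * v m := by gcongr
      _ = v m := one_mul _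
  have h6 : v (4 * X P ^ 3 + b₂ * X P ^ 2 + 4 * m * X P) ≤ v m ^ 2 := by
    apply Valuation.map_add_le
    · apply Valuation.map_add_le
      · rw [map_mul, map_pow]
        calc v 4 * v (X P) ^ 3 ≤ 1 * v m ^ 3 := by gcongr
          _ = v m * v m ^ 2 := by rw [one_mul, ← pow_succ']
          _ ≤ 1 * v m ^ 2 := by gcongr
          _ = v m ^ 2 := one_mul _
      · rw [map_mul, map_pow, hb, one_mul]
        gcongr
    · rw [map_mul, map_mul]
      calc v 4 * v m * v (X P) ≤ 1 * v m * v m := by gcongr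
        _ = v m ^ 2 := by rw [one_mul, sq]
  have h8 := congrArg v hd
  rw [map_mul, map_pow, h5] at h8
  have h9 : 1 ≤ v (X (P + P)) := by
    by_contra hlt
    push Not at hlt
    have : v (X (P + P)) * v (4 * X P ^ 3 + b₂ * X P ^ 2 + 4 * m * X P) < v m ^ 2 := by
      calc v (X (P + P)) * v (4 * X P ^ 3 + b₂ * X P ^ 2 + 4 * m * X P)
          ≤ v (X (P + P)) * v m ^ 2 := by gcongr
        _ < 1 * v m ^ 2 := by
            have : 0 < v m ^ 2 := pow_pos hν0 2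
            gcongr
        _ = v m ^ 2 := one_mul _
    exact this.ne h8
  have h10 : InE0 v X (P + P) := Or.inr h9
  have h11 := InE0.nsmul h hm1 hb.le h10 ((p + 1) / 2)
  rw [half_smul hp hp2 hpP] at h11
  rcases h11 with h11 | h11
  · exact hP h11
  · exact absurd hXP (not_lt.mpr h11)

lemma node_mul {P : G} (hP : P ≠ 0) (hpP : p • P = 0) (hXP : v (X P) < 1) {k : ℕ}
    (hk : k • P ≠ 0) : v (X (k • P)) < 1 := by
  by_contra hcon
  push Not at hcon
  obtain ⟨j, hj⟩ := exists_nsmul_inverse hp hpP hk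
  have h1 : InE0 v X (k • P) := Or.inr hcon
  have h2 := InE0.nsmul h hm1 hb.le h1 j
  rw [hj] at h2
  rcases h2 with h2 | h2
  · exact hP h2
  · exact absurd hXP (not_lt.mpr h2)

lemma node_of_mem {P : G} (hP : P ≠ 0) (hpP : p • P = 0) (hXP : v (X P) < 1) {Q : G}
    (hQ : Q ∈ AddSubgroup.zmultiples P) (hQ0 : Q ≠ 0) :
    p • Q = 0 ∧ v (X Q) < 1 ∧ v m < v (X Q) := by
  obtain ⟨k, rfl⟩ := AddSubgroup.mem_zmultiples_iff.mp hQ
  have hpQ : p • (k • P) = 0 := by rw [smul_comm, hpP, smul_zero]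
  have hlt : v (X (k • P)) < 1 := by
    rcases Int.eq_nat_or_neg k with ⟨n, rfl | rfl⟩
    · rw [natCast_zsmul] at hQ0 ⊢
      exact node_mul h hm1 hm0 hb hp hp2 hP hpP hXP hQ0
    · rw [neg_smul, natCast_zsmul] at hQ0 ⊢
      rw [h.X_neg]
      exact node_mul h hm1 hm0 hb hp hp2 hP hpP hXP (neg_ne_zero.mp hQ0)
  exact ⟨hpQ, hlt, node_gt h hm1 hm0 hb hp hp2 hQ0 hpQ hlt⟩

lemma inj_of_mem {P : G} (hP : P ≠ 0) (hpP : p • P = 0) (hXP : v (X P) < 1) {Q R : G}
    (hQ : Q ∈ AddSubgroup.zmultiples P) (hR : R ∈ AddSubgroup.zmultiples P)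
    (hQ0 : Q ≠ 0) (hR0 : R ≠ 0) (hX : X Q ≠ X R) : v (X Q) ≠ v (X R) := by
  have hN : ∀ {S : G}, S ∈ AddSubgroup.zmultiples P → S ≠ 0 →
      p • S = 0 ∧ v (X S) < 1 ∧ v m < v (X S) :=
    fun hS hS0 => node_of_mem h hm1 hm0 hb hp hp2 hP hpP hXP hS hS0
  have hs0 : Q + R ≠ 0 := by
    intro h0; apply hX
    rw [eq_neg_of_add_eq_zero_left h0, h.X_neg]
  have hd0 : Q - R ≠ 0 := by
    intro h0; apply hX; rw [sub_eq_zero.mp h0]
  obtain ⟨-, hQ1, hQ2⟩ := hN hQ hQ0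
  obtain ⟨-, hR1, hR2⟩ := hN hR hR0
  obtain ⟨-, hs1, -⟩ := hN (add_mem hQ hR) hs0
  obtain ⟨-, hd1, -⟩ := hN (sub_mem hQ hR) hd0
  exact inj_aux hb hQ2 hQ1 hR2 hR1 hs1 hd1 (h.add_add_sub hQ0 hR0 hX)

lemma relStep {P : G} (hP : P ≠ 0) (hpP : p • P = 0) (hXP : v (X P) < 1) {k : ℕ}
    (hk : k + 3 < p) (S1 : Rel (v m) (v (X ((k + 1) • P))) (v (X P) ^ (k + 1)))
    (S2 : Rel (v m) (v (X ((k + 2) • P))) (v (X P) ^ (k + 2))) :
    Rel (v m) (v (X ((k + 3) • P))) (v (X P) ^ (k + 3)) := by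
  have hN : ∀ {S : G}, S ∈ AddSubgroup.zmultiples P → S ≠ 0 →
      p • S = 0 ∧ v (X S) < 1 ∧ v m < v (X S) :=
    fun hS hS0 => node_of_mem h hm1 hm0 hb hp hp2 hP hpP hXP hS hS0
  have hmem : ∀ j : ℕ, j • P ∈ AddSubgroup.zmultiples P :=
    fun j => AddSubgroup.nsmul_mem_zmultiples P j
  have hP' : P ∈ AddSubgroup.zmultiples P := AddSubgroup.mem_zmultiples P
  have hν0 : v m ≠ 0 := (Valuation.ne_zero_iff v).mpr hm0
  have h10 : (k + 1) • P ≠ 0 := nsmul_ne_zero_of_lt hp hP hpP (by omega) (by omega)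
  have h20 : (k + 2) • P ≠ 0 := nsmul_ne_zero_of_lt hp hP hpP (by omega) (by omega)
  have h30 : (k + 3) • P ≠ 0 := nsmul_ne_zero_of_lt hp hP hpP (by omega) (by omega)
  have e3 : (k + 2) • P + P = (k + 3) • P := (succ_nsmul P (k + 2)).symm
  have e1 : (k + 2) • P - P = (k + 1) • P := by
    rw [show k + 2 = (k + 1) + 1 from rfl, succ_nsmul]; abel
  have hX21 : X ((k + 2) • P) ≠ X P := by
    intro hX
    rcases (h.X_eq_iff h20 hP).1 hX with h' | h'
    · apply h10; rw [← e1, h', sub_self]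
    · apply h30; rw [← e3, h', neg_add_cancel]
  have hX31 : X ((k + 3) • P) ≠ X ((k + 1) • P) := by
    intro hX
    rcases (h.X_eq_iff h30 h10).1 hX with h' | h'
    · apply add_self_ne_zero_of_prime hp hp2 hP hpP
      have : (k + 3) • P = (k + 1) • P + (P + P) := by
        rw [← e3, ← e1]; abel
      rw [this] at h'
      exact left_eq_add.mp h'.symm
    · apply add_self_ne_zero_of_prime hp hp2 h20 (hN (hmem _) h20).1
      have : (k + 2) • P + (k + 2) • P = (k + 3) • P + (k + 1) • P := by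
        rw [← e3, ← e1]; abel
      rw [this, h', neg_add_cancel]
  obtain ⟨-, hP1, hP2⟩ := hN hP' hP
  obtain ⟨-, h11, h12⟩ := hN (hmem _) h10
  obtain ⟨-, h21, h22⟩ := hN (hmem _) h20
  obtain ⟨-, h31, h32⟩ := hN (hmem _) h30
  have hγ0 : v (X P) ≠ 0 := (lt_of_le_of_lt zero_le hP2).ne'
  have hxy := inj_of_mem h hm1 hm0 hb hp hp2 hP hpP hXP (hmem _) hP' h20 hP hX21
  have hr := inj_of_mem h hm1 hm0 hb hp hp2 hP hpP hXP (hmem _) (hmem _) h30 h10 hX31
  have hadd := h.add_add_sub h20 hP hX21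
  have hmul := h.add_mul_sub h20 hP hX21
  rw [e3, e1] at hadd hmul
  have R := lemR hb h22 h21 hP2 hP1 h32 h12 hxy hr hadd hmul
  have Sh := Rel.shift (ν := v m) hγ0 (k := k + 1) S2
  have S1' := S1.symm hν0 (pow_ne_zero _ hγ0)
  rcases R with ⟨R1, R2⟩ | ⟨R2, R1⟩ <;> rcases Sh with ⟨T1, T2⟩ | ⟨T1, T2⟩
  · exact ((((R1.trans hν0 T2).trans hν0 S1').trans hν0 R2).trans hν0 T1)
  · exact R1.trans hν0 T2
  · exact R1.trans hν0 T1
  · exact ((((R1.trans hν0 T1).trans hν0 S1').trans hν0 R2).trans hν0 T2)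

theorem claimB {P : G} (hP : P ≠ 0) (hpP : p • P = 0) (hXP : v (X P) < 1) :
    ∃ n : ℤ, v (X P) ^ p = v m ^ (2 * n) := by
  have hN : ∀ {S : G}, S ∈ AddSubgroup.zmultiples P → S ≠ 0 →
      p • S = 0 ∧ v (X S) < 1 ∧ v m < v (X S) :=
    fun hS hS0 => node_of_mem h hm1 hm0 hb hp hp2 hP hpP hXP hS hS0
  have hmem : ∀ j : ℕ, j • P ∈ AddSubgroup.zmultiples P :=
    fun j => AddSubgroup.nsmul_mem_zmultiples P j
  have hP' : P ∈ AddSubgroup.zmultiples P := AddSubgroup.mem_zmultiples P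
  have hν0 : v m ≠ 0 := (Valuation.ne_zero_iff v).mpr hm0
  obtain ⟨-, hP1, hP2⟩ := hN hP' hP
  have hγ0 : v (X P) ≠ 0 := (lt_of_le_of_lt zero_le hP2).ne'
  have key : ∀ k : ℕ, (k + 1 < p → Rel (v m) (v (X ((k + 1) • P))) (v (X P) ^ (k + 1))) ∧
      (k + 2 < p → Rel (v m) (v (X ((k + 2) • P))) (v (X P) ^ (k + 2))) := by
    intro k
    induction k with
    | zero =>
      refine ⟨fun _ => ?_, fun h2p => ?_⟩
      · simp only [zero_add, one_smul, pow_one]; exact Rel.refl _ _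
      · simp only [zero_add]
        have h20 : 2 • P ≠ 0 := nsmul_ne_zero_of_lt hp hP hpP (by omega) h2p
        obtain ⟨-, h21, h22⟩ := hN (hmem _) h20
        have hd := h.dbl hP (by rw [← two_nsmul]; exact h20)
        rw [h.Y_sq, ← two_nsmul] at hd
        exact lemR_dbl hb hP2 hP1 h22 hd
    | succ k ih =>
      refine ⟨fun hk => ih.2 hk, fun hk => ?_⟩
      exact relStep h hm1 hm0 hb hp hp2 hP hpP hXP hk (ih.1 (by omega)) (ih.2 (by omega))
  have hp3 : 3 ≤ p := by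
    have := hp.two_le
    omega
  obtain ⟨q, rfl⟩ : ∃ q, p = q + 3 := ⟨p - 3, by omega⟩
  have S2 := (key q).2 (by omega)
  have S1 := (key q).1 (by omega)
  have e : (q + 2) • P = -P := by
    have : (q + 2) • P + P = 0 := by rw [← succ_nsmul]; exact hpP
    exact eq_neg_of_add_eq_zero_left this
  rw [e, h.X_neg] at S2
  obtain ⟨n, S2 | S2⟩ := S2
  · exfalso
    have h10 : (q + 1) • P ≠ 0 := nsmul_ne_zero_of_lt hp hP hpP (by omega) (by omega)
    obtain ⟨-, h11, h12⟩ := hN (hmem _) h10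
    have h3 : v (X P) ^ (q + 1) = v m ^ (2 * (-n)) := by
      have h4 : v (X P) * 1 = v (X P) * (v (X P) ^ (q + 1) * v m ^ (2 * n)) := by
        rw [mul_one, ← mul_assoc, ← pow_succ']
        exact S2
      have h5 := mul_left_cancel₀ hγ0 h4
      have h6 : 2 * (-n) = -(2 * n) := by ring
      rw [h6, zpow_neg]
      exact eq_inv_of_mul_eq_one_left h5.symm
    rw [h3] at S1
    obtain ⟨j, S1 | S1⟩ := S1
    · rw [← zpow_add₀ hν0, show 2 * (-n) + 2 * j = 2 * (j - n) by ring] at S1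
      rw [S1] at h11 h12
      exact not_between_zpow hν0 hm1 _ h12 h11
    · rw [← zpow_neg, ← zpow_add₀ hν0, show -(2 * (-n)) + 2 * j = 2 * (j + n) by ring] at S1
      rw [S1] at h11 h12
      exact not_between_zpow hν0 hm1 _ h12 h11
  · refine ⟨n, ?_⟩
    have h3 : v (X P) ^ (q + 2) ≠ 0 := pow_ne_zero _ hγ0
    rw [pow_succ, mul_comm]
    nth_rewrite 1 [S2]
    field_simp

end Fermat.Agent.S13
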