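import Fermat.Agent.S13.LocalNode
import Fermat.Agent.S13.LocalE
import Fermat.Agent.S05.AbstractMain

set_option autoImplicit false
set_option linter.unusedSectionVars false
set_option linter.unusedVariables false

namespace Fermat.Agent.S13

open Fermat.Agent.S05

variable {G : Type*} [AddCommGroup G] {K : Type*} [Field K]
  {Γ₀ : Type*} [LinearOrderedCommGroupWithZero Γ₀]

section val

variable {v : Valuation K Γ₀} {m b₂ : K}

lemma v_add_unit {a b : K} (ha : v a = 1) (hb : v b < 1) : v (a + b) = 1 := by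
  rw [← ha]; exact Valuation.map_add_eq_of_lt_left v (by rw [ha]; exact hb)

lemma gt1_of_mul {u w : K} (h : v (u * w) = 1) (hw : v w < 1) : 1 < v u := by
  by_contra hu
  push Not at hu
  exact (lt1_mul_right v hu hw).ne h

lemma lt1_of_mul_unit {u w : K} (hu : v u = 1) (h : v (u * w) < 1) : v w < 1 := by
  rwa [map_mul, hu, one_mul] at h

/-- nonsingularity of the reduction away from the node, multiplicative case. -/
lemma nc_mult (h2 : v (2 : K) = 1) (hm1 : v m < 1) (hb : v b₂ = 1) {x y : K} (hx : v x = 1)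
    (hy : y ^ 2 = 4 * x ^ 3 + b₂ * x ^ 2 + 4 * m * x) (hy1 : v y < 1) :
    v (12 * x ^ 2 + 2 * b₂ * x + 4 * m) = 1 := by
  have h4 := v_four (v := v) h2
  have h4' : v (4 : K) ≤ 1 := h4.le
  have hx2 : v (x ^ 2) = 1 := by rw [map_pow, hx, one_pow]
  have e1 : x ^ 2 * (4 * x + b₂) = y ^ 2 - 4 * m * x := by rw [hy]; ring
  have h5 : v (4 * x + b₂) < 1 := by
    apply lt1_of_mul_unit hx2
    rw [e1]
    apply lt1_sub v
    · rw [sq]; exact lt1_mul_left v hy1 hy1.le
    · exact lt1_mul_left v (lt1_mul_right v h4' hm1) hx.le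
  have e2 : 12 * x ^ 2 + 2 * b₂ * x + 4 * m = 4 * x ^ 2 + (2 * x * (4 * x + b₂) + 4 * m) := by ring
  rw [e2]
  apply v_add_unit
  · rw [map_mul, h4, hx2, one_mul]
  · apply lt1_add v
    · exact lt1_mul_right v (le1_mul v h2.le hx.le) h5
    · exact lt1_mul_right v h4' hm1

/-- nonsingularity of the reduction, good case. -/
lemma nc_good (h2 : v (2 : K) = 1) (hm : v m = 1) (hb1 : v b₂ ≤ 1)
    (hD : v (b₂ ^ 2 - 64 * m) = 1) {x y : K} (hx : v x ≤ 1)
    (hy : y ^ 2 = 4 * x ^ 3 + b₂ * x ^ 2 + 4 * m * x) (hy1 : v y < 1) :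
    v (12 * x ^ 2 + 2 * b₂ * x + 4 * m) = 1 := by
  have h4 := v_four (v := v) h2
  have h16 : v (16 : K) = 1 := by
    have : (16 : K) = 4 * 4 := by norm_num
    rw [this, map_mul, h4, one_mul]
  have hle : v (12 * x ^ 2 + 2 * b₂ * x + 4 * m) ≤ 1 :=
    le1_add v (le1_add v (le1_mul v (le1_ofNat v 12) (le1_pow v hx 2))
      (le1_mul v (le1_mul v h2.le hb1) hx)) (le1_mul v h4.le hm.le)
  by_contra hne
  have hlt : v (12 * x ^ 2 + 2 * b₂ * x + 4 * m) < 1 := lt_of_le_of_ne hle hne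
  have e1 : 16 * (x ^ 2 - m) ^ 2 =
      (12 * x ^ 2 + 2 * b₂ * x + 4 * m) ^ 2 - (4 * b₂ + 32 * x) * y ^ 2 := by rw [hy]; ring
  have hy2 : v (y ^ 2) < 1 := by rw [sq]; exact lt1_mul_left v hy1 hy1.le
  have h5 : v (x ^ 2 - m) < 1 := by
    apply lt1_of_pow_lt1 (n := 2)
    apply lt1_of_mul_unit h16
    rw [e1]
    apply lt1_sub v
    · rw [sq]; exact lt1_mul_left v hlt hlt.le
    · exact lt1_mul_right v (le1_add v (le1_mul v h4.le hb1) (le1_mul v (le1_ofNat v 32) hx)) hy2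
  have hx2 : v (x ^ 2) = 1 := by
    have : x ^ 2 = m + (x ^ 2 - m) := by ring
    rw [this]; exact v_add_unit hm h5
  have hx1 : v x = 1 := by
    rw [map_pow] at hx2
    exact (pow_eq_one_iff_of_nonneg zero_le two_ne_zero).mp hx2
  have e2 : x * (4 * x ^ 2 + b₂ * x + 4 * m) = y ^ 2 := by rw [hy]; ring
  have h6 : v (4 * x ^ 2 + b₂ * x + 4 * m) < 1 := by
    apply lt1_of_mul_unit hx1; rw [e2]; exact hy2
  have h7 : v (b₂ * x + 8 * m) < 1 := by
    have : b₂ * x + 8 * m = (4 * x ^ 2 + b₂ * x + 4 * m) - 4 * (x ^ 2 - m) := by ring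
    rw [this]
    exact lt1_sub v h6 (lt1_mul_right v h4.le h5)
  have e3 : m * (b₂ ^ 2 - 64 * m) = (b₂ * x - 8 * m) * (b₂ * x + 8 * m) - b₂ ^ 2 * (x ^ 2 - m) := by
    ring
  have h8 : v (m * (b₂ ^ 2 - 64 * m)) < 1 := by
    rw [e3]
    apply lt1_sub v
    · exact lt1_mul_right v (le1_sub v (le1_mul v hb1 hx) (le1_mul v (le1_ofNat v 8) hm.le)) h7
    · exact lt1_mul_right v (le1_pow v hb1 2) h5
  rw [map_mul, hm, hD, one_mul] at h8
  exact lt_irrefl _ h8

/-- two congruent points with nonsingular reduction differ by a point of the kernel of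
reduction. -/
lemma b2_val (h2 : v (2 : K) = 1) (hm1 : v m ≤ 1) (hb1 : v b₂ ≤ 1) {x y Yx Yy r : K}
    (hx : v x ≤ 1) (hd : v (x - y) < 1) (hne : x ≠ y)
    (hYx : Yx ^ 2 = 4 * x ^ 3 + b₂ * x ^ 2 + 4 * m * x)
    (hYy : Yy ^ 2 = 4 * y ^ 3 + b₂ * y ^ 2 + 4 * m * y)
    (hY : v (Yx - Yy) < 1)
    (hnc : v Yx = 1 ∨ v (12 * x ^ 2 + 2 * b₂ * x + 4 * m) = 1)
    (hr : 4 * r * (x - y) ^ 2 = (Yx + Yy) ^ 2 - (b₂ + 4 * x + 4 * y) * (x - y) ^ 2) :
    1 < v r := by
  have h4 := v_four (v := v) h2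
  have hd0 : x - y ≠ 0 := sub_ne_zero.mpr hne
  have hy : v y ≤ 1 := by
    have : y = x - (x - y) := by ring
    rw [this]; exact le1_sub v hx hd.le
  set u := (Yx + Yy) / (x - y) with hu
  have hu1 : 1 < v u := by
    rcases hnc with h1 | h1
    · apply gt1_of_mul (w := x - y) _ hd
      rw [hu, div_mul_cancel₀ _ hd0]
      have : Yx + Yy = 2 * Yx + -(Yx - Yy) := by ring
      rw [this]
      apply v_add_unit
      · rw [map_mul, h2, h1, one_mul]
      · rw [Valuation.map_neg]; exact hY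
    · apply gt1_of_mul (w := Yx - Yy) _ hY
      have e1 : u * (Yx - Yy) = (12 * x ^ 2 + 2 * b₂ * x + 4 * m) +
          -((x - y) * (4 * (y + 2 * x) + b₂)) := by
        rw [hu]
        field_simp
        linear_combination hYx - hYy
      rw [e1]
      apply v_add_unit h1
      rw [Valuation.map_neg]
      exact lt1_mul_left v hd (le1_add v (le1_mul v h4.le
        (le1_add v hy (le1_mul v h2.le hx))) hb1)
  have e2 : 4 * r = u ^ 2 + -(b₂ + 4 * x + 4 * y) := by
    rw [hu]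
    field_simp
    linear_combination hr
  have h5 : v (-(b₂ + 4 * x + 4 * y)) ≤ 1 := by
    rw [Valuation.map_neg]
    exact le1_add v (le1_add v hb1 (le1_mul v h4.le hx)) (le1_mul v h4.le hy)
  have h6 : 1 < v (u ^ 2) := by
    rw [map_pow]; exact one_lt_pow₀ hu1 two_ne_zero
  have h7 : v (4 * r) = v (u ^ 2) := by
    rw [e2]; exact Valuation.map_add_eq_of_lt_left v (lt_of_le_of_lt h5 h6)
  rw [map_mul, h4, one_mul] at h7
  rw [h7]; exact h6

/-- near the node. -/
lemma b3_val (h2 : v (2 : K) = 1) {x y Yx Yy r : K} (hx0 : x ≠ 0) (hy0 : y ≠ 0)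
    (hvy : v y = v x) (hne : x ≠ y) (hT : v (Yx / x + Yy / y) = 1)
    (hr : 4 * x * y * (x - y) ^ 2 * r = (Yy * x + Yx * y) ^ 2) : 1 ≤ v r := by
  have h4 := v_four (v := v) h2
  have e1 : 4 * ((x - y) ^ 2 * r) = x * y * (Yx / x + Yy / y) ^ 2 := by
    field_simp
    linear_combination hr
  have h5 := congrArg v e1
  rw [map_mul, h4, one_mul, map_mul, map_mul, map_mul, map_pow, map_pow, hT, one_pow, mul_one,
    hvy] at h5
  have hx0' : 0 < v x := zero_lt_iff.mpr ((Valuation.ne_zero_iff v).mpr hx0)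
  have hd : v (x - y) ≤ v x := Valuation.map_sub_le v le_rfl hvy.le
  by_contra hlt
  push Not at hlt
  have : v (x - y) ^ 2 * v r < v x * v x := by
    calc v (x - y) ^ 2 * v r ≤ v x ^ 2 * v r := by gcongr
      _ < v x ^ 2 * 1 := by
          have : 0 < v x ^ 2 := pow_pos hx0' 2
          gcongr
      _ = v x * v x := by rw [mul_one, sq]
  exact this.ne h5

end val

section grp

variable {v : Valuation K Γ₀} {X Y Z : G → K} {m b₂ : K} (h : IsXY2 X Y Z m b₂)
  (h2 : v (2 : K) = 1)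

include h h2

/-- congruent points with nonsingular reduction differ by a point of the kernel of reduction. -/
lemma sub_mem_E1_of_congr (hm1 : v m ≤ 1) (hb1 : v b₂ ≤ 1) {P Q : G} (hP : P ≠ 0) (hQ : Q ≠ 0)
    (hx : v (X P) ≤ 1) (hdX : v (X P - X Q) < 1) (hdY : v (Y P - Y Q) < 1)
    (hnc : v (Y P) < 1 → v (12 * X P ^ 2 + 2 * b₂ * X P + 4 * m) = 1) :
    InE1 v X (P - Q) := by
  have h4 := v_four (v := v) h2
  have hYle : v (Y P) ≤ 1 := by
    have h1 : v (Y P ^ 2) ≤ 1 := by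
      rw [h.Y_sq]
      exact le1_add v (le1_add v (le1_mul v h4.le (le1_pow v hx 3))
        (le1_mul v hb1 (le1_pow v hx 2))) (le1_mul v (le1_mul v h4.le hm1) hx)
    rw [map_pow] at h1
    exact (pow_le_one_iff_of_nonneg zero_le two_ne_zero).mp h1
  by_cases hne : X P = X Q
  · rcases (h.X_eq_iff hP hQ).1 hne with hPQ | hPQ
    · left; rw [hPQ, sub_self]
    · have hQP : Q = -P := by rw [hPQ, neg_neg]
      have e1 : P - Q = P + P := by rw [hQP, sub_neg_eq_add]
      rw [e1]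
      by_cases hPP : P + P = 0
      · left; exact hPP
      right
      have hY1 : v (Y P) < 1 := by
        rw [hQP, h.Y_neg] at hdY
        have : Y P - -Y P = 2 * Y P := by ring
        rw [this] at hdY
        exact lt1_of_mul_unit h2 hdY
      have hF := hnc hY1
      have hd := h.dbl hP hPP
      have h16 : v (16 : K) = 1 := by
        have : (16 : K) = 4 * 4 := by norm_num
        rw [this, map_mul, h4, one_mul]
      have hy2 : v (Y P ^ 2) < 1 := by rw [sq]; exact lt1_mul_left v hY1 hY1.le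
      have e2 : 16 * (X P ^ 2 - m) ^ 2 = (12 * X P ^ 2 + 2 * b₂ * X P + 4 * m) ^ 2 +
          -((4 * b₂ + 32 * X P) * Y P ^ 2) := by rw [h.Y_sq]; ring
      have h5 : v ((X P ^ 2 - m) ^ 2) = 1 := by
        have h6 : v (16 * (X P ^ 2 - m) ^ 2) = 1 := by
          rw [e2]
          apply v_add_unit
          · rw [map_pow, hF, one_pow]
          · rw [Valuation.map_neg]
            exact lt1_mul_right v (le1_add v (le1_mul v h4.le hb1)
              (le1_mul v (le1_ofNat v 32) hx)) hy2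
        rwa [map_mul, h16, one_mul] at h6
      rw [← hd] at h5
      exact gt1_of_mul h5 hy2
  · right
    have hQ' : -Q ≠ 0 := neg_ne_zero.mpr hQ
    have hne' : X P ≠ X (-Q) := by rwa [h.X_neg]
    have hr := h.add_formula hP hQ' hne'
    rw [h.X_neg, h.Y_neg, sub_neg_eq_add, ← sub_eq_add_neg] at hr
    refine b2_val h2 hm1 hb1 hx hdX hne (h.Y_sq P) (h.Y_sq Q) hdY ?_ hr
    rcases lt_or_eq_of_le hYle with h1 | h1
    · exact Or.inr (hnc h1)
    · exact Or.inl h1

variable {σG : G →+ G} {σK : K →+* K}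
  (hσ0 : ∀ P, P ≠ 0 → σG P ≠ 0)
  (hσX : ∀ P, X (σG P) = σK (X P))
  (hσY : ∀ P, Y (σG P) = σK (Y P))
  (hσI : ∀ x, v x ≤ 1 → v (σK x - x) < 1)
  (hσv : ∀ x, v (σK x) = v x)

omit h h2 in
include hσX hσv in
lemma InE1.sigma {P : G} (hP : InE1 v X P) : InE1 v X (σG P) := by
  rcases hP with rfl | hP
  · left; simp
  · right; rw [hσX, hσv]; exact hP

include hσ0 hσX hσY hσI hσv

/-- `σ P - P` lies in the kernel of reduction if `P` has nonsingular reduction. -/
lemma sigma_sub_mem_E1 (hm1 : v m ≤ 1) (hb1 : v b₂ ≤ 1) {P : G}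
    (hnc : v (X P) ≤ 1 → v (Y P) < 1 → v (12 * X P ^ 2 + 2 * b₂ * X P + 4 * m) = 1) :
    InE1 v X (σG P - P) := by
  by_cases hP : P = 0
  · left; rw [hP]; simp
  have h4 := v_four (v := v) h2
  rcases lt_or_ge 1 (v (X P)) with hx | hx
  · have h1 : InE1 v X P := Or.inr hx
    exact (h1.sigma hσX hσv).sub h hm1 hb1 h1
  · have hYle : v (Y P) ≤ 1 := by
      have h1 : v (Y P ^ 2) ≤ 1 := by
        rw [h.Y_sq]
        exact le1_add v (le1_add v (le1_mul v h4.le (le1_pow v hx 3))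
          (le1_mul v hb1 (le1_pow v hx 2))) (le1_mul v (le1_mul v h4.le hm1) hx)
      rw [map_pow] at h1
      exact (pow_le_one_iff_of_nonneg zero_le two_ne_zero).mp h1
    have h1 : InE1 v X (P - σG P) := by
      refine sub_mem_E1_of_congr h h2 hm1 hb1 hP (hσ0 P hP) hx ?_ ?_ (hnc hx)
      · rw [hσX, Valuation.map_sub_swap]; exact hσI _ hx
      · rw [hσY, Valuation.map_sub_swap]; exact hσI _ hYle
    have e : σG P - P = -(P - σG P) := by abel
    rw [e]; exact h1.neg h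

/-- near the node: `σ P - P` does not reduce to the node. -/
lemma sigma_sub_mem_E0 (hm1 : v m < 1) (hm0 : m ≠ 0) (hb : v b₂ = 1)
    {p : ℕ} (hp : p.Prime) (hp2 : p ≠ 2) {P : G} (hP : P ≠ 0) (hpP : p • P = 0)
    (hXP : v (X P) < 1) : InE0 v X (σG P - P) := by
  have hN := node_gt h hm1 hm0 hb hp hp2 hP hpP hXP
  have hx0 : 0 < v (X P) := lt_of_le_of_lt zero_le hN
  have hx0' : X P ≠ 0 := (Valuation.ne_zero_iff v).mp hx0.ne'
  have hQ := hσ0 P hP
  have hvQ : v (X (σG P)) = v (X P) := by rw [hσX]; exact hσv _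
  have hy0' : X (σG P) ≠ 0 := (Valuation.ne_zero_iff v).mp (by rw [hvQ]; exact hx0.ne')
  have hYv : v (Y P) = v (X P) := by
    have h3 := congrArg v (h.Y_sq P)
    rw [map_pow, v_f_node hb hN hXP] at h3
    exact (pow_left_inj₀ zero_le zero_le two_ne_zero).mp h3
  have hT : v (Y P / X P) = 1 := by rw [map_div₀, hYv, div_self hx0.ne']
  have hT' : Y (σG P) / X (σG P) = σK (Y P / X P) := by rw [hσX, hσY, map_div₀]
  have hTs : v (Y P / X P + Y (σG P) / X (σG P)) = 1 := by
    have : Y P / X P + Y (σG P) / X (σG P) =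
        2 * (Y P / X P) + (σK (Y P / X P) - Y P / X P) := by rw [hT']; ring
    rw [this]
    apply v_add_unit
    · rw [map_mul, h2, hT, one_mul]
    · exact hσI _ hT.le
  have e : σG P - P = -(P - σG P) := by abel
  rw [e]
  apply InE0.neg h
  by_cases hne : X P = X (σG P)
  · rcases (h.X_eq_iff hP hQ).1 hne with hPQ | hPQ
    · left; exact sub_eq_zero.mpr hPQ
    · exfalso
      have hY : Y P = - Y (σG P) := (congrArg Y hPQ).trans (h.Y_neg _)
      rw [← hne, hY] at hTs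
      have : -Y (σG P) / X P + Y (σG P) / X P = 0 := by ring
      rw [this, map_zero] at hTs
      exact zero_ne_one hTs
  · right
    have hQ' : -σG P ≠ 0 := neg_ne_zero.mpr hQ
    have hne' : X P ≠ X (-σG P) := by rwa [h.X_neg]
    have hr := h.add_formula hP hQ' hne'
    rw [h.X_neg, h.Y_neg, sub_neg_eq_add, ← sub_eq_add_neg] at hr
    refine b3_val h2 hx0' hy0' hvQ hne hTs ?_
    have hYx := h.Y_sq P
    have hYy := h.Y_sq (σG P)
    generalize X (P - σG P) = r at *
    generalize X (σG P) = y at *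
    generalize X P = x at *
    generalize Y (σG P) = Yy at *
    generalize Y P = Yx at *
    linear_combination (x * y) * hr + (-(x * (x - y))) * hYy + (y * (x - y)) * hYx

/-- **the local statement at `p`**: `(σ - 1)²` maps the `p`-torsion into the kernel of
reduction. -/
theorem sq_mem_E1 (hm0 : m ≠ 0)
    (hred : (v m < 1 ∧ v b₂ = 1) ∨ (v m = 1 ∧ v b₂ ≤ 1 ∧ v (b₂ ^ 2 - 64 * m) = 1))
    {p : ℕ} (hp : p.Prime) (hp2 : p ≠ 2) {P : G} (hpP : p • P = 0) :
    InE1 v X (σG (σG P - P) - (σG P - P)) := by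
  rcases hred with ⟨hm1, hb⟩ | ⟨hm, hb1, hD⟩
  · -- multiplicative reduction
    have key : ∀ R : G, InE0 v X R → InE1 v X (σG R - R) := by
      intro R hR
      rcases hR with rfl | hR
      · left; simp
      refine sigma_sub_mem_E1 h h2 hσ0 hσX hσY hσI hσv hm1.le hb.le ?_
      intro hx hy
      exact nc_mult h2 hm1 hb (le_antisymm hx hR) (h.Y_sq R) hy
    apply key
    by_cases hP : P = 0
    · left; rw [hP]; simp
    rcases lt_or_ge (v (X P)) 1 with hx | hx
    · exact sigma_sub_mem_E0 h h2 hσ0 hσX hσY hσI hσv hm1 hm0 hb hp hp2 hP hpP hx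
    · exact (key P (Or.inr hx)).inE0
  · -- good reduction
    have key : ∀ R : G, InE1 v X (σG R - R) := by
      intro R
      refine sigma_sub_mem_E1 h h2 hσ0 hσX hσY hσI hσv hm.le hb1 ?_
      intro hx hy
      exact nc_good h2 hm hb1 hD hx (h.Y_sq R) hy
    exact key _

end grp

end Fermat.Agent.S13
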