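import Fermat.Agent.S13.LocalNode

set_option autoImplicit false
set_option linter.unusedSectionVars false
set_option linter.unusedVariables false

namespace Fermat.Agent.S13

open Fermat.Agent.S05

variable {G : Type*} [AddCommGroup G] {K : Type*} [Field K]
  {Γ₀ : Type*} [LinearOrderedCommGroupWithZero Γ₀]

variable {v : Valuation K Γ₀} {X Y Z : G → K} {m b₂ : K} (h : IsXY2 X Y Z m b₂)
  (hm1 : v m < 1) (hm0 : m ≠ 0) (hb : v b₂ = 1)
  {p : ℕ} (hp : p.Prime) (hp2 : p ≠ 2)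
  {S : Subfield K} {σG : G →+ G} {σK : K →+* K}
  (hσ0 : ∀ P, P ≠ 0 → σG P ≠ 0)
  (hσX : ∀ P, X (σG P) = σK (X P))
  (hσZ : ∀ P, Z (σG P) = σK (Z P))
  (hσI : ∀ x ∈ S, v x ≤ 1 → v (σK x - x) < 1)
  (hS : ∀ P, p • P = 0 → X P ∈ S ∧ Z P ∈ S)

include h hm1 hm0 hb hp hp2 hσ0 hσX hσZ hσI hS

/-- near the node, `σ P = -P` is impossible. -/
lemma sign_node (hZ2 : ∀ P, p • P = 0 → v m < v (X P) → v (X P) < 1 → v (Z P) ≤ v (X P))
    {P : G} (hP : P ≠ 0) (hpP : p • P = 0) (hXP : v (X P) < 1) : σG P ≠ -P := by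
  intro hneg
  have hN := node_gt h hm1 hm0 hb hp hp2 hP hpP hXP
  have hx0 : 0 < v (X P) := lt_of_le_of_lt zero_le hN
  have hx0' : X P ≠ 0 := (Valuation.ne_zero_iff v).mp hx0.ne'
  have hX : σK (X P) = X P := by rw [← hσX, hneg, h.X_neg]
  have hZ : σK (Z P) = Z P - Y P := by rw [← hσZ, hneg, h.Z_neg]
  obtain ⟨hSX, hSZ⟩ := hS P hpP
  have ht : v (Z P / X P) ≤ 1 := by
    rw [map_div₀]
    exact (div_le_one₀ hx0).mpr (hZ2 P hpP hN hXP)
  have h1 := hσI _ (S.div_mem hSZ hSX) ht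
  rw [map_div₀, hX, hZ] at h1
  have h2 : (Z P - Y P) / X P - Z P / X P = -(Y P / X P) := by
    field_simp; ring
  rw [h2, Valuation.map_neg, map_div₀] at h1
  have h3 := congrArg v (h.Y_sq P)
  rw [map_pow, v_f_node hb hN hXP] at h3
  have h4 : v (Y P) = v (X P) := (pow_left_inj₀ zero_le zero_le two_ne_zero).mp h3
  rw [h4, div_self hx0.ne'] at h1
  exact lt_irrefl _ h1

omit hσ0 hσX hσZ hσI hS in
lemma intX (hvp : v (p : K) = 1) {Q : G} (hQ : Q ≠ 0) (hpQ : p • Q = 0) : v (X Q) ≤ 1 :=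
  claimA h hm1.le hb.le hm0 hp hp2 hvp hQ hpQ

omit hσ0 hσX hσZ hσI hS in
/-- two congruent unit-type torsion points have the same `X`. -/
lemma X_eq_of_congr_unit (hvp : v (p : K) = 1) {P Q : G} (hP : P ≠ 0) (hpP : p • P = 0)
    (hQ : Q ≠ 0) (hpQ : p • Q = 0) (hXP : v (X P) = 1) (hcong : v (X Q - X P) < 1) :
    X P = X Q := by
  by_contra hne
  have hI : ∀ {R : G}, R ≠ 0 → p • R = 0 → v (X R) ≤ 1 :=
    fun hR hpR => intX h hm1 hm0 hb hp hp2 hvp hR hpR
  have hs0 : P + Q ≠ 0 := by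
    intro h0; apply hne
    rw [eq_neg_of_add_eq_zero_left h0, h.X_neg]
  have hd0 : P - Q ≠ 0 := by
    intro h0; apply hne; rw [sub_eq_zero.mp h0]
  have hps : p • (P + Q) = 0 := by rw [smul_add, hpP, hpQ, add_zero]
  have hpd : p • (P - Q) = 0 := by rw [smul_sub, hpP, hpQ, sub_zero]
  have hmul := h.add_mul_sub hP hQ hne
  have hXQ : v (X Q) = 1 := by
    have : X Q = (X Q - X P) + X P := by ring
    rw [this, ← hXP]
    apply Valuation.map_add_eq_of_lt_right
    rw [hXP]; exact hcong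
  have h1 : v (X P * X Q - m) = 1 := by
    have : v (X P * X Q) = 1 := by rw [map_mul, hXP, hXQ, one_mul]
    rw [← this]
    apply Valuation.map_sub_eq_of_lt_left
    rw [this]; exact hm1
  have h2 := congrArg v hmul
  rw [map_pow v (X P * X Q - m), h1, one_pow] at h2
  have hcong' : v (X P - X Q) < 1 := by rw [Valuation.map_sub_swap]; exact hcong
  have h3 : v (X (P + Q) * X (P - Q) * (X P - X Q) ^ 2) < 1 := by
    apply lt1_mul_right v (le1_mul v (hI hs0 hps) (hI hd0 hpd))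
    rw [sq]; exact lt1_mul_left v hcong' hcong'.le
  exact h3.ne h2

/-- unit-type torsion points are fixed. -/
lemma fix_unit (hvp : v (p : K) = 1)
    (hZ1 : ∀ P, p • P = 0 → v (X P) ≤ 1 → v (Z P) ≤ 1)
    {P : G} (hP : P ≠ 0) (hpP : p • P = 0) (hXP : v (X P) = 1) : σG P = P := by
  have hI : ∀ {R : G}, R ≠ 0 → p • R = 0 → v (X R) ≤ 1 :=
    fun hR hpR => intX h hm1 hm0 hb hp hp2 hvp hR hpR
  have hQ := hσ0 P hP
  have hpQ : p • σG P = 0 := by rw [← map_nsmul, hpP, map_zero]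
  obtain ⟨hSX, hSZ⟩ := hS P hpP
  have hcong : v (X (σG P) - X P) < 1 := by rw [hσX]; exact hσI _ hSX hXP.le
  have hXeq := X_eq_of_congr_unit h hm1 hm0 hb hp hp2 hvp hP hpP hQ hpQ hXP hcong
  rcases (h.X_eq_iff hQ hP).1 hXeq.symm with h' | h'
  · exact h'
  · exfalso
    have hZ : σK (Z P) = Z P - Y P := by rw [← hσZ, h', h.Z_neg]
    have h1 := hσI _ hSZ (hZ1 P hpP hXP.le)
    rw [hZ] at h1
    have h2 : Z P - Y P - Z P = - Y P := by ring
    rw [h2, Valuation.map_neg] at h1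
    have hPP := add_self_ne_zero_of_prime hp hp2 hP hpP
    have hpPP : p • (P + P) = 0 := by rw [smul_add, hpP, add_zero]
    have hd := h.dbl hP hPP
    have h3 : v (X P ^ 2 - m) = 1 := by
      have : v (X P ^ 2) = 1 := by rw [map_pow, hXP, one_pow]
      rw [← this]
      apply Valuation.map_sub_eq_of_lt_left
      rw [this]; exact hm1
    have h4 := congrArg v hd
    rw [map_pow v (X P ^ 2 - m), h3, one_pow] at h4
    have h5 : v (X (P + P) * Y P ^ 2) < 1 := by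
      apply lt1_mul_right v (hI hPP hpPP)
      rw [sq]; exact lt1_mul_left v h1 h1.le
    exact h5.ne h4

/-- for node-type torsion points `σ P - P` is zero or of unit type. -/
lemma sub_unit_of_node (hvp : v (p : K) = 1)
    (hσv : ∀ x ∈ S, v (σK x) = v x)
    (hZ1 : ∀ P, p • P = 0 → v (X P) ≤ 1 → v (Z P) ≤ 1)
    (hZ2 : ∀ P, p • P = 0 → v m < v (X P) → v (X P) < 1 → v (Z P) ≤ v (X P))
    {P : G} (hP : P ≠ 0) (hpP : p • P = 0) (hXP : v (X P) < 1) :
    σG P = P ∨ v (X (σG P - P)) = 1 := by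
  have hI : ∀ {R : G}, R ≠ 0 → p • R = 0 → v (X R) ≤ 1 :=
    fun hR hpR => intX h hm1 hm0 hb hp hp2 hvp hR hpR
  have hQ := hσ0 P hP
  have hpQ : p • σG P = 0 := by rw [← map_nsmul, hpP, map_zero]
  obtain ⟨hSX, hSZ⟩ := hS P hpP
  have hN := node_gt h hm1 hm0 hb hp hp2 hP hpP hXP
  have hx0 : 0 < v (X P) := lt_of_le_of_lt zero_le hN
  have hvQ : v (X (σG P)) = v (X P) := by rw [hσX]; exact hσv _ hSX
  by_cases hne : X P = X (σG P)
  · left
    rcases (h.X_eq_iff hQ hP).1 hne.symm with h' | h'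
    · exact h'
    · exact absurd h' (sign_node h hm1 hm0 hb hp hp2 hσ0 hσX hσZ hσI hS hZ2 hP hpP hXP)
  right
  have hs0 : P + σG P ≠ 0 := by
    intro h0; apply hne
    have e1 : P = -σG P := eq_neg_of_add_eq_zero_left h0
    exact (congrArg X e1).trans (h.X_neg _)
  have hd0 : P - σG P ≠ 0 := by
    intro h0; apply hne; exact congrArg X (sub_eq_zero.mp h0)
  have hps : p • (P + σG P) = 0 := by rw [smul_add, hpP, hpQ, add_zero]
  have hpd : p • (P - σG P) = 0 := by rw [smul_sub, hpP, hpQ, sub_zero]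
  have hadd := h.add_add_sub hP hQ hne
  have hr1 := hI hs0 hps
  have hr2 := hI hd0 hpd
  have h3 := L1 hb hN hXP (by rw [hvQ]; exact hN) (by rw [hvQ]; exact hXP)
  rw [← hadd, map_mul, map_pow, hvQ] at h3
  have hd : v (X P - X (σG P)) ≤ v (X P) := Valuation.map_sub_le v le_rfl hvQ.le
  have hsum : v (X (P + σG P) + X (P - σG P)) = 1 := by
    apply le_antisymm (le1_add v hr1 hr2)
    by_contra hlt
    push Not at hlt
    have : v (X (P + σG P) + X (P - σG P)) * v (X P - X (σG P)) ^ 2 < v (X P) * v (X P) := by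
      calc v (X (P + σG P) + X (P - σG P)) * v (X P - X (σG P)) ^ 2
          ≤ v (X (P + σG P) + X (P - σG P)) * v (X P) ^ 2 := by gcongr
        _ < 1 * v (X P) ^ 2 := by
            have : 0 < v (X P) ^ 2 := pow_pos hx0 2
            gcongr
        _ = v (X P) * v (X P) := by rw [one_mul, sq]
    exact this.ne h3
  have e : σG P - P = -(P - σG P) := by abel
  rw [e, h.X_neg]
  by_contra hcon
  have hr2' : v (X (P - σG P)) < 1 := lt_of_le_of_ne hr2 hcon
  have hr1' : v (X (P + σG P)) = 1 := by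
    apply le_antisymm hr1
    by_contra hlt
    push Not at hlt
    exact (lt1_add v hlt hr2').ne hsum
  have hfix := fix_unit h hm1 hm0 hb hp hp2 hσ0 hσX hσZ hσI hS hvp hZ1 hs0 hps hr1'
  rw [map_add] at hfix
  have hσσ : σG (σG P) = P := by
    have : σG P + σG (σG P) = σG P + P := by rw [hfix]; abel
    exact add_left_cancel this
  have hneg : σG (P - σG P) = -(P - σG P) := by
    rw [map_sub, hσσ]; abel
  exact sign_node h hm1 hm0 hb hp hp2 hσ0 hσX hσZ hσI hS hZ2 hd0 hpd hr2' hneg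

/-- inertia acts unipotently on the `p`-torsion (multiplicative reduction, residue char `≠ p`). -/
theorem unipotent_mult (hvp : v (p : K) = 1)
    (hσv : ∀ x ∈ S, v (σK x) = v x)
    (hZ1 : ∀ P, p • P = 0 → v (X P) ≤ 1 → v (Z P) ≤ 1)
    (hZ2 : ∀ P, p • P = 0 → v m < v (X P) → v (X P) < 1 → v (Z P) ≤ v (X P))
    {P : G} (hpP : p • P = 0) : σG (σG P - P) = σG P - P := by
  by_cases hP : P = 0
  · subst hP; simp
  have hpQ : p • σG P = 0 := by rw [← map_nsmul, hpP, map_zero]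
  have hx := intX h hm1 hm0 hb hp hp2 hvp hP hpP
  rcases lt_or_eq_of_le hx with hlt | heq
  · rcases sub_unit_of_node h hm1 hm0 hb hp hp2 hσ0 hσX hσZ hσI hS hvp hσv hZ1 hZ2 hP hpP hlt
      with h1 | h1
    · rw [h1]; simp
    · have hD0 : σG P - P ≠ 0 := by
        intro h0; rw [h0, h.X_zero, map_zero] at h1; exact zero_ne_one h1
      have hpD : p • (σG P - P) = 0 := by rw [smul_sub, hpQ, hpP, sub_zero]
      exact fix_unit h hm1 hm0 hb hp hp2 hσ0 hσX hσZ hσI hS hvp hZ1 hD0 hpD h1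
  · rw [fix_unit h hm1 hm0 hb hp hp2 hσ0 hσX hσZ hσI hS hvp hZ1 hP hpP heq]; simp

end Fermat.Agent.S13
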