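import Fermat.Agent.S13.LocalE
import Fermat.Agent.S05.Rel

set_option autoImplicit false
set_option linter.unusedSectionVars false
set_option linter.unusedVariables false

namespace Fermat.Agent.S13

open Fermat.Agent.S05

variable {K : Type*} [Field K] {Γ₀ : Type*} [LinearOrderedCommGroupWithZero Γ₀]
  {v : Valuation K Γ₀} {m b₂ : K}

/-- valuation of the numerator of the sum formula, ordered version -/
lemma L1_aux (hb : v b₂ = 1) {x y : K}
    (hx1 : v x < 1) (hy : v m < v y) (hyx : v y ≤ v x) :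
    v (2 * (x + y) * (m + x * y) + b₂ * (x * y)) = v x * v y := by
  have hy0 : 0 < v y := lt_of_le_of_lt zero_le hy
  have hx0 : 0 < v x := lt_of_lt_of_le hy0 hyx
  have hB : v (b₂ * (x * y)) = v x * v y := by
    rw [map_mul, map_mul, hb, one_mul]
  have h3 : v (m + x * y) < v y := by
    apply Valuation.map_add_lt
    · exact hy
    · rw [map_mul]
      calc v x * v y < 1 * v y := by gcongr
        _ = v y := one_mul _
  have h4 : v (x + y) ≤ v x := Valuation.map_add_le v le_rfl hyx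
  have h2 : v (2 : K) ≤ 1 := le1_ofNat v 2
  have hA : v (2 * (x + y) * (m + x * y)) < v x * v y := by
    rw [map_mul, map_mul]
    calc v 2 * v (x + y) * v (m + x * y) ≤ 1 * v x * v (m + x * y) := by gcongr
      _ = v x * v (m + x * y) := by rw [one_mul]
      _ < v x * v y := by gcongr
  rw [← hB]
  apply Valuation.map_add_eq_of_lt_right
  rw [hB]; exact hA

lemma L1 (hb : v b₂ = 1) {x y : K}
    (hx : v m < v x) (hx1 : v x < 1) (hy : v m < v y) (hy1 : v y < 1) :
    v (2 * (x + y) * (m + x * y) + b₂ * (x * y)) = v x * v y := by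
  rcases le_total (v y) (v x) with hyx | hxy
  · exact L1_aux hb hx1 hy hyx
  · have := L1_aux hb hy1 hx hxy
    rw [add_comm y x, mul_comm y x, mul_comm (v y)] at this
    exact this

/-- injectivity of the valuation -/
lemma inj_aux (hb : v b₂ = 1) {x y r₁ r₂ : K}
    (hx : v m < v x) (hx1 : v x < 1) (hy : v m < v y) (hy1 : v y < 1)
    (hr₁ : v r₁ < 1) (hr₂ : v r₂ < 1)
    (hadd : (r₁ + r₂) * (x - y) ^ 2 = 2 * (x + y) * (m + x * y) + b₂ * (x * y)) :
    v x ≠ v y := by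
  intro hxy
  have h1 := L1 hb hx hx1 hy hy1
  rw [← hadd, map_mul, map_pow, ← hxy] at h1
  have hx0 : 0 < v x := lt_of_le_of_lt zero_le hx
  have h3 : v (x - y) ≤ v x := Valuation.map_sub_le v le_rfl hxy.symm.le
  have h4 : v (r₁ + r₂) < 1 := lt1_add v hr₁ hr₂
  have hx02 : 0 < v x ^ 2 := pow_pos hx0 2
  have h5 : v (r₁ + r₂) * v (x - y) ^ 2 < v x * v x := by
    calc v (r₁ + r₂) * v (x - y) ^ 2 ≤ v (r₁ + r₂) * v x ^ 2 := by gcongr
      _ < 1 * v x ^ 2 := by gcongr
      _ = v x * v x := by rw [one_mul, sq]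
  exact absurd h1 h5.ne

lemma lemR_aux (hb : v b₂ = 1) {x y r₁ r₂ : K}
    (hx1 : v x < 1) (hy : v m < v y) (hyx : v y < v x) (hr₂ : v m < v r₂) (hr : v r₂ < v r₁)
    (hadd : (r₁ + r₂) * (x - y) ^ 2 = 2 * (x + y) * (m + x * y) + b₂ * (x * y))
    (hmul : r₁ * r₂ * (x - y) ^ 2 = (x * y - m) ^ 2) :
    v r₁ = v y / v x ∧ (v r₂ = v x * v y ∨ v r₂ = (v x * v y)⁻¹ * v m ^ 2) := by
  have hy0 : 0 < v y := lt_of_le_of_lt zero_le hy
  have hx0 : 0 < v x := lt_trans hy0 hyx
  have hx0' : v x ≠ 0 := hx0.ne'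
  have hy0' : v y ≠ 0 := hy0.ne'
  have hd : v (x - y) = v x := Valuation.map_sub_eq_of_lt_left v hyx
  have hs : v (r₁ + r₂) = v r₁ := Valuation.map_add_eq_of_lt_left v hr
  have h1 := L1 hb (lt_trans hy hyx) hx1 hy (lt_trans hyx hx1)
  rw [← hadd, map_mul, map_pow, hd, hs] at h1
  have hr1 : v r₁ = v y / v x := by
    field_simp
    rw [sq] at h1
    have : (v r₁ * v x) * v x = v y * v x := by rw [mul_assoc, h1, mul_comm]
    exact mul_right_cancel₀ hx0' this
  refine ⟨hr1, ?_⟩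
  have h3 := congrArg v hmul
  rw [map_mul, map_mul, map_pow, map_pow, hd, hr1] at h3
  have h4 : v x * v y * v r₂ = v (x * y - m) ^ 2 := by
    rw [← h3]; field_simp
  rcases lt_trichotomy (v x * v y) (v m) with hlt | heq | hgt
  · right
    have h5 : v (x * y - m) = v m := by
      apply Valuation.map_sub_eq_of_lt_right
      rw [map_mul]; exact hlt
    rw [h5] at h4
    rw [← h4]; field_simp
  · exfalso
    have h5 : v (x * y - m) ≤ v m := by
      apply Valuation.map_sub_le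
      · rw [map_mul]; exact heq.le
      · exact le_rfl
    have hα0 : 0 < v m := by rw [← heq]; exact mul_pos hx0 hy0
    have h6 : v m * v r₂ ≤ v m * v m := by
      rw [heq] at h4
      rw [h4, ← sq]
      gcongr
    have h7 : v r₂ ≤ v m := le_of_mul_le_mul_left h6 hα0
    exact absurd hr₂ (not_lt.mpr h7)
  · left
    have h5 : v (x * y - m) = v x * v y := by
      rw [← map_mul]
      apply Valuation.map_sub_eq_of_lt_left
      rw [map_mul]; exact hgt
    rw [h5, sq] at h4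
    exact mul_left_cancel₀ (mul_ne_zero hx0' hy0') h4

lemma lemR_aux2 (hb : v b₂ = 1) {x y r₁ r₂ : K}
    (hx1 : v x < 1) (hy : v m < v y) (hyx : v y < v x) (hr₂ : v m < v r₂) (hr : v r₂ < v r₁)
    (hadd : (r₁ + r₂) * (x - y) ^ 2 = 2 * (x + y) * (m + x * y) + b₂ * (x * y))
    (hmul : r₁ * r₂ * (x - y) ^ 2 = (x * y - m) ^ 2) :
    Rel (v m) (v r₁) (v x / v y) ∧ Rel (v m) (v r₂) (v x * v y) := by
  obtain ⟨h1, h3⟩ := lemR_aux hb hx1 hy hyx hr₂ hr hadd hmul
  constructor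
  · refine ⟨0, Or.inr ?_⟩
    rw [h1]; simp
  · rcases h3 with h3 | h3
    · exact Rel.of_eq h3
    · refine ⟨1, Or.inr ?_⟩
      rw [h3]; norm_num

lemma lemR_aux3 (hb : v b₂ = 1) {x y r₁ r₂ : K}
    (hx : v m < v x) (hx1 : v x < 1) (hy : v m < v y) (hy1 : v y < 1)
    (hr₂ : v m < v r₂) (hxy : v x ≠ v y) (hr : v r₂ < v r₁)
    (hadd : (r₁ + r₂) * (x - y) ^ 2 = 2 * (x + y) * (m + x * y) + b₂ * (x * y))
    (hmul : r₁ * r₂ * (x - y) ^ 2 = (x * y - m) ^ 2) :
    Rel (v m) (v r₁) (v x / v y) ∧ Rel (v m) (v r₂) (v x * v y) := by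
  rcases lt_or_gt_of_ne hxy with hlt | hgt
  · have hadd' : (r₁ + r₂) * (y - x) ^ 2 = 2 * (y + x) * (m + y * x) + b₂ * (y * x) := by
      linear_combination hadd
    have hmul' : r₁ * r₂ * (y - x) ^ 2 = (y * x - m) ^ 2 := by linear_combination hmul
    obtain ⟨h1, h3⟩ := lemR_aux2 hb hy1 hx hlt hr₂ hr hadd' hmul'
    refine ⟨?_, ?_⟩
    · have := h1.inv_right
      rwa [inv_div] at this
    · rwa [mul_comm] at h3
  · exact lemR_aux2 hb hx1 hy hgt hr₂ hr hadd hmul

lemma lemR (hb : v b₂ = 1) {x y r₁ r₂ : K}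
    (hx : v m < v x) (hx1 : v x < 1) (hy : v m < v y) (hy1 : v y < 1)
    (hr₁ : v m < v r₁) (hr₂ : v m < v r₂) (hxy : v x ≠ v y) (hr : v r₁ ≠ v r₂)
    (hadd : (r₁ + r₂) * (x - y) ^ 2 = 2 * (x + y) * (m + x * y) + b₂ * (x * y))
    (hmul : r₁ * r₂ * (x - y) ^ 2 = (x * y - m) ^ 2) :
    (Rel (v m) (v r₁) (v x / v y) ∧ Rel (v m) (v r₂) (v x * v y)) ∨
    (Rel (v m) (v r₂) (v x / v y) ∧ Rel (v m) (v r₁) (v x * v y)) := by
  rcases lt_or_gt_of_ne hr with hlt | hgt
  · right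
    have hadd' : (r₂ + r₁) * (x - y) ^ 2 = 2 * (x + y) * (m + x * y) + b₂ * (x * y) := by
      linear_combination hadd
    have hmul' : r₂ * r₁ * (x - y) ^ 2 = (x * y - m) ^ 2 := by linear_combination hmul
    exact lemR_aux3 hb hx hx1 hy hy1 hr₁ hxy hlt hadd' hmul'
  · left
    exact lemR_aux3 hb hx hx1 hy hy1 hr₂ hxy hgt hadd hmul

/-- valuation of `Y²` at a point near the node -/
lemma v_f_node (hb : v b₂ = 1) {x : K} (hx : v m < v x) (hx1 : v x < 1) :
    v (4 * x ^ 3 + b₂ * x ^ 2 + 4 * m * x) = v x ^ 2 := by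
  have hx0 : 0 < v x := lt_of_le_of_lt zero_le hx
  have h4 : v (4 : K) ≤ 1 := le1_ofNat v 4
  have hB : v (b₂ * x ^ 2) = v x ^ 2 := by rw [map_mul, map_pow, hb, one_mul]
  have hA : v (4 * x ^ 3) < v x ^ 2 := by
    rw [map_mul, map_pow]
    calc v 4 * v x ^ 3 ≤ 1 * v x ^ 3 := by gcongr
      _ = v x * v x ^ 2 := by rw [one_mul, ← pow_succ']
      _ < 1 * v x ^ 2 := by
          have : 0 < v x ^ 2 := pow_pos hx0 2
          gcongr
      _ = v x ^ 2 := one_mul _
  have hC : v (4 * m * x) < v x ^ 2 := by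
    rw [map_mul, map_mul]
    calc v 4 * v m * v x ≤ 1 * v m * v x := by gcongr
      _ = v m * v x := by rw [one_mul]
      _ < v x * v x := by gcongr
      _ = v x ^ 2 := (sq _).symm
  have h1 : v (4 * x ^ 3 + b₂ * x ^ 2) = v x ^ 2 := by
    rw [← hB]; apply Valuation.map_add_eq_of_lt_right; rw [hB]; exact hA
  rw [← h1]
  apply Valuation.map_add_eq_of_lt_left
  rw [h1]; exact hC

/-- the duplication version -/
lemma lemR_dbl (hb : v b₂ = 1) {x r : K}
    (hx : v m < v x) (hx1 : v x < 1) (hr : v m < v r)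
    (hdbl : r * (4 * x ^ 3 + b₂ * x ^ 2 + 4 * m * x) = (x ^ 2 - m) ^ 2) :
    Rel (v m) (v r) (v x ^ 2) := by
  have hx0 : 0 < v x := lt_of_le_of_lt zero_le hx
  have hx0' : v x ≠ 0 := hx0.ne'
  have h7 := congrArg v hdbl
  rw [map_mul, map_pow, v_f_node hb hx hx1] at h7
  rcases lt_trichotomy (v x ^ 2) (v m) with hlt | heq | hgt
  · have h8 : v (x ^ 2 - m) = v m := by
      apply Valuation.map_sub_eq_of_lt_right
      rw [map_pow]; exact hlt
    rw [h8] at h7
    refine ⟨1, Or.inr ?_⟩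
    have : v r = (v x ^ 2)⁻¹ * v m ^ 2 := by
      rw [← h7]; field_simp
    rw [this]; norm_num
  · exfalso
    have h8 : v (x ^ 2 - m) ≤ v m := by
      apply Valuation.map_sub_le
      · rw [map_pow]; exact heq.le
      · exact le_rfl
    have hα0 : 0 < v m := by rw [← heq]; exact pow_pos hx0 2
    have h9 : v m * v r ≤ v m * v m := by
      rw [heq] at h7
      rw [mul_comm, h7, ← sq]
      gcongr
    exact absurd hr (not_lt.mpr (le_of_mul_le_mul_left h9 hα0))
  · have h8 : v (x ^ 2 - m) = v x ^ 2 := by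
      rw [← map_pow]
      apply Valuation.map_sub_eq_of_lt_left
      rw [map_pow]; exact hgt
    rw [h8] at h7
    apply Rel.of_eq
    have h9 : v r * v x ^ 2 = v x ^ 2 * v x ^ 2 := by rw [h7, sq (v x ^ 2)]
    exact mul_right_cancel₀ (pow_ne_zero 2 hx0') h9

end Fermat.Agent.S13
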