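import Fermat.Agent.S13.Ward

set_option autoImplicit false

namespace Fermat.Agent.S13

open Polynomial WeierstrassCurve

variable {K : Type*} [Field K] (W : WeierstrassCurve K)

lemma wseq_eq_eval_preΨ {x y : K} (h : W.toAffine.Equation x y) (n : ℤ) :
    wseq W.toAffine x y n =
      (W.preΨ n).eval x * if Even n then b2 W.toAffine x y else 1 := by
  unfold wseq normEDS WeierstrassCurve.preΨ
  rw [← coe_evalRingHom, map_preNormEDS]
  congr 2
  · rw [show b2 W.toAffine x y ^ 4 = (b2 W.toAffine x y ^ 2) ^ 2 by ring, b2_sq h]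
    simp [Ψ₂Sq]
  · simp [Ψ₃, c3]
  · simp [preΨ₄, d4]

lemma wseq_odd {x y : K} (h : W.toAffine.Equation x y) {n : ℕ} (hn : Odd n) :
    wseq W.toAffine x y n = (W.preΨ n).eval x := by
  rw [wseq_eq_eval_preΨ W h, if_neg (by simpa using hn), mul_one]

/-- every `x` is the abscissa of a point over an algebraically closed field. -/
lemma exists_equation [IsAlgClosed K] (x : K) : ∃ y, W.toAffine.Equation x y := by
  obtain ⟨y, hy⟩ := IsAlgClosed.exists_root
    (X ^ 2 + C (W.a₁ * x + W.a₃) * X - C (x ^ 3 + W.a₂ * x ^ 2 + W.a₄ * x + W.a₆) : K[X])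
    (by
      have : (X ^ 2 + C (W.a₁ * x + W.a₃) * X - C (x ^ 3 + W.a₂ * x ^ 2 + W.a₄ * x + W.a₆) :
        K[X]).degree = 2 := by compute_degree!
      rw [this]; norm_num)
  refine ⟨y, (Affine.equation_iff _ _).2 ?_⟩
  simp [IsRoot] at hy
  linear_combination hy

variable [CharZero K] [DecidableEq K]

theorem exists_torsion_point [IsAlgClosed K] (hΔ : W.Δ ≠ 0) {n : ℕ} (hn : Odd n) (hn2 : 2 < n) :
    ∃ P : W.toAffine.Point, P ≠ 0 ∧ n • P = 0 := by
  obtain ⟨x, hx⟩ := IsAlgClosed.exists_root (W.preΨ n)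
    (by
      have := W.natDegree_preΨ_pos (n := n) (by simpa using hn2) (by simpa using (by omega : n ≠ 0))
      exact (natDegree_pos_iff_degree_pos.1 this).ne')
  obtain ⟨y, hy⟩ := exists_equation W x
  have hns := (Affine.equation_iff_nonsingular_of_Δ_ne_zero hΔ).1 hy
  refine ⟨Affine.Point.some x y hns, Affine.Point.some_ne_zero _, ?_⟩
  apply nsmul_eq_zero_of_wseq W hΔ hns n (by omega)
  rw [wseq_odd W hy hn]
  exact hx

omit [CharZero K] in
theorem eval_preΨ_eq_zero {p : ℕ} (hp : p.Prime) (hp2 : p ≠ 2) {x y : K}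
    (h : W.toAffine.Nonsingular x y) (h0 : p • Affine.Point.some x y h = 0) :
    (W.preΨ p).eval x = 0 := by
  rw [← wseq_odd W h.1 (hp.odd_of_ne_two hp2)]
  refine (wseq_eq_zero_iff h (N := p) ?_ hp.pos).2 h0
  intro k hk hkp hk0
  have hcop : Nat.Coprime k p := (Nat.coprime_of_lt_prime hk.ne' hkp hp).symm
  have h1 : (1 : ℕ) • Affine.Point.some x y h = 0 := by
    have := addOrderOf_dvd_of_nsmul_eq_zero hk0
    have h2 := addOrderOf_dvd_of_nsmul_eq_zero h0
    have h3 := Nat.dvd_gcd this h2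
    rw [hcop] at h3
    exact addOrderOf_dvd_iff_nsmul_eq_zero.1 h3
  rw [one_nsmul] at h1
  exact Affine.Point.some_ne_zero _ h1

end Fermat.Agent.S13
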