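import Fermat.Agent.S13.XbE0

/-!
# S13 / A2: the curve `y² + x y = x³ + a₂ x² + κ x` in residue characteristic `2`, multiplicative reduction
Abstract setting: `v 2 < 1`, `v a₂ ≤ 1`, `v κ < 1`, `κ ≠ 0`, `p` an odd prime with `v p = 1`.
`b = 1 + 4 a₂` is a unit.  All `p`-torsion points have integral `x` (`IsXb.claimA`) hence integral `y`.
-/

set_option autoImplicit false
set_option linter.unusedSectionVars false
set_option linter.unusedVariables false

namespace Fermat.Agent.S13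

open Fermat.Agent.S05

variable {G : Type*} [AddCommGroup G] {K : Type*} [Field K]
  {Γ₀ : Type*} [LinearOrderedCommGroupWithZero Γ₀]

structure IsFreyXY (x y : G → K) (a₂ κ : K) : Prop where
  toXb : IsXb x (1 + 4 * a₂) κ
  eqn : ∀ {P : G}, P ≠ 0 → y P ^ 2 + x P * y P = x P ^ 3 + a₂ * x P ^ 2 + κ * x P
  y_neg : ∀ {P : G}, P ≠ 0 → y (-P) = - y P - x P
  sub : ∀ {P Q : G}, P ≠ 0 → Q ≠ 0 → x P ≠ x Q →
    x (P - Q) * (x P - x Q) ^ 2 = (x P + x Q) * (x P * x Q + κ) + (1 + 2 * a₂) * (x P * x Q)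
      + 2 * (y P * y Q) + x P * y Q + x Q * y P

variable {v : Valuation K Γ₀} {x y : G → K} {a₂ κ : K}

/-! ### Small valuation lemmas -/

theorem twoAbs_mul_lt_one {a c : K} (ha : v a < 1) (hc : v c ≤ 1) : v (a * c) < 1 := by
  rw [map_mul]
  exact mul_lt_one_of_lt_of_le ha hc

theorem twoAbs_mul_le_one {a c : K} (ha : v a ≤ 1) (hc : v c ≤ 1) : v (a * c) ≤ 1 := by
  rw [map_mul]
  exact mul_le_one' ha hc

theorem twoAbs_four_lt (h2 : v (2 : K) < 1) : v (4 : K) < 1 := by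
  have : (4 : K) = 2 * 2 := by norm_num
  rw [this]
  exact twoAbs_mul_lt_one h2 h2.le

theorem twoAbs_vb (ha₂ : v a₂ ≤ 1) (h2 : v (2 : K) < 1) : v (1 + 4 * a₂) = 1 :=
  Valuation.map_one_add_of_lt v (twoAbs_mul_lt_one (twoAbs_four_lt h2) ha₂)

/-- a root `w` of `w² + c w = r` with `c`, `r` integral is integral. -/
theorem twoAbs_integral_of_quadratic {w c r : K} (hc : v c ≤ 1) (hr : v r ≤ 1)
    (he : w ^ 2 + c * w = r) : v w ≤ 1 := by
  by_contra hw
  push Not at hw
  have h1 : v (w + c) = v w := Valuation.map_add_eq_of_lt_left v (lt_of_le_of_lt hc hw)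
  have h2 : v r = v w * v w := by
    rw [← he, show w ^ 2 + c * w = w * (w + c) by ring, map_mul, h1]
  have h3 : 1 < v w * v w := by
    calc (1 : Γ₀) < v w := hw
      _ = v w * 1 := (mul_one _).symm
      _ ≤ v w * v w := by gcongr
  rw [← h2] at h3
  exact absurd hr (not_le.mpr h3)

theorem IsFreyXY.y_integral (h : IsFreyXY x y a₂ κ) (ha₂ : v a₂ ≤ 1) (hκ : v κ < 1) {P : G}
    (hP : P ≠ 0) (hx : v (x P) ≤ 1) : v (y P) ≤ 1 := by
  refine twoAbs_integral_of_quadratic hx ?_ (h.eqn hP)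
  refine Valuation.map_add_le v (Valuation.map_add_le v ?_ ?_) ?_
  · rw [map_pow]; exact pow_le_one' hx 3
  · refine twoAbs_mul_le_one ha₂ ?_
    rw [map_pow]; exact pow_le_one' hx 2
  · exact twoAbs_mul_le_one hκ.le hx

section

variable (h : IsFreyXY x y a₂ κ) (ha₂ : v a₂ ≤ 1) (hκ : v κ < 1) (hκ0 : κ ≠ 0) (h2 : v (2 : K) < 1)
  {p : ℕ} (hp : p.Prime) (hp2 : p ≠ 2) (hvp : v (p : K) = 1)

include h ha₂ hκ hκ0 h2 hp hp2 hvp

theorem IsFreyXY.x_integral {P : G} (hP : P ≠ 0) (hpP : p • P = 0) : v (x P) ≤ 1 :=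
  h.toXb.claimA (twoAbs_vb ha₂ h2).le hκ.le hp hp2 hvp hP hpP

/-- T0: congruent torsion points with unit abscissa are equal.
PROOF. `x₁ ≠ x₂`: RHS of `sub` is congruent to its value at `(x₂,y₂) = (x₁,y₁)`, which is (use `eqn`)
`x₁ (4 x₁² + b x₁ + 4 κ) ≡ b x₁²`, a unit; `v (x₁-x₂) < 1`; so `1 < v (x (P-Q))`, contradicting `claimA` for `P - Q`.
`x₁ = x₂`: `Q = P` or `Q = -P`; then `y₂ = -y₁-x₁`, so `v (2 y₁ + x₁) < 1`, so `v x₁ < 1`: contradiction. -/
theorem IsFreyXY.eq_of_cong {P Q : G} (hP : P ≠ 0) (hpP : p • P = 0) (hQ : Q ≠ 0) (hpQ : p • Q = 0)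
    (hx : v (x P) = 1) (hcx : v (x Q - x P) < 1) (hcy : v (y Q - y P) < 1) : P = Q := by
  have hy1 : v (y P) ≤ 1 := h.y_integral ha₂ hκ hP hx.le
  have h4 := twoAbs_four_lt (v := v) h2
  by_cases hxx : x P = x Q
  · rcases (h.toXb.X_eq_iff hP hQ).mp hxx with h1 | h1
    · exact h1
    · exfalso
      have hQP : Q = -P := by rw [h1, neg_neg]
      rw [hQP, h.y_neg hP] at hcy
      have h3 : v (x P) < 1 := by
        have : x P = -(-y P - x P - y P) - 2 * y P := by ring
        rw [this]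
        refine Valuation.map_sub_lt v ?_ (twoAbs_mul_lt_one h2 hy1)
        rw [Valuation.map_neg]; exact hcy
      exact absurd hx h3.ne
  · exfalso
    have hPQ : P - Q ≠ 0 := by
      intro h0
      exact hxx (by rw [sub_eq_zero.mp h0])
    have hpPQ : p • (P - Q) = 0 := by rw [smul_sub, hpP, hpQ, sub_zero]
    have hint := h.x_integral ha₂ hκ hκ0 h2 hp hp2 hvp hPQ hpPQ
    have hs := h.sub hP hQ hxx
    have he := h.eqn hP
    -- the right-hand side is a unit
    have hR : (x P + x Q) * (x P * x Q + κ) + (1 + 2 * a₂) * (x P * x Q)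
        + 2 * (y P * y Q) + x P * y Q + x Q * y P
        = (1 + 4 * a₂) * x P ^ 2 + (4 * (x P ^ 3 + κ * x P)
          + ((x Q - x P) * (x P ^ 2 + x P * (x Q - x P) + κ + 2 * x P ^ 2 + (1 + 2 * a₂) * x P + y P)
          + (y Q - y P) * (2 * y P + x P))) := by
      linear_combination (2 : K) * he
    have hx2 : v (x P ^ 2) = 1 := by rw [map_pow, hx, one_pow]
    have hx3 : v (x P ^ 3) = 1 := by rw [map_pow, hx, one_pow]
    have hmain : v ((1 + 4 * a₂) * x P ^ 2) = 1 := by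
      rw [map_mul, twoAbs_vb ha₂ h2, hx2, one_mul]
    have h2a : v (1 + 2 * a₂) ≤ 1 :=
      (Valuation.map_one_add_of_lt v (twoAbs_mul_lt_one h2 ha₂)).le
    have hsmall : v (4 * (x P ^ 3 + κ * x P)
          + ((x Q - x P) * (x P ^ 2 + x P * (x Q - x P) + κ + 2 * x P ^ 2 + (1 + 2 * a₂) * x P + y P)
          + (y Q - y P) * (2 * y P + x P))) < 1 := by
      refine Valuation.map_add_lt v ?_ (Valuation.map_add_lt v ?_ ?_)
      · exact twoAbs_mul_lt_one h4
          (Valuation.map_add_le v hx3.le (twoAbs_mul_le_one hκ.le hx.le))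
      · refine twoAbs_mul_lt_one hcx ?_
        refine Valuation.map_add_le v (Valuation.map_add_le v (Valuation.map_add_le v
          (Valuation.map_add_le v (Valuation.map_add_le v hx2.le ?_) hκ.le) ?_) ?_) hy1
        · exact twoAbs_mul_le_one hx.le hcx.le
        · exact twoAbs_mul_le_one h2.le hx2.le
        · exact twoAbs_mul_le_one h2a hx.le
      · exact twoAbs_mul_lt_one hcy
          (Valuation.map_add_le v (twoAbs_mul_le_one h2.le hy1) hx.le)
    have hRv : v (x (P - Q) * (x P - x Q) ^ 2) = 1 := by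
      rw [hs, hR, ← hmain]
      exact Valuation.map_add_eq_of_lt_left v (by rw [hmain]; exact hsmall)
    rw [map_mul, map_pow, Valuation.map_sub_swap] at hRv
    have h5 : v (x Q - x P) ^ 2 < 1 := pow_lt_one₀ zero_le hcx (by norm_num)
    have h6 : v (x (P - Q)) * v (x Q - x P) ^ 2 < 1 := by
      rw [mul_comm]
      exact mul_lt_one_of_lt_of_le h5 hint
    exact absurd hRv h6.ne

/-- T1: two torsion points on the same branch of the node, with abscissas of the same valuation, differ by a point with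
unit abscissa.
PROOF. `t = v x₁ = v x₂ < 1`, `v κ < t` (`IsXb.claimN`), `wᵢ = yᵢ/xᵢ` is integral (`wᵢ² + wᵢ = xᵢ + a₂ + κ/xᵢ`).
`x₁ = x₂`: `Q = P` or `Q = -P`, the latter gives `w₂ = -w₁-1`, `v (2 w₁ + 1) < 1`, absurd as `v 2 < 1`.
`x₁ ≠ x₂`: RHS of `sub` `= (x₁+x₂)(x₁x₂+κ) + x₁x₂ (1 + 2a₂ + 2w₁w₂ + w₁ + w₂)`; the bracket is `≡ 1 + 2 w₁ ≡ 1`; the first term has
valuation `≤ t max(t², v κ) < t²`.  So `v (x(P-Q)) v(x₁-x₂)² = t²` with `v (x₁-x₂) ≤ t`: `1 ≤ v (x (P-Q))`; `≤ 1` by `claimA`. -/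
theorem IsFreyXY.slope_integral {P : G} (hP : P ≠ 0) (hpP : p • P = 0) (hxP : v (x P) < 1) :
    x P ≠ 0 ∧ v κ < v (x P) ∧ v (y P / x P) ≤ 1 := by
  have hN := h.toXb.claimN (twoAbs_vb ha₂ h2).le hκ hκ0 hp hp2 hP hpP hxP
  have hx0 : x P ≠ 0 := by
    intro h0
    rw [h0, map_zero] at hN
    exact absurd hN (not_lt.mpr zero_le)
  refine ⟨hx0, hN, ?_⟩
  have he := h.eqn hP
  have hw : (y P / x P) ^ 2 + 1 * (y P / x P) = x P + a₂ + κ / x P := by
    field_simp
    linear_combination he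
  refine twoAbs_integral_of_quadratic (by rw [map_one]) ?_ hw
  refine Valuation.map_add_le v (Valuation.map_add_le v hxP.le ha₂) ?_
  rw [map_div₀]
  exact (div_le_one₀ (lt_of_le_of_lt zero_le hN)).mpr hN.le

theorem IsFreyXY.sub_unit_of_node {P Q : G} (hP : P ≠ 0) (hpP : p • P = 0) (hQ : Q ≠ 0)
    (hpQ : p • Q = 0) (hxP : v (x P) < 1) (hxQ : v (x Q) = v (x P))
    (hw : v (y Q / x Q - y P / x P) < 1) : P = Q ∨ v (x (P - Q)) = 1 := by
  obtain ⟨hx1, hN1, hw1⟩ := h.slope_integral ha₂ hκ hκ0 h2 hp hp2 hvp hP hpP hxP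
  obtain ⟨hx2, hN2, hw2⟩ := h.slope_integral ha₂ hκ hκ0 h2 hp hp2 hvp hQ hpQ (hxQ ▸ hxP)
  by_cases hxx : x P = x Q
  · rcases (h.toXb.X_eq_iff hP hQ).mp hxx with h1 | h1
    · exact Or.inl h1
    · exfalso
      have hQP : Q = -P := by rw [h1, neg_neg]
      have hxn : x (-P) = x P := h.toXb.X_neg P
      rw [hQP, h.y_neg hP, hxn] at hw
      have h3 : (-y P - x P) / x P - y P / x P = -(1 + 2 * (y P / x P)) := by
        field_simp
        ring
      rw [h3, Valuation.map_neg, Valuation.map_one_add_of_lt v (twoAbs_mul_lt_one h2 hw1)] at hw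
      exact absurd hw (lt_irrefl _)
  · right
    have hPQ : P - Q ≠ 0 := by
      intro h0
      exact hxx (by rw [sub_eq_zero.mp h0])
    have hpPQ : p • (P - Q) = 0 := by rw [smul_sub, hpP, hpQ, sub_zero]
    have hint := h.x_integral ha₂ hκ hκ0 h2 hp hp2 hvp hPQ hpPQ
    refine le_antisymm hint ?_
    have hs := h.sub hP hQ hxx
    set t := v (x P) with ht
    have ht0 : 0 < t := lt_of_le_of_lt zero_le hN1
    have hR : (x P + x Q) * (x P * x Q + κ) + (1 + 2 * a₂) * (x P * x Q)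
        + 2 * (y P * y Q) + x P * y Q + x Q * y P
        = (x P * x Q) * (1 + (2 * a₂ + 2 * (y P / x P * (y Q / x Q)) + 2 * (y P / x P)
            + (y Q / x Q - y P / x P)))
          + (x P + x Q) * (x P * x Q + κ) := by
      field_simp
      ring
    have hB : v (1 + (2 * a₂ + 2 * (y P / x P * (y Q / x Q)) + 2 * (y P / x P)
            + (y Q / x Q - y P / x P))) = 1 := by
      refine Valuation.map_one_add_of_lt v ?_
      refine Valuation.map_add_lt v (Valuation.map_add_lt v (Valuation.map_add_lt v ?_ ?_) ?_) hw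
      · exact twoAbs_mul_lt_one h2 ha₂
      · exact twoAbs_mul_lt_one h2 (twoAbs_mul_le_one hw1 hw2)
      · exact twoAbs_mul_lt_one h2 hw1
    have hmain : v ((x P * x Q) * (1 + (2 * a₂ + 2 * (y P / x P * (y Q / x Q)) + 2 * (y P / x P)
            + (y Q / x Q - y P / x P)))) = t * t := by
      rw [map_mul, hB, mul_one, map_mul, hxQ]
    have h7 : v (x P * x Q + κ) < t := by
      refine Valuation.map_add_lt v ?_ hN1
      rw [map_mul, hxQ]
      calc t * t < 1 * t := by gcongr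
        _ = t := one_mul _
    have h8 : v (x P + x Q) ≤ t := Valuation.map_add_le v le_rfl hxQ.le
    have hsmall : v ((x P + x Q) * (x P * x Q + κ)) < t * t := by
      rw [map_mul]
      calc v (x P + x Q) * v (x P * x Q + κ) ≤ t * v (x P * x Q + κ) := by gcongr
        _ < t * t := by gcongr
    have hRv : v (x (P - Q) * (x P - x Q) ^ 2) = t * t := by
      rw [hs, hR, ← hmain]
      exact Valuation.map_add_eq_of_lt_left v (by rw [hmain]; exact hsmall)
    rw [map_mul, map_pow] at hRv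
    have h9 : v (x P - x Q) ≤ t := Valuation.map_sub_le v le_rfl hxQ.le
    by_contra hlt
    push Not at hlt
    have h10 : v (x (P - Q)) * v (x P - x Q) ^ 2 < t * t := by
      calc v (x (P - Q)) * v (x P - x Q) ^ 2 ≤ v (x (P - Q)) * t ^ 2 := by gcongr
        _ < 1 * t ^ 2 := by
            have : 0 < t ^ 2 := pow_pos ht0 2
            gcongr
        _ = t * t := by rw [one_mul, sq]
    exact absurd hRv h10.ne

/-- Inertia acts unipotently.
PROOF. `P = 0` trivial. `v (x P) = 1`: `σ P = P` by `eq_of_cong`.  `v (x P) < 1`: `R = σ P - P` is `0` or has unit abscissa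
(`sub_unit_of_node`, `hσv`, `hσI` applied to `y P / x P`), and then `σ R = R` by `eq_of_cong`. -/
theorem IsFreyXY.sigma_unipotent {σG : G →+ G} {σK : K →+* K}
    (hσ0 : ∀ P, P ≠ 0 → σG P ≠ 0)
    (hσX : ∀ P, x (σG P) = σK (x P)) (hσY : ∀ P, y (σG P) = σK (y P))
    (hσI : ∀ z, v z ≤ 1 → v (σK z - z) < 1) (hσv : ∀ z, v (σK z) = v z)
    {P : G} (hpP : p • P = 0) : σG (σG P - P) = σG P - P := by
  -- fixed points: torsion points with unit abscissa
  have hfix : ∀ R : G, R ≠ 0 → p • R = 0 → v (x R) = 1 → σG R = R := by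
    intro R hR hpR hxR
    have hyR := h.y_integral ha₂ hκ hR hxR.le
    refine (h.eq_of_cong ha₂ hκ hκ0 h2 hp hp2 hvp hR hpR (hσ0 R hR) ?_ hxR ?_ ?_).symm
    · rw [← map_nsmul, hpR, map_zero]
    · rw [hσX]; exact hσI _ hxR.le
    · rw [hσY]; exact hσI _ hyR
  by_cases hP : P = 0
  · simp [hP]
  have hxP := h.x_integral ha₂ hκ hκ0 h2 hp hp2 hvp hP hpP
  have hpσ : p • σG P = 0 := by rw [← map_nsmul, hpP, map_zero]
  rcases hxP.lt_or_eq with hlt | heq
  · obtain ⟨hx1, hN1, hw1⟩ := h.slope_integral ha₂ hκ hκ0 h2 hp hp2 hvp hP hpP hlt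
    rcases h.sub_unit_of_node ha₂ hκ hκ0 h2 hp hp2 hvp hP hpP (hσ0 P hP) hpσ hlt
      (by rw [hσX, hσv]) (by
        rw [hσX, hσY, ← map_div₀]
        exact hσI _ hw1) with h1 | h1
    · rw [← h1]; simp
    · have hxR : v (x (σG P - P)) = 1 := by
        rw [← neg_sub, h.toXb.X_neg]; exact h1
      have hR0 : σG P - P ≠ 0 := by
        intro h0
        rw [h0, h.toXb.X_zero, map_zero] at hxR
        exact zero_ne_one hxR
      exact hfix _ hR0 (by rw [smul_sub, hpσ, hpP, sub_zero]) hxR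
  · rw [hfix P hP hpP heq]; simp

end

end Fermat.Agent.S13
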