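import Fermat.Agent.S13.Generic

set_option autoImplicit false

namespace Fermat.Agent.S13

open Polynomial WeierstrassCurve

/-- Ward's rank of apparition argument. -/
theorem ward_dvd {F : Type*} [Field F] (w : ℕ → F)
    (hR : ∀ a e : ℕ, w (2 * a + e + 3) * w (e + 1) =
      w (a + e + 3) * w (a + e + 1) * w (a + 1) ^ 2 - w (a + 2) * w a * w (a + e + 2) ^ 2)
    (N : ℕ) (hN : w N = 0) (h1 : w (N + 1) ≠ 0) (h2 : w (N - 1) ≠ 0)
    (hmin : ∀ k, 0 < k → k < N → w k ≠ 0) : ∀ n, w n = 0 → N ∣ n := by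
  intro n
  induction n using Nat.strong_induction_on with
  | _ n ih =>
    intro hn
    rcases Nat.lt_or_ge n N with hlt | hge
    · rcases Nat.eq_zero_or_pos n with h0 | h0
      · subst h0; exact dvd_zero _
      · exact absurd hn (hmin n h0 hlt)
    · rcases Nat.eq_zero_or_pos N with hN0 | hN0
      · subst hN0
        simp at h2
        exact absurd hN h2
      obtain ⟨d, rfl⟩ : ∃ d, n = N + d := ⟨n - N, by omega⟩
      rcases Nat.eq_zero_or_pos d with hd0 | hd0
      · subst hd0; simp
      suffices hd : w d = 0 by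
        exact (Nat.dvd_add_right dvd_rfl).2 (ih d (by omega) hd)
      rcases Nat.lt_trichotomy d N with hdN | hdN | hdN
      · obtain ⟨a, rfl⟩ : ∃ a, d = a + 1 := ⟨d - 1, by omega⟩
        obtain ⟨e, rfl⟩ : ∃ e, N = a + e + 2 := ⟨N - a - 2, by omega⟩
        have := hR a e
        rw [show 2 * a + e + 3 = a + e + 2 + (a + 1) by omega, hn, hN] at this
        have h2' : w (a + e + 1) ≠ 0 := h2
        have h1' : w (a + e + 3) ≠ 0 := h1
        have h3 : w (a + e + 3) * w (a + e + 1) * w (a + 1) ^ 2 = 0 := by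
          linear_combination -this
        simpa [h1', h2'] using h3
      · subst hdN; exact hN
      · obtain ⟨a, rfl⟩ : ∃ a, N = a + 1 := ⟨N - 1, by omega⟩
        obtain ⟨e, rfl⟩ : ∃ e, d = a + e + 2 := ⟨d - a - 2, by omega⟩
        have := hR a e
        rw [show 2 * a + e + 3 = a + 1 + (a + e + 2) by omega, hn, hN] at this
        have h2' : w a ≠ 0 := h2
        have h1' : w (a + 2) ≠ 0 := h1
        have h3 : w (a + 2) * w a * w (a + e + 2) ^ 2 = 0 := by
          linear_combination this
        simpa [h1', h2'] using h3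

section

variable {K : Type*} [Field K] (W : WeierstrassCurve K)

lemma wseq_zero (x y : K) : wseq W.toAffine x y (0 : ℕ) = 0 := by
  simp [wseq]

lemma wseq_one (x y : K) : wseq W.toAffine x y (1 : ℕ) = 1 := by
  simp [wseq]

lemma wseq_two (x y : K) : wseq W.toAffine x y (2 : ℕ) = b2 W.toAffine x y := by
  simp [wseq]

lemma wseq_three (x y : K) : wseq W.toAffine x y (3 : ℕ) = c3 W.toAffine x := by
  simp [wseq]

lemma wseq_four (x y : K) :
    wseq W.toAffine x y (4 : ℕ) = d4 W.toAffine x * b2 W.toAffine x y := by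
  simp [wseq]

lemma c3_ne_zero_of_b2 [CharZero K] {x y : K} (h : W.toAffine.Nonsingular x y)
    (hb : b2 W.toAffine x y = 0) : c3 W.toAffine x ≠ 0 := by
  intro hc
  rw [Affine.nonsingular_iff, Affine.equation_iff] at h
  obtain ⟨hE, h1 | h1⟩ := h
  · apply h1
    unfold b2 at hb
    unfold c3 at hc
    simp only [WeierstrassCurve.b₂, WeierstrassCurve.b₄, WeierstrassCurve.b₆,
      WeierstrassCurve.b₈] at hc
    have : (W.a₁ * y - (3 * x ^ 2 + 2 * W.a₂ * x + W.a₄)) ^ 2 = 0 := by
      grind
    exact sub_eq_zero.1 (pow_eq_zero_iff two_ne_zero |>.1 this)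
  · apply h1
    unfold b2 at hb
    linear_combination hb

variable [CharZero K] [DecidableEq K]

theorem nsmul_eq_zero_of_wseq (hΔ : W.Δ ≠ 0) {x y : K} (h : W.toAffine.Nonsingular x y)
    (n : ℕ) (hn : 0 < n) (h0 : wseq W.toAffine x y n = 0) :
    n • Affine.Point.some x y h = 0 := by
  have hex : ∃ k : ℕ, 0 < k ∧ wseq W.toAffine x y k = 0 := ⟨n, hn, h0⟩
  classical
  obtain ⟨hN0, hNw⟩ := Nat.find_spec hex
  have hmin : ∀ k : ℕ, 0 < k → k < Nat.find hex → wseq W.toAffine x y k ≠ 0 :=
    fun k hk hkN hw => Nat.find_min hex hkN ⟨hk, hw⟩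
  generalize Nat.find hex = N at *
  have hord : ∀ k, 0 < k → k < N → k • Affine.Point.some x y h ≠ 0 := by
    intro k
    induction k using Nat.strong_induction_on with
    | _ k ih =>
      intro hk hkN h0
      exact hmin k hk hkN ((wseq_eq_zero_iff h (N := k)
        (fun j hj hjk => ih j hjk hj (by omega)) hk).2 h0)
  have hNP : N • Affine.Point.some x y h = 0 := (wseq_eq_zero_iff h hord hN0).1 hNw
  have hN2 : 2 ≤ N := by
    by_contra hlt
    have : N = 1 := by omega
    subst this
    rw [wseq_one] at hNw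
    exact one_ne_zero hNw
  have hdvd : N ∣ n := by
    refine ward_dvd (fun k : ℕ => wseq W.toAffine x y k) (wseq_rel W hΔ h.1) N hNw ?_
      (hmin _ (by omega) (by omega)) hmin n h0
    rcases Nat.lt_or_ge N 4 with h4 | h4
    · have : N = 2 ∨ N = 3 := by omega
      rcases this with rfl | rfl
      · rw [wseq_two] at hNw
        change wseq W.toAffine x y (3 : ℕ) ≠ 0
        rw [wseq_three]
        exact c3_ne_zero_of_b2 W h hNw
      · rw [wseq_three] at hNw
        change wseq W.toAffine x y (4 : ℕ) ≠ 0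
        have hb := hmin 2 (by omega) (by omega)
        rw [wseq_two] at hb
        rw [wseq_four, d4_eq, hNw, ← b2_sq h.1]
        simp [hb]
    · obtain ⟨e, rfl⟩ : ∃ e, N = e + 4 := ⟨N - 4, by omega⟩
      have hr := wseq_rel W hΔ h.1 1 e
      have e1 : 2 * 1 + e + 3 = e + 4 + 1 := by omega
      have e2 : 1 + e + 3 = e + 4 := by omega
      have e3 : 1 + e + 2 = e + 3 := by omega
      rw [e1, e2, e3, hNw] at hr
      have h3 := hmin 3 (by omega) (by omega)
      have h4 := hmin (e + 3) (by omega) (by omega)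
      intro hz
      change wseq W.toAffine x y (e + 4 + 1 : ℕ) = 0 at hz
      rw [hz, wseq_one] at hr
      have : wseq W.toAffine x y (3 : ℕ) * wseq W.toAffine x y (e + 3 : ℕ) ^ 2 = 0 := by
        linear_combination hr
      rcases mul_eq_zero.1 this with h5 | h5
      · exact h3 h5
      · exact h4 (pow_eq_zero_iff two_ne_zero |>.1 h5)
  obtain ⟨c, rfl⟩ := hdvd
  rw [mul_nsmul, hNP, smul_zero]

end

end Fermat.Agent.S13
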