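import Fermat.Agent.S05.AbstractMain

/-!
# S13 / B1: abstract `x`-only arithmetic in "b-form"

`IsXb X b κ` : `x`-only arithmetic of the curve `Y² = X (4 X² + b X + 4 κ)` (a Weierstrass curve with the
2-torsion point `X = 0`).  Contrary to `S05.IsXY` nothing is divided by `2`, so the valuative theory below works
in residue characteristic `2` as well.  `b = -4(α+β)`, `κ = αβ`.
-/

set_option autoImplicit false
set_option linter.unusedSectionVars false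
set_option linter.unusedVariables false

namespace Fermat.Agent.S13

open Fermat.Agent.S05

variable {G : Type*} [AddCommGroup G] {K : Type*} [Field K]
  {Γ₀ : Type*} [LinearOrderedCommGroupWithZero Γ₀]

structure IsXb (X : G → K) (b κ : K) : Prop where
  X_zero : X 0 = 0
  X_neg : ∀ P, X (-P) = X P
  X_eq_iff : ∀ {P Q : G}, P ≠ 0 → Q ≠ 0 → (X P = X Q ↔ P = Q ∨ P = -Q)
  dbl : ∀ {P : G}, P ≠ 0 → P + P ≠ 0 →
    X (P + P) * (X P * (4 * X P ^ 2 + b * X P + 4 * κ)) = (X P ^ 2 - κ) ^ 2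
  sum : ∀ {P Q : G}, P ≠ 0 → Q ≠ 0 → X P ≠ X Q →
    (X (P + Q) + X (P - Q)) * (X P - X Q) ^ 2 =
      2 * (X P + X Q) * (X P * X Q + κ) + b * (X P * X Q)
  prod : ∀ {P Q : G}, P ≠ 0 → Q ≠ 0 → X P ≠ X Q →
    X (P + Q) * X (P - Q) * (X P - X Q) ^ 2 = (X P * X Q - κ) ^ 2

theorem IsXb.of_isXY {X Y : G → K} {α β : K} (h : IsXY X Y α β) :
    IsXb X (-4 * (α + β)) (α * β) where
  X_zero := h.X_zero
  X_neg := h.X_neg
  X_eq_iff := h.X_eq_iff
  dbl := by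
    intro P hP hPP
    have hd := h.dbl hP hPP
    rw [h.Y_sq] at hd
    linear_combination hd
  sum := by
    intro P Q hP hQ hne
    have := h.add_add_sub hP hQ hne
    linear_combination this
  prod := by
    intro P Q hP hQ hne
    exact h.add_mul_sub hP hQ hne

variable {v : Valuation K Γ₀} {X : G → K} {b κ : K}

lemma xb_ne_zero_of_gt {x : K} (hx : 1 < v x) : x ≠ 0 := by
  intro h0; rw [h0, map_zero] at hx; exact absurd hx (by simp)

lemma xb_inv_lt_one {x : K} (hx : 1 < v x) : v x⁻¹ < 1 := by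
  rw [map_inv₀]; exact inv_lt_one_of_one_lt₀ hx

lemma xb_gt_of_inv_lt_one {x : K} (hx0 : x ≠ 0) (hx : v x⁻¹ < 1) : 1 < v x := by
  rw [map_inv₀] at hx
  have hv0 : 0 < v x := by
    rw [zero_lt_iff]; exact (Valuation.ne_zero_iff v).mpr hx0
  exact (inv_lt_one₀ hv0).mp hx

lemma IsXb.ne_zero_of_gt (h : IsXb X b κ) {P : G} (hP : 1 < v (X P)) : P ≠ 0 := by
  rintro rfl
  rw [h.X_zero, map_zero] at hP
  exact absurd hP (by simp)

/-- doubling formula in the variable `1/X`. -/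
lemma IsXb.lemU_dbl (h : IsXb X b κ) (hκ : v κ ≤ 1) {P : G} (hP : P ≠ 0) (hP1 : 1 < v (X P))
    (hPP : P + P ≠ 0) :
    X (P + P) ≠ 0 ∧ (X (P + P))⁻¹ * (1 - κ * (X P)⁻¹ * (X P)⁻¹) ^ 2 =
      2 * ((X P)⁻¹ + (X P)⁻¹) * (1 + κ * (X P)⁻¹ * (X P)⁻¹) + b * ((X P)⁻¹ * (X P)⁻¹) := by
  have hd := h.dbl hP hPP
  have hx0 : X P ≠ 0 := xb_ne_zero_of_gt hP1
  have hne : X P * X P - κ ≠ 0 := mul_sub_ne_zero_of_gt v hP1 hP1 hκ
  have hr : X (P + P) ≠ 0 := by
    intro h0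
    rw [h0, zero_mul] at hd
    have : (X P ^ 2 - κ) = 0 := by
      have := hd.symm
      exact pow_eq_zero_iff (two_ne_zero) |>.mp this
    apply hne
    rw [← this]; ring
  refine ⟨hr, ?_⟩
  generalize X (P + P) = r at *
  generalize X P = x at *
  field_simp
  linear_combination (-1 : K) * hd

/-- sum and product formulas in the variable `1/X`. -/
lemma IsXb.lemU_gen (h : IsXb X b κ) (hκ : v κ ≤ 1) {P Q : G} (hP : P ≠ 0) (hP1 : 1 < v (X P))
    (hQ : Q ≠ 0) (hQ1 : 1 < v (X Q)) (hne : X Q ≠ X P) :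
    X (Q + P) ≠ 0 ∧ X (Q - P) ≠ 0 ∧
    ((X (Q + P))⁻¹ + (X (Q - P))⁻¹) * (1 - κ * (X P)⁻¹ * (X Q)⁻¹) ^ 2 =
      2 * ((X P)⁻¹ + (X Q)⁻¹) * (1 + κ * (X P)⁻¹ * (X Q)⁻¹) + b * ((X P)⁻¹ * (X Q)⁻¹) ∧
    ((X (Q + P))⁻¹ * (X (Q - P))⁻¹) * (1 - κ * (X P)⁻¹ * (X Q)⁻¹) ^ 2 =
      ((X P)⁻¹ - (X Q)⁻¹) ^ 2 := by
  have ha := h.sum hQ hP hne
  have hm := h.prod hQ hP hne
  have hx0 : X P ≠ 0 := xb_ne_zero_of_gt hP1
  have hy0 : X Q ≠ 0 := xb_ne_zero_of_gt hQ1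
  have hne' : X Q * X P - κ ≠ 0 := mul_sub_ne_zero_of_gt v hQ1 hP1 hκ
  have hprod : X (Q + P) * X (Q - P) * (X Q - X P) ^ 2 ≠ 0 := by
    rw [hm]; exact pow_ne_zero 2 hne'
  have hr1 : X (Q + P) ≠ 0 := by
    intro h0; apply hprod; rw [h0]; ring
  have hr2 : X (Q - P) ≠ 0 := by
    intro h0; apply hprod; rw [h0]; ring
  have hd : X Q - X P ≠ 0 := sub_ne_zero.mpr hne
  refine ⟨hr1, hr2, ?_, ?_⟩
  · generalize X (Q + P) = r₁ at *
    generalize X (Q - P) = r₂ at *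
    generalize X P = x at *
    generalize X Q = y at *
    have key : (r₁⁻¹ + r₂⁻¹) * (y * x - κ) ^ 2 =
        2 * (y + x) * (y * x + κ) + b * (y * x) := by
      rw [← hm, ← ha]
      field_simp
      ring
    field_simp at key ⊢
    linear_combination key
  · generalize X (Q + P) = r₁ at *
    generalize X (Q - P) = r₂ at *
    generalize X P = x at *
    generalize X Q = y at *
    have key : (r₁⁻¹ * r₂⁻¹) * (y * x - κ) ^ 2 = (y - x) ^ 2 := by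
      rw [← hm]
      field_simp
    field_simp at key ⊢
    linear_combination key

lemma IsXb.lemU (h : IsXb X b κ) (hκ : v κ ≤ 1) {P Q : G} (hP : P ≠ 0) (hP1 : 1 < v (X P))
    (hPP : P + P ≠ 0) (hQ : Q = 0 ∨ 1 < v (X Q)) :
    ((X (Q + P))⁻¹ + (X (Q - P))⁻¹) * (1 - κ * (X P)⁻¹ * (X Q)⁻¹) ^ 2 =
      2 * ((X P)⁻¹ + (X Q)⁻¹) * (1 + κ * (X P)⁻¹ * (X Q)⁻¹) + b * ((X P)⁻¹ * (X Q)⁻¹) := by
  rcases hQ with rfl | hQ1
  · simp only [zero_add, zero_sub, h.X_neg, h.X_zero, inv_zero]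
    ring
  have hQ0 : Q ≠ 0 := h.ne_zero_of_gt hQ1
  by_cases hX : X Q = X P
  · rcases (h.X_eq_iff hQ0 hP).1 hX with rfl | rfl
    · rw [sub_self, h.X_zero, inv_zero, add_zero]
      exact (h.lemU_dbl hκ hP hP1 hPP).2
    · have e1 : -P + P = 0 := by abel
      have e2 : -P - P = -(P + P) := by abel
      rw [e1, e2, h.X_neg, h.X_neg, h.X_zero, inv_zero, zero_add]
      exact (h.lemU_dbl hκ hP hP1 hPP).2
  · exact (h.lemU_gen hκ hP hP1 hQ0 hQ1 hX).2.2.1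

/-- if `z₁ + z₂` and `z₁ z₂` are in the maximal ideal, so is `z₁`. -/
lemma xb_lt_one_of_sum_prod {z₁ z₂ : K} (hs : v (z₁ + z₂) < 1) (hp : v (z₁ * z₂) < 1) :
    v z₁ < 1 := by
  by_contra hcon
  have h1 : 1 ≤ v z₁ := not_lt.mp hcon
  have h0 : 0 < v z₁ := lt_of_lt_of_le zero_lt_one h1
  have e : z₁ * z₁ = z₁ * (z₁ + z₂) - z₁ * z₂ := by ring
  have hA : v (z₁ * (z₁ + z₂)) < v z₁ * v z₁ := by
    rw [map_mul]
    exact mul_lt_mul_of_pos_left (lt_of_lt_of_le hs h1) h0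
  have hB : v (z₁ * z₂) < v z₁ * v z₁ :=
    lt_of_lt_of_le hp (one_le_mul_of_one_le_of_one_le h1 h1)
  have : v (z₁ * z₁) < v z₁ * v z₁ := by
    rw [e]
    exact v.map_sub_lt hA hB
  rw [map_mul] at this
  exact lt_irrefl _ this

/-- The kernel of reduction is closed under addition. -/
theorem IsXb.E1_add (h : IsXb X b κ) (hb : v b ≤ 1) (hκ : v κ ≤ 1) {P Q : G}
    (hP : P = 0 ∨ 1 < v (X P)) (hQ : Q = 0 ∨ 1 < v (X Q)) :
    P + Q = 0 ∨ 1 < v (X (P + Q)) := by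
  rcases hP with rfl | hP1
  · rw [zero_add]; exact hQ
  rcases hQ with rfl | hQ1
  · rw [add_zero]; exact Or.inr hP1
  have hP0 : P ≠ 0 := h.ne_zero_of_gt hP1
  have hQ0 : Q ≠ 0 := h.ne_zero_of_gt hQ1
  have hs : v (X P)⁻¹ < 1 := xb_inv_lt_one hP1
  have ht : v (X Q)⁻¹ < 1 := xb_inv_lt_one hQ1
  have h2 : v (2 : K) ≤ 1 := le1_ofNat v 2
  have h1 : v (1 : K) ≤ 1 := le1_one v
  by_cases hX : X P = X Q
  · rcases (h.X_eq_iff hP0 hQ0).1 hX with rfl | rfl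
    · by_cases hPP : P + P = 0
      · exact Or.inl hPP
      right
      obtain ⟨hr, hU⟩ := h.lemU_dbl hκ hP0 hP1 hPP
      apply xb_gt_of_inv_lt_one hr
      have hD : v (1 - κ * (X P)⁻¹ * (X P)⁻¹) = 1 := by
        apply Valuation.map_one_sub_of_lt
        exact lt1_mul_right v (le1_mul v hκ hs.le) hs
      have hv : v (X (P + P))⁻¹ = v ((X (P + P))⁻¹ * (1 - κ * (X P)⁻¹ * (X P)⁻¹) ^ 2) := by
        rw [map_mul, map_pow, hD, one_pow, mul_one]
      rw [hv, hU]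
      apply lt1_add v
      · apply lt1_mul_left v (lt1_mul_right v h2 (lt1_add v hs hs))
        exact le1_add v h1 (le1_mul v (le1_mul v hκ hs.le) hs.le)
      · exact lt1_mul_right v hb (lt1_mul_left v hs hs.le)
    · left; abel
  · right
    obtain ⟨hr1, hr2, hS, hPr⟩ := h.lemU_gen hκ hQ0 hQ1 hP0 hP1 hX
    apply xb_gt_of_inv_lt_one hr1
    have hD : v (1 - κ * (X Q)⁻¹ * (X P)⁻¹) = 1 := by
      apply Valuation.map_one_sub_of_lt
      exact lt1_mul_right v (le1_mul v hκ ht.le) hs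
    have hvS : v ((X (P + Q))⁻¹ + (X (P - Q))⁻¹) =
        v (((X (P + Q))⁻¹ + (X (P - Q))⁻¹) * (1 - κ * (X Q)⁻¹ * (X P)⁻¹) ^ 2) := by
      rw [map_mul, map_pow, hD, one_pow, mul_one]
    have hvP : v ((X (P + Q))⁻¹ * (X (P - Q))⁻¹) =
        v (((X (P + Q))⁻¹ * (X (P - Q))⁻¹) * (1 - κ * (X Q)⁻¹ * (X P)⁻¹) ^ 2) := by
      rw [map_mul v (_ * _) (_ ^ 2), map_pow, hD, one_pow, mul_one]
    apply xb_lt_one_of_sum_prod (z₂ := (X (P - Q))⁻¹)
    · rw [hvS, hS]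
      apply lt1_add v
      · apply lt1_mul_left v (lt1_mul_right v h2 (lt1_add v ht hs))
        exact le1_add v h1 (le1_mul v (le1_mul v hκ ht.le) hs.le)
      · exact lt1_mul_right v hb (lt1_mul_left v ht hs.le)
    · rw [hvP, hPr, pow_two]
      exact lt1_mul_left v (lt1_sub v ht hs) (lt1_sub v ht hs).le

theorem IsXb.E1_nsmul (h : IsXb X b κ) (hb : v b ≤ 1) (hκ : v κ ≤ 1) {P : G}
    (hP : P = 0 ∨ 1 < v (X P)) (k : ℕ) : k • P = 0 ∨ 1 < v (X (k • P)) := by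
  induction k with
  | zero => left; simp
  | succ k ih =>
    rw [succ_nsmul]
    exact h.E1_add hb hκ ih hP

lemma xb_claimA_step (hb : v b ≤ 1) (hκ : v κ ≤ 1) {s c c' c'' n : K} (hs : v s < 1)
    (hs0 : s ≠ 0) (hn : v n ≤ 1)
    (hc : v (c - (n + 1) ^ 2) < 1) (hc' : v (c' - n ^ 2) < 1)
    (hU : (c'' * s + c' * s) * (1 - κ * s * (c * s)) ^ 2 =
      2 * (s + c * s) * (1 + κ * s * (c * s)) + b * (s * (c * s))) :
    v (c'' - (n + 2) ^ 2) < 1 := by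
  have hs1 : v s ≤ 1 := hs.le
  have h1 : v (1 : K) ≤ 1 := le1_one v
  have h2 : v (2 : K) ≤ 1 := le1_ofNat v 2
  have hcI : v c ≤ 1 := by
    have : c = (c - (n + 1) ^ 2) + (n + 1) ^ 2 := by ring
    rw [this]
    exact le1_add v hc.le (le1_pow v (le1_add v hn h1) 2)
  have hcI' : v c' ≤ 1 := by
    have : c' = (c' - n ^ 2) + n ^ 2 := by ring
    rw [this]
    exact le1_add v hc'.le (le1_pow v hn 2)
  have hU' : (c'' + c') * (1 - κ * s * (c * s)) ^ 2 =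
      2 * (1 + c) * (1 + κ * s * (c * s)) + b * (s * c) := by
    apply mul_left_cancel₀ hs0
    linear_combination hU
  have hD : v (1 - κ * s * (c * s)) = 1 := by
    apply Valuation.map_one_sub_of_lt
    exact lt1_mul_left v (lt1_mul_right v hκ hs) (le1_mul v hcI hs1)
  have e : (c'' - (n + 2) ^ 2) * (1 - κ * s * (c * s)) ^ 2 =
      2 * (c - (n + 1) ^ 2) - (c' - n ^ 2) + s * (2 * (1 + c) * κ * s * c + b * c
        + (c' + (n + 2) ^ 2) * (2 * κ * s * c - κ ^ 2 * s ^ 3 * c ^ 2)) := by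
    linear_combination hU'
  have hv : v (c'' - (n + 2) ^ 2) = v ((c'' - (n + 2) ^ 2) * (1 - κ * s * (c * s)) ^ 2) := by
    rw [map_mul, map_pow, hD, one_pow, mul_one]
  rw [hv, e]
  apply lt1_add v (lt1_sub v (lt1_mul_right v h2 hc) hc')
  apply lt1_mul_left v hs
  apply_rules [le1_add, le1_sub, le1_mul, le1_pow]

/-- Claim A (torsion of order prime to the residue characteristic is integral). -/
theorem IsXb.claimA (h : IsXb X b κ) (hb : v b ≤ 1) (hκ : v κ ≤ 1) {p : ℕ} (hp : p.Prime)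
    (hp2 : p ≠ 2) (hvp : v (p : K) = 1) {P : G} (hP : P ≠ 0) (hpP : p • P = 0) :
    v (X P) ≤ 1 := by
  by_contra hcon
  have hP1 : 1 < v (X P) := not_le.mp hcon
  have hx0 : X P ≠ 0 := xb_ne_zero_of_gt hP1
  have hs : v (X P)⁻¹ < 1 := xb_inv_lt_one hP1
  have hs0 : (X P)⁻¹ ≠ 0 := inv_ne_zero hx0
  have hPP := add_self_ne_zero_of_prime hp hp2 hP hpP
  have key : ∀ k : ℕ, v ((X (k • P))⁻¹ * X P - (k : K) ^ 2) < 1 ∧
      v ((X ((k + 1) • P))⁻¹ * X P - ((k : K) + 1) ^ 2) < 1 := by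
    intro k
    induction k with
    | zero => simp [h.X_zero, hx0]
    | succ k ih =>
      refine ⟨by push_cast; exact ih.2, ?_⟩
      have hQ : (k + 1) • P = 0 ∨ 1 < v (X ((k + 1) • P)) :=
        h.E1_nsmul hb hκ (Or.inr hP1) (k + 1)
      have U := h.lemU hκ hP hP1 hPP hQ
      have e1 : (k + 1) • P + P = (k + 1 + 1) • P := (succ_nsmul P (k + 1)).symm
      have e2 : (k + 1) • P - P = k • P := by rw [succ_nsmul]; abel
      rw [e1, e2] at U
      have := xb_claimA_step (v := v) (b := b) (κ := κ) hb hκ (s := (X P)⁻¹)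
        (c := (X ((k + 1) • P))⁻¹ * X P) (c' := (X (k • P))⁻¹ * X P)
        (c'' := (X ((k + 1 + 1) • P))⁻¹ * X P) (n := (k : K)) hs hs0 (le1_natCast v k) ih.2 ih.1
        (by simp only [mul_inv_cancel_right₀ hx0]; exact U)
      push_cast
      have e3 : (k : K) + 1 + 1 = (k : K) + 2 := by ring
      rw [e3]
      exact this
  have := (key p).1
  rw [hpP, h.X_zero, inv_zero, zero_mul, zero_sub, Valuation.map_neg, map_pow, hvp, one_pow] at this
  exact lt_irrefl _ this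

end Fermat.Agent.S13
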