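import Fermat.Agent.S13.Xb

/-!
# S13 / B2: multiplicative reduction in b-form: the subgroup `E0`, Claim N
Hypotheses: `v b ≤ 1` (`= 1` where stated), `v κ < 1`, `κ ≠ 0`.  NO hypothesis on `v 2` or `v p`.
-/

set_option autoImplicit false
set_option linter.unusedSectionVars false
set_option linter.unusedVariables false

namespace Fermat.Agent.S13

open Fermat.Agent.S05

variable {G : Type*} [AddCommGroup G] {K : Type*} [Field K]
  {Γ₀ : Type*} [LinearOrderedCommGroupWithZero Γ₀]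
  {v : Valuation K Γ₀} {X : G → K} {b κ : K}

theorem xb_v_two_le : v (2 : K) ≤ 1 := by
  have : (2 : K) = 1 + 1 := by norm_num
  rw [this]
  exact Valuation.map_add_le v (by simp) (by simp)

theorem xb_v_four_le : v (4 : K) ≤ 1 := by
  have : (4 : K) = 2 * 2 := by norm_num
  rw [this, map_mul]
  exact mul_le_one' xb_v_two_le xb_v_two_le

/-- the case of distinct abscissas -/
theorem xb_E0_aux (hb : v b ≤ 1) (hκ : v κ < 1) {x₁ x₂ x₃ x₄ : K} (h1 : 1 ≤ v x₁) (h2 : 1 ≤ v x₂)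
    (hne : x₁ ≠ x₂)
    (hsum : (x₃ + x₄) * (x₁ - x₂) ^ 2 = 2 * (x₁ + x₂) * (x₁ * x₂ + κ) + b * (x₁ * x₂))
    (hprod : x₃ * x₄ * (x₁ - x₂) ^ 2 = (x₁ * x₂ - κ) ^ 2) : 1 ≤ v x₃ := by
  by_contra hcon
  push Not at hcon
  set M := v x₁ * v x₂ with hM
  have hM1 : 1 ≤ M := one_le_mul h1 h2
  have hM0 : 0 < M := lt_of_lt_of_le zero_lt_one hM1
  have hx1M : v x₁ ≤ M := le_mul_of_one_le_right' h2
  have hx2M : v x₂ ≤ M := le_mul_of_one_le_left' h1
  have hκM : v κ < M := lt_of_lt_of_le hκ hM1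
  have hδ : v (x₁ - x₂) ≤ M := Valuation.map_sub_le v hx1M hx2M
  have hδ0 : 0 < v (x₁ - x₂) := zero_lt_iff.mpr ((Valuation.ne_zero_iff v).mpr (sub_ne_zero.mpr hne))
  have hnum : v (x₁ * x₂ - κ) = M := by
    rw [hM, ← map_mul]
    apply Valuation.map_sub_eq_of_lt_left
    rw [map_mul]; exact hκM
  have hp := congrArg v hprod
  rw [map_mul, map_mul, map_pow, map_pow, hnum] at hp
  -- `v x₄ * δ² > M²`
  have hδ2 : 0 < v (x₁ - x₂) ^ 2 := pow_pos hδ0 2
  have h4pos : 0 < v x₄ * v (x₁ - x₂) ^ 2 := by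
    rcases eq_or_lt_of_le (zero_le (a := v x₄ * v (x₁ - x₂) ^ 2)) with h0 | h0
    · exfalso
      rw [mul_assoc, ← h0, mul_zero] at hp
      exact (pow_pos hM0 2).ne hp
    · exact h0
  have h4 : M ^ 2 < v x₄ * v (x₁ - x₂) ^ 2 := by
    rw [← hp, mul_assoc]
    calc v x₃ * (v x₄ * v (x₁ - x₂) ^ 2) < 1 * (v x₄ * v (x₁ - x₂) ^ 2) := by gcongr
      _ = _ := one_mul _
  have h41 : 1 < v x₄ := by
    by_contra h
    push Not at h
    have : v x₄ * v (x₁ - x₂) ^ 2 ≤ M ^ 2 := by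
      calc v x₄ * v (x₁ - x₂) ^ 2 ≤ 1 * M ^ 2 := by gcongr
        _ = M ^ 2 := one_mul _
    exact absurd h4 (not_lt.mpr this)
  have hs34 : v (x₃ + x₄) = v x₄ := Valuation.map_add_eq_of_lt_right v (lt_trans hcon h41)
  have hs := congrArg v hsum
  rw [map_mul, map_pow, hs34] at hs
  have hR : v (2 * (x₁ + x₂) * (x₁ * x₂ + κ) + b * (x₁ * x₂)) ≤ M ^ 2 := by
    apply Valuation.map_add_le
    · rw [map_mul, map_mul, sq]
      have e1 : v (x₁ + x₂) ≤ M := Valuation.map_add_le v hx1M hx2M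
      have e2 : v (x₁ * x₂ + κ) ≤ M := Valuation.map_add_le v (by rw [map_mul]) hκM.le
      calc v 2 * v (x₁ + x₂) * v (x₁ * x₂ + κ) ≤ 1 * M * M := by
            gcongr
            exact xb_v_two_le
        _ = M * M := by rw [one_mul]
    · rw [map_mul, map_mul, ← hM, sq]
      calc v b * M ≤ 1 * M := by gcongr
        _ = M := one_mul _
        _ ≤ M * M := le_mul_of_one_le_left' hM1
  rw [← hs] at hR
  exact absurd h4 (not_lt.mpr hR)

/-- the duplication case -/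
theorem xb_E0_dbl_aux (hb : v b ≤ 1) (hκ : v κ < 1) {x r : K} (h1 : 1 ≤ v x)
    (hdbl : r * (x * (4 * x ^ 2 + b * x + 4 * κ)) = (x ^ 2 - κ) ^ 2) : 1 ≤ v r := by
  by_contra hcon
  push Not at hcon
  have hx0 : 0 < v x := lt_of_lt_of_le zero_lt_one h1
  have hx2 : 1 ≤ v x ^ 2 := one_le_pow_of_one_le' h1 2
  have hnum : v (x ^ 2 - κ) = v x ^ 2 := by
    rw [← map_pow]
    apply Valuation.map_sub_eq_of_lt_left
    rw [map_pow]; exact lt_of_lt_of_le hκ hx2
  have hden : v (4 * x ^ 2 + b * x + 4 * κ) ≤ v x ^ 2 := by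
    apply Valuation.map_add_le
    · apply Valuation.map_add_le
      · rw [map_mul, map_pow]
        calc v 4 * v x ^ 2 ≤ 1 * v x ^ 2 := by
              gcongr
              exact xb_v_four_le
          _ = v x ^ 2 := one_mul _
      · rw [map_mul, sq]
        calc v b * v x ≤ 1 * v x := by gcongr
          _ = v x := one_mul _
          _ ≤ v x * v x := le_mul_of_one_le_left' h1
    · rw [map_mul]
      calc v 4 * v κ ≤ 1 * 1 := mul_le_mul' xb_v_four_le hκ.le
        _ = 1 := one_mul _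
        _ ≤ v x ^ 2 := hx2
  have h := congrArg v hdbl
  rw [map_mul, map_mul, map_pow, hnum] at h
  have hpos : 0 < v x * v (4 * x ^ 2 + b * x + 4 * κ) := by
    rcases eq_or_lt_of_le (zero_le (a := v x * v (4 * x ^ 2 + b * x + 4 * κ))) with h0 | h0
    · exfalso
      rw [← h0, mul_zero] at h
      exact (pow_pos (pow_pos hx0 2) 2).ne h
    · exact h0
  have hlt : (v x ^ 2) ^ 2 < v x * v x ^ 2 := by
    rw [← h]
    calc v r * (v x * v (4 * x ^ 2 + b * x + 4 * κ))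
        < 1 * (v x * v (4 * x ^ 2 + b * x + 4 * κ)) := by gcongr
      _ = v x * v (4 * x ^ 2 + b * x + 4 * κ) := one_mul _
      _ ≤ v x * v x ^ 2 := by gcongr
  have hge : v x * v x ^ 2 ≤ (v x ^ 2) ^ 2 := by
    rw [sq (v x ^ 2)]
    gcongr
    rw [sq]
    exact le_mul_of_one_le_left' h1
  exact absurd hlt (not_lt.mpr hge)

theorem IsXb.ne_zero_of_one_le (h : IsXb X b κ) {P : G} (hP : 1 ≤ v (X P)) : P ≠ 0 := by
  rintro rfl
  rw [h.X_zero, map_zero] at hP
  exact absurd hP (not_le.mpr zero_lt_one)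

/-- Points not reducing to the node `X = 0` form a subgroup. -/
theorem IsXb.E0_add (h : IsXb X b κ) (hb : v b ≤ 1) (hκ : v κ < 1) {P Q : G}
    (hP : P = 0 ∨ 1 ≤ v (X P)) (hQ : Q = 0 ∨ 1 ≤ v (X Q)) :
    P + Q = 0 ∨ 1 ≤ v (X (P + Q)) := by
  rcases hP with rfl | hP
  · rw [zero_add]; exact hQ
  rcases hQ with rfl | hQ
  · rw [add_zero]; exact Or.inr hP
  have hP0 := h.ne_zero_of_one_le hP
  have hQ0 := h.ne_zero_of_one_le hQ
  by_cases hne : X P = X Q
  · rcases (h.X_eq_iff hP0 hQ0).mp hne with rfl | rfl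
    · by_cases hPP : P + P = 0
      · exact Or.inl hPP
      · exact Or.inr (xb_E0_dbl_aux hb hκ hP (h.dbl hP0 hPP))
    · left; simp
  · exact Or.inr (xb_E0_aux hb hκ hP hQ hne (h.sum hP0 hQ0 hne) (h.prod hP0 hQ0 hne))

theorem IsXb.E0_nsmul (h : IsXb X b κ) (hb : v b ≤ 1) (hκ : v κ < 1) {P : G}
    (hP : P = 0 ∨ 1 ≤ v (X P)) (k : ℕ) : k • P = 0 ∨ 1 ≤ v (X (k • P)) := by
  induction k with
  | zero => left; simp
  | succ k ih => rw [succ_nsmul]; exact h.E0_add hb hκ ih hP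

/-- All nonzero multiples of a `p`-torsion point reducing to the node reduce to the node
(`P = m • (k • P)`, `S05.exists_nsmul_inverse`). -/
theorem IsXb.node_nsmul (h : IsXb X b κ) (hb : v b ≤ 1) (hκ : v κ < 1) {p : ℕ} (hp : p.Prime)
    {P : G} (hpP : p • P = 0) (hXP : v (X P) < 1) {k : ℕ} (hk : k • P ≠ 0) :
    v (X (k • P)) < 1 := by
  by_contra hcon
  push Not at hcon
  obtain ⟨m, hm⟩ := exists_nsmul_inverse hp hpP hk
  have := h.E0_nsmul hb hκ (Or.inr hcon) m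
  rw [hm] at this
  rcases this with rfl | h1
  · exact hk (smul_zero k)
  · exact absurd hXP (not_lt.mpr h1)

/-- Claim N. -/
theorem IsXb.claimN (h : IsXb X b κ) (hb : v b ≤ 1) (hκ : v κ < 1) (hκ0 : κ ≠ 0) {p : ℕ}
    (hp : p.Prime) (hp2 : p ≠ 2) {P : G} (hP : P ≠ 0) (hpP : p • P = 0) (hXP : v (X P) < 1) :
    v κ < v (X P) := by
  by_contra hcon
  push Not at hcon
  have hν0 : 0 < v κ := zero_lt_iff.mpr ((Valuation.ne_zero_iff v).mpr hκ0)
  have hPP := add_self_ne_zero_of_prime hp hp2 hP hpP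
  have h3 : v (X (P + P)) < 1 := by
    have := h.node_nsmul hb hκ hp hpP hXP (k := 2) (by rw [two_nsmul]; exact hPP)
    rwa [two_nsmul] at this
  have hd := congrArg v (h.dbl hP hPP)
  have hx2 : v (X P ^ 2) < v κ := by
    rw [map_pow, sq]
    calc v (X P) * v (X P) ≤ v κ * v (X P) := by gcongr
      _ < v κ * 1 := by gcongr
      _ = v κ := mul_one _
  have hnum : v (X P ^ 2 - κ) = v κ := Valuation.map_sub_eq_of_lt_right v hx2
  have hden : v (4 * X P ^ 2 + b * X P + 4 * κ) ≤ v κ := by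
    apply Valuation.map_add_le
    · apply Valuation.map_add_le
      · rw [map_mul]
        calc v 4 * v (X P ^ 2) ≤ 1 * v κ := mul_le_mul' xb_v_four_le hx2.le
          _ = v κ := one_mul _
      · rw [map_mul]
        calc v b * v (X P) ≤ 1 * v κ := by gcongr
          _ = v κ := one_mul _
    · rw [map_mul]
      calc v 4 * v κ ≤ 1 * v κ := by
            gcongr
            exact xb_v_four_le
        _ = v κ := one_mul _
  rw [map_mul, map_mul, map_pow, hnum] at hd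
  have hle : v (X P) * v (4 * X P ^ 2 + b * X P + 4 * κ) ≤ v κ ^ 2 := by
    rw [sq (v κ)]; exact mul_le_mul' hcon hden
  have hpos : 0 < v (X P) * v (4 * X P ^ 2 + b * X P + 4 * κ) := by
    rcases eq_or_lt_of_le (zero_le (a := v (X P) * v (4 * X P ^ 2 + b * X P + 4 * κ))) with h0 | h0
    · exfalso
      rw [← h0, mul_zero] at hd
      exact (pow_pos hν0 2).ne hd
    · exact h0
  have hlt : v κ ^ 2 < v κ ^ 2 := by
    calc v κ ^ 2 = v (X (P + P)) * (v (X P) * v (4 * X P ^ 2 + b * X P + 4 * κ)) := hd.symm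
      _ < 1 * (v (X P) * v (4 * X P ^ 2 + b * X P + 4 * κ)) := by gcongr
      _ = v (X P) * v (4 * X P ^ 2 + b * X P + 4 * κ) := one_mul _
      _ ≤ v κ ^ 2 := hle
  exact lt_irrefl _ hlt

end Fermat.Agent.S13
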